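import Mathlib.RingTheory.IntegralClosure.IntegrallyClosed
import Mathlib.RingTheory.Polynomial.ScaleRoots
import Mathlib.RingTheory.Localization.FractionRing
import Mathlib.Algebra.Polynomial.FieldDivision
import Mathlib.RingTheory.PrincipalIdealDomain

/-!
# Descent of integral elements along traces, abstract part
-/

set_option autoImplicit false

noncomputable section

open Function Polynomial

namespace FermatAgent.Igusa

variable {B : Type*} [CommRing B] [IsDomain B] {k : Type*} [Field k]
variable {K : Type*} [Field K] [Algebra B K] [IsFractionRing B K]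

/-- A quotient of two elements rational over `k[σ] ⊆ C` and integral over `C` lies in `B`. -/
theorem exists_of_integral_of_rational (C : Subring B) (ψ : k[X] →+* B) (hψC : ∀ p, ψ p ∈ C)
    (hψ : Injective ψ) {a b : B} (hb : b ≠ 0)
    (ha' : ∃ p q : k[X], q ≠ 0 ∧ a * ψ q = ψ p) (hb' : ∃ p q : k[X], q ≠ 0 ∧ b * ψ q = ψ p)
    {z : K} (hz : z * algebraMap B K b = algebraMap B K a) (hint : IsIntegral C z) :
    ∃ c : B, c * b = a := by
  classical
  have hι : Injective (algebraMap B K) := IsFractionRing.injective _ _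
  obtain ⟨pa, qa, hqa, ea⟩ := ha'
  obtain ⟨pb, qb, hqb, eb⟩ := hb'
  have hψ0 : ∀ p : k[X], p ≠ 0 → ψ p ≠ 0 := fun p hp h => hp (hψ (h.trans (map_zero _).symm))
  have hpb : pb ≠ 0 := fun h => mul_ne_zero hb (hψ0 qb hqb) (by rw [eb, h, map_zero])
  have hzpq : z * algebraMap B K (ψ (qa * pb)) = algebraMap B K (ψ (pa * qb)) := by
    rw [map_mul ψ, map_mul ψ, ← ea, ← eb]
    simp only [map_mul]
    linear_combination algebraMap B K (ψ qa) * algebraMap B K (ψ qb) * hz
  obtain ⟨q, p, g, hqp, hg1, hg2⟩ :=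
    UniqueFactorizationMonoid.exists_reduced_factors (qa * pb) (mul_ne_zero hqa hpb) (pa * qb)
  have hgq : g ≠ 0 ∧ q ≠ 0 := mul_ne_zero_iff.mp (hg1 ▸ mul_ne_zero hqa hpb)
  have hzpq' : z * algebraMap B K (ψ q) = algebraMap B K (ψ p) := by
    have hne : algebraMap B K (ψ g) ≠ 0 := (map_ne_zero_iff _ hι).mpr (hψ0 g hgq.1)
    refine mul_left_cancel₀ hne ?_
    rw [← hg1, ← hg2, map_mul, map_mul, map_mul, map_mul] at hzpq
    linear_combination hzpq
  obtain ⟨F, hF, hFz⟩ := hint
  let ψ' : k[X] →+* C := ψ.codRestrict C hψC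
  have hroot : (F.scaleRoots (ψ' q)).eval (ψ' p) = 0 := by
    have h1 := scaleRoots_eval₂_mul (p := F) (algebraMap C K) z (ψ' q)
    rw [show algebraMap C K (ψ' q) * z = algebraMap C K (ψ' p) from (mul_comm _ _).trans hzpq',
      hFz, mul_zero, eval₂_at_apply] at h1
    exact Subtype.ext (hι (h1.trans (map_zero _).symm))
  have hdvd : ψ' q ∣ ψ' p ^ F.natDegree := by
    have h2 := hroot
    rw [eval_eq_sum_range, natDegree_scaleRoots, Finset.sum_range_succ, coeff_scaleRoots_natDegree,
      hF.leadingCoeff, one_mul] at h2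
    rw [eq_neg_of_add_eq_zero_right h2, dvd_neg]
    refine Finset.dvd_sum fun i hi => ?_
    rw [Finset.mem_range] at hi
    rw [coeff_scaleRoots]
    exact dvd_mul_of_dvd_left (dvd_mul_of_dvd_right (dvd_pow_self _ (by omega)) _) _
  obtain ⟨u, v, huv⟩ := (isRelPrime_iff_isCoprime.mp hqp.symm).pow_left (m := F.natDegree)
  obtain ⟨w, hw⟩ : ψ' q ∣ 1 := by
    have h3 := congrArg ψ' huv
    rw [map_one, map_add, map_mul, map_mul, map_pow] at h3
    rw [← h3]
    exact dvd_add (dvd_mul_of_dvd_right hdvd _) (dvd_mul_left _ _)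
  refine ⟨ψ p * (w : B), hι ?_⟩
  have hw' : ψ q * (w : B) = 1 := (congrArg Subtype.val hw).symm
  have hwK : algebraMap B K (ψ q) * algebraMap B K (w : B) = 1 := by
    rw [← map_mul, hw', map_one]
  rw [map_mul, map_mul, ← hzpq', ← hz]
  linear_combination z * algebraMap B K b * hwK

/-- The conjugates of an integral fraction have integral traces. -/
theorem exists_integral_trace (C : Subring B) [Algebra.IsIntegral C B] {T : Type*} [Fintype T]
    (σ : T → B →+* B) (hσ : ∀ d, Injective (σ d)) {f : K} (hf : IsIntegral B f) {N A' : B}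
    (hN : ∀ d, σ d N = N) (hfN : f * algebraMap B K N = algebraMap B K A') (y : B) :
    ∃ z : K, IsIntegral C z ∧ z * algebraMap B K N = algebraMap B K (∑ d, σ d (y * A')) := by
  classical
  have hconj : ∀ d : T, ∃ g : K, IsIntegral B g ∧
      g * algebraMap B K N = algebraMap B K (σ d A') := by
    intro d
    let φ : K →+* K := IsFractionRing.map (hσ d)
    have hφ : ∀ x, φ (algebraMap B K x) = algebraMap B K (σ d x) := fun x =>
      IsLocalization.map_eq _ x
    refine ⟨φ f, ?_, ?_⟩
    · obtain ⟨F, hF, hFf⟩ := hf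
      refine ⟨F.map (σ d), hF.map _, ?_⟩
      rw [eval₂_map, show (algebraMap B K).comp (σ d) = φ.comp (algebraMap B K) from
        RingHom.ext fun x => (hφ x).symm, ← hom_eval₂, hFf, map_zero]
    · have h2 := congrArg φ hfN
      rw [map_mul, hφ, hφ, hN d] at h2
      exact h2
  choose g hg hgN using hconj
  refine ⟨∑ d : T, algebraMap B K (σ d y) * g d, ?_, ?_⟩
  · exact isIntegral_trans _ (IsIntegral.sum _ fun d _ => isIntegral_algebraMap.mul (hg d))
  · rw [Finset.sum_mul, map_sum]
    refine Finset.sum_congr rfl fun d _ => ?_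
    rw [mul_assoc, hgN, ← map_mul, map_mul (σ d)]

end FermatAgent.Igusa

end
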