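import Fermat.Agent.Igusa.Fibre.FreeTrick
import Fermat.Agent.Igusa.Fibre.NormalAux

/-!
# The residual functions of level `L` form a normal domain
-/

set_option autoImplicit false
set_option synthInstance.maxHeartbeats 200000

noncomputable section

open UpperHalfPlane hiding I
open Function Polynomial
open scoped MatrixGroups

namespace FermatAgent.Igusa

open FermatAgent.ModFun ModularCurve

variable {L M e : ℕ} [NeZero L] {R : Subring ℂ} {k : Type*} [Field k] (ρ : R →+* k)

/-- Residual classes of `Γ(M)`-invariant functions. -/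
def invRes (L M : ℕ) [NeZero L] (R : Subring ℂ) (ρ : R →+* k) : Subring (Res L R ρ) :=
  (FixedPoints.subring (intFun L R) ↥(CongruenceSubgroup.Gamma M)).map (toRes L R ρ)

theorem toRes_mem_invRes {f : intFun L R}
    (h : ∀ δ ∈ CongruenceSubgroup.Gamma M, δ • f = f) : toRes L R ρ f ∈ invRes L M R ρ :=
  ⟨f, fun g => h g g.2, rfl⟩

theorem isIntegral_invRes (x : Res L R ρ) : IsIntegral (invRes L M R ρ) x := by
  obtain ⟨X, rfl⟩ := Ideal.Quotient.mk_surjective x
  obtain ⟨F, hF, hFX⟩ := exists_monic_root (M := L) (R := R) X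
  let g : R[X] →+* invRes L M R ρ :=
    ((toRes L R ρ).comp (polyInt L R)).codRestrict (invRes L M R ρ) fun P =>
      toRes_mem_invRes ρ fun δ _ => smul_polyInt L R δ P
  refine ⟨F.map g, hF.map g, ?_⟩
  rw [eval₂_map, show (algebraMap (invRes L M R ρ) (Res L R ρ)).comp g =
    (toRes L R ρ).comp (polyInt L R) from rfl]
  rw [← hom_eval₂, hFX, map_zero]

theorem toRes_constHom_eq_zero {r : R} (hr : ρ r = 0) : toRes L R ρ (constHom L R r) = 0 := by
  apply resExp_injective L R ρ
  rw [resExp_toRes, map_zero, redExp, RingHom.comp_apply, intExp_constHom, HahnSeries.C_apply,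
    coeffMap_single, hr, map_zero]

section Sigma

variable (hR : HasRoots L R) (hL : (L : ℂ)⁻¹ ∈ R) (hB : BaseLevel L M e) (hρ : Surjective ρ)

/-- The constants of the residual functions. -/
def resConst : k →+* Res L R ρ :=
  ρ.liftOfSurjective hρ ⟨(toRes L R ρ).comp (constHom L R), fun _ hr => RingHom.mem_ker.mpr
    (toRes_constHom_eq_zero ρ (RingHom.mem_ker.mp hr))⟩

theorem resConst_apply (r : R) : resConst (L := L) ρ hρ (ρ r) = toRes L R ρ (constHom L R r) :=
  RingHom.liftOfRightInverse_comp_apply _ _ _ _ r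

/-- Polynomials in the residual Hauptmodul. -/
def sigmaRes : k[X] →+* Res L R ρ :=
  eval₂RingHom (resConst ρ hρ) (toRes L R ρ (sigmaInt hR hL hB))

theorem sigmaRes_map (P : R[X]) :
    sigmaRes ρ hR hL hB hρ (P.map ρ) = toRes L R ρ (sigmaEval hR hL hB P) := by
  have : (sigmaRes ρ hR hL hB hρ).comp (mapRingHom ρ) =
      (toRes L R ρ).comp (sigmaEval hR hL hB) := by
    refine Polynomial.ringHom_ext (fun r => ?_) ?_
    · simp [sigmaRes, sigmaEval, resConst_apply]
    · simp [sigmaRes, sigmaEval]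
  exact RingHom.congr_fun this P

theorem sigmaRes_mem (p : k[X]) : sigmaRes ρ hR hL hB hρ p ∈ invRes L M R ρ := by
  obtain ⟨P, rfl⟩ := Polynomial.map_surjective ρ hρ p
  rw [sigmaRes_map]
  exact toRes_mem_invRes ρ fun δ hδ => smul_sigmaEval_of_mem hR hL hB hδ P

theorem sigmaRes_injective : Injective (sigmaRes ρ hR hL hB hρ) := by
  refine (injective_iff_map_eq_zero _).mpr fun p hp => ?_
  by_contra hp0
  obtain ⟨P, rfl⟩ := Polynomial.map_surjective ρ hρ p
  set x : LaurentSeries k := redExp L R ρ (sigmaInt hR hL hB) with hx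
  have hlead := leadAt_sigmaInt hR hL hB (γ := 1) (by simp)
  rw [one_smul] at hlead
  have hxb : ∀ i < -(e : ℤ), x.coeff i = 0 := fun i hi => by
    rw [hx, redExp, RingHom.comp_apply, coeffMap_coeff, hlead.1 i hi, map_zero]
  have hxl : x.coeff (-(e : ℤ)) ≠ 0 := by
    rw [hx, redExp, RingHom.comp_apply, coeffMap_coeff]
    exact (hlead.2.map ρ).ne_zero
  have hxp : ∀ j : ℕ, (∀ i < (j : ℤ) * -(e : ℤ), (x ^ j).coeff i = 0) ∧
      (x ^ j).coeff ((j : ℤ) * -(e : ℤ)) ≠ 0 := by
    intro j
    induction j with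
    | zero =>
      refine ⟨fun i hi => ?_, by simp⟩
      rw [pow_zero, HahnSeries.coeff_one, if_neg]
      push_cast at hi; omega
    | succ j ih =>
      have h := coeff_mul_of_bound ih.1 hxb
      rw [pow_succ, show (((j + 1 : ℕ) : ℤ)) * -(e : ℤ) = (j : ℤ) * -(e : ℤ) + -(e : ℤ) by
        push_cast; ring]
      exact ⟨h.1, h.2 ▸ mul_ne_zero ih.2 hxl⟩
  set q := P.map ρ with hq
  have h0 : q.eval₂ (HahnSeries.C : k →+* LaurentSeries k) x = 0 := by
    have h1 := congrArg (resExp L R ρ) hp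
    rw [sigmaRes, coe_eval₂RingHom, hom_eval₂, map_zero, resExp_toRes] at h1
    rw [show (resExp L R ρ).comp (resConst ρ hρ) = (HahnSeries.C : k →+* LaurentSeries k) from
      RingHom.ext fun a => by
        obtain ⟨r, rfl⟩ := hρ a
        rw [RingHom.comp_apply, resConst_apply, resExp_toRes, redExp, RingHom.comp_apply,
          intExp_constHom, HahnSeries.C_apply, coeffMap_single, HahnSeries.C_apply]] at h1
    exact h1
  rw [eval₂_eq_sum_range, Finset.sum_range_succ] at h0
  have hz := congrArg (fun s : LaurentSeries k => s.coeff ((q.natDegree : ℤ) * -(e : ℤ))) h0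
  simp only [HahnSeries.coeff_add, HahnSeries.coeff_sum, HahnSeries.coeff_zero, HahnSeries.C_apply,
    HahnSeries.coeff_single_zero_mul] at hz
  rw [Finset.sum_eq_zero, zero_add] at hz
  · exact mul_ne_zero (leadingCoeff_ne_zero.mpr hp0) (hxp _).2 hz
  · intro i hi
    rw [Finset.mem_range] at hi
    rw [(hxp i).1 _ ?_, mul_zero]
    have : (0 : ℤ) < e := by exact_mod_cast hB.pos
    nlinarith [(by exact_mod_cast hi : (i : ℤ) < (q.natDegree : ℤ))]

include hR hL hB hρ in
theorem exists_sigmaRes_of_invariant {f : intFun L R}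
    (hf : ∀ δ ∈ CongruenceSubgroup.Gamma M, δ • f = f) :
    ∃ p q : k[X], q ≠ 0 ∧ toRes L R ρ f * sigmaRes ρ hR hL hB hρ q = sigmaRes ρ hR hL hB hρ p := by
  obtain ⟨Q, P, hQ, hP⟩ := exists_mul_sigmaEval_eq hR hL hB f hf
  refine ⟨P.map ρ, Q.map ρ, (hQ.map ρ).ne_zero, ?_⟩
  rw [sigmaRes_map, sigmaRes_map, ← map_mul, hP]

end Sigma

/-- The residual functions of level `L` form a normal domain. -/
theorem isIntegrallyClosed_res' (hR : HasRoots L R) (hL : (L : ℂ)⁻¹ ∈ R) (hρ : Surjective ρ)
    (h3 : 3 ≤ L) (hM : 2 ∣ L ∨ 3 ∣ L) : IsIntegrallyClosed (Res L R ρ) := by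
  classical
  obtain ⟨M, e, hB⟩ := exists_baseLevel hM
  have hD := decompGroup_eq_top ρ hR hL
  rw [isIntegrallyClosed_iff (FractionRing (Res L R ρ))]
  intro f hf
  set ι := algebraMap (Res L R ρ) (FractionRing (Res L R ρ))
  have hι : Injective ι := IsFractionRing.injective _ _
  obtain ⟨a, ⟨b, hb⟩, hab⟩ := IsLocalization.exists_mk'_eq (nonZeroDivisors (Res L R ρ)) f
  have hb0 : b ≠ 0 := nonZeroDivisors.ne_zero hb
  have hfb : f * ι b = ι a := by rw [← hab]; exact IsLocalization.mk'_spec _ _ _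
  obtain ⟨A, rfl⟩ := Ideal.Quotient.mk_surjective a
  obtain ⟨B, rfl⟩ := Ideal.Quotient.mk_surjective b
  set T := ↥(CongruenceSubgroup.Gamma M) ⧸ levelKer L M
  set t₁ : T := QuotientGroup.mk 1 with ht₁
  set N : intFun L R := ∏ d : T, rep d • B with hN
  set A' : intFun L R := A * ∏ d ∈ Finset.univ.erase t₁, rep d • B with hA'
  have hfix : ∀ x : intFun L R, ∀ g ∈ levelKer L M, g • x = x := fun x g hg =>
    smul_of_mem_pmGamma (Subgroup.mem_subgroupOf.mp hg) x
  have hNinv : ∀ δ ∈ CongruenceSubgroup.Gamma M, δ • N = N := fun δ hδ => by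
    rw [hN, Finset.smul_prod']
    exact Fintype.prod_equiv (MulAction.toPerm (⟨δ, hδ⟩ : ↥(CongruenceSubgroup.Gamma M))) _ _
      fun d => smul_out_smul (hfix B) (⟨δ, hδ⟩ : ↥(CongruenceSubgroup.Gamma M)) d
  have hTinv : ∀ x : intFun L R, ∀ δ ∈ CongruenceSubgroup.Gamma M,
      δ • (∑ d : T, rep d • x) = ∑ d : T, rep d • x := fun x δ hδ =>
    smul_sum_out (hfix x) (⟨δ, hδ⟩ : ↥(CongruenceSubgroup.Gamma M))
  have hN0 : toRes L R ρ N ≠ 0 := by
    rw [hN, map_prod]
    refine Finset.prod_ne_zero_iff.mpr fun d _ h => hb0 (resSmul_injective ρ hD (rep d) ?_)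
    rw [resSmul_toRes, h, map_zero]
  have h1 : rep t₁ • B = B := smul_of_mem_pmGamma rep_one_mem B
  have hfN : f * ι (toRes L R ρ N) = ι (toRes L R ρ A') := by
    rw [hN, ← Finset.mul_prod_erase _ _ (Finset.mem_univ t₁), h1, hA', map_mul, map_mul,
      map_mul, map_mul, ← mul_assoc, hfb]
  obtain ⟨l, hl⟩ := exists_galois_element hR hL h3 hB
  have : Algebra.IsIntegral (invRes L M R ρ) (Res L R ρ) := ⟨isIntegral_invRes ρ⟩
  have hσN : ∀ d : T, resSmul ρ hD (rep d) (toRes L R ρ N) = toRes L R ρ N := fun d => by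
    rw [resSmul_toRes, hNinv _ (rep_mem d)]
  have htr : ∀ y : intFun L R, ∃ c : Res L R ρ,
      c * toRes L R ρ N = toRes L R ρ (∑ d : T, rep d • (y * A')) := by
    intro y
    obtain ⟨z, hzint, hz⟩ := exists_integral_trace (invRes L M R ρ)
      (fun d : T => resSmul ρ hD (rep d)) (fun d => resSmul_injective ρ hD (rep d)) hf hσN hfN
      (toRes L R ρ y)
    have hs : ∑ d : T, resSmul ρ hD (rep d) (toRes L R ρ y * toRes L R ρ A') =
        toRes L R ρ (∑ d : T, rep d • (y * A')) := by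
      rw [map_sum]
      refine Finset.sum_congr rfl fun d _ => ?_
      rw [← map_mul, resSmul_toRes]
    rw [hs] at hz
    exact exists_of_integral_of_rational (invRes L M R ρ) (sigmaRes ρ hR hL hB hρ)
      (sigmaRes_mem ρ hR hL hB hρ) (sigmaRes_injective ρ hR hL hB hρ) hN0
      (exists_sigmaRes_of_invariant ρ hR hL hB hρ (hTinv (y * A')))
      (exists_sigmaRes_of_invariant ρ hR hL hB hρ hNinv) hz hzint
  choose c hc using htr
  refine ⟨l.sum fun y x => toRes L R ρ x * c y, ?_⟩
  have hne : ι (toRes L R ρ N) ≠ 0 := (map_ne_zero_iff ι hι).mpr hN0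
  refine mul_right_cancel₀ hne ?_
  rw [hfN, ← map_mul]
  refine congrArg ι ?_
  rw [Finsupp.sum, Finset.sum_mul]
  simp only [mul_assoc, hc, ← map_mul, ← map_sum]
  refine congrArg (toRes L R ρ) ?_
  calc ∑ y ∈ l.support, l y * ∑ d : T, rep d • (y * A')
      = ∑ d : T, (∑ y ∈ l.support, l y * (rep d • y)) * (rep d • A') := by
        simp only [Finset.mul_sum, Finset.sum_mul, smul_mul', mul_assoc]
        exact Finset.sum_comm
    _ = A' := by
        rw [Finset.sum_eq_single t₁]
        · have := hl t₁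
          replace := this.1 rep_one_mem
          rw [Finsupp.sum] at this
          rw [this, one_mul, smul_of_mem_pmGamma rep_one_mem]
        · intro d _ hd
          have := hl d
          replace := this.2 fun h => hd ((rep_mem_pmGamma_iff d).mp h)
          rw [Finsupp.sum] at this
          rw [this, zero_mul]
        · exact fun h => absurd (Finset.mem_univ _) h

end FermatAgent.Igusa

end
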