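import Fermat.Agent.Igusa.Fibre.Indicator
import Fermat.Agent.Igusa.Fibre.Normal
import Mathlib.GroupTheory.Archimedean

/-!
# Correction of residually bounded poles at the cusps
-/

set_option autoImplicit false

noncomputable section

open UpperHalfPlane hiding I
open scoped MatrixGroups

namespace FermatAgent.Igusa

variable {L : ℕ} [NeZero L] {R : Subring ℂ}

omit [NeZero L] in
theorem pmGamma_conj {δ : SL(2, ℤ)} (hδ : δ ∈ pmGamma L) (γ : SL(2, ℤ)) :
    γ * δ * γ⁻¹ ∈ pmGamma L := by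
  rcases hδ with h | h
  · exact Or.inl ((CongruenceSubgroup.Gamma_normal L).conj_mem _ h γ)
  · refine Or.inr ?_
    have := (CongruenceSubgroup.Gamma_normal L).conj_mem _ h γ
    rwa [mul_neg, neg_mul] at this

omit [NeZero L] in
theorem atInfty_T_zpow_mul (i : ℤ) {δ : SL(2, ℤ)} (hδ : δ ∈ pmGamma L) :
    AtInfty L (ModularGroup.T ^ i * δ) := by
  have key : ∀ η : SL(2, ℤ), η ∈ CongruenceSubgroup.Gamma L →
      (L : ℤ) ∣ (ModularGroup.T ^ i * η) 1 0 ∧ (L : ℤ) ∣ (ModularGroup.T ^ i * η) 0 0 - 1 := by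
    intro η hη
    obtain ⟨h00, -, h10, -⟩ := CongruenceSubgroup.Gamma_mem.mp hη
    simp only [← ZMod.intCast_zmod_eq_zero_iff_dvd, ModularGroup.coe_T_zpow,
      Matrix.SpecialLinearGroup.coe_mul, Matrix.mul_apply, Fin.sum_univ_two, Matrix.of_apply,
      Matrix.cons_val', Matrix.cons_val_zero, Matrix.cons_val_one, Matrix.cons_val_fin_one,
      one_mul, zero_mul, zero_add]
    push_cast
    simp [h00, h10]
  rcases hδ with h | h
  · exact ⟨(key δ h).1, Or.inl (key δ h).2⟩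
  · obtain ⟨k1, k2⟩ := key (-δ) h
    rw [mul_neg] at k1 k2
    simp only [Matrix.SpecialLinearGroup.coe_neg, Matrix.neg_apply] at k1 k2
    exact ⟨dvd_neg.mp k1, Or.inr (intDvd_congr (dvd_neg.mpr k2) (by ring))⟩

omit [NeZero L] in
theorem dvd_of_T_zpow_mem {i : ℤ} (h : ModularGroup.T ^ i ∈ pmGamma L) : (L : ℤ) ∣ i := by
  rw [← ZMod.intCast_zmod_eq_zero_iff_dvd]
  rcases h with h | h
  · simpa [ModularGroup.coe_T_zpow] using (CongruenceSubgroup.Gamma_mem.mp h).2.1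
  · simpa [ModularGroup.coe_T_zpow] using (CongruenceSubgroup.Gamma_mem.mp h).2.1

theorem coe_expCoeff_T_zpow_mul_pm (f : intFun L R) (i m : ℤ) {δ : SL(2, ℤ)}
    (hδ : δ ∈ pmGamma L) (γ : SL(2, ℤ)) :
    (expCoeff f (ModularGroup.T ^ i * δ * γ) m : ℂ) =
      zetaRoot L ^ (-i * m) * (expCoeff f γ m : ℂ) := by
  have h : ModularGroup.T ^ i * δ * γ = ModularGroup.T ^ i * γ * (γ⁻¹ * δ * γ) := by group
  rw [h, ← expCoeff_smul, smul_of_mem_pmGamma (by simpa using pmGamma_conj hδ γ⁻¹),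
    coe_expCoeff_T_zpow_mul]

/-- The symmetrisation of an exact pole at the cusp of `γ₀`. -/
theorem exists_orbit_function (hL : (L : ℂ)⁻¹ ∈ R) (H : Subgroup SL(2, ℤ))
    (hpm : pmGamma L ≤ H) {s : ℕ} {x : intFun L R} (hxb : CuspBound x (-(s : ℤ)))
    (hx1 : ∀ γ, AtInfty L γ → IsUnit (expCoeff x γ (-(s : ℤ))))
    (hx0 : ∀ γ, ¬ AtInfty L γ → expCoeff x γ (-(s : ℤ)) = 0) (γ₀ : SL(2, ℤ))
    (hper : ∀ i : ℤ, γ₀⁻¹ * ModularGroup.T ^ i * γ₀ ∈ H → (L : ℤ) ∣ i * s) :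
    ∃ X : intFun L R, (∀ h ∈ H, h • X = X) ∧ CuspBound X (-(s : ℤ)) ∧
      IsUnit (expCoeff X γ₀ (-(s : ℤ))) ∧
      ∀ γ, (∀ h ∈ H, ¬ AtInfty L (γ * h * γ₀⁻¹)) → expCoeff X γ (-(s : ℤ)) = 0 := by
  classical
  let K : Subgroup ↥H := (pmGamma L).subgroupOf H
  have : K.FiniteIndex := inferInstance
  have : Fintype (↥H ⧸ K) := Fintype.ofFinite _
  set x₀ := γ₀⁻¹ • x with hx₀
  have hfix : ∀ g ∈ K, g • x₀ = x₀ := fun g hg =>
    smul_of_mem_pmGamma (Subgroup.mem_subgroupOf.mp hg) x₀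
  set o : ↥H ⧸ K → SL(2, ℤ) := fun c => ((c.out : ↥H) : SL(2, ℤ)) with ho
  set X : intFun L R := ∑ c : ↥H ⧸ K, o c • x₀ with hX
  have hcoef : ∀ γ, expCoeff X γ (-(s : ℤ)) =
      ∑ c : ↥H ⧸ K, expCoeff x (γ * o c * γ₀⁻¹) (-(s : ℤ)) := fun γ => by
    rw [hX, expCoeff_sum]
    refine Finset.sum_congr rfl fun c _ => ?_
    rw [expCoeff_smul, hx₀, expCoeff_smul]
  refine ⟨X, fun h hh => ?_, CuspBound.sum fun c _ => (hxb.smul _).smul _, ?_, fun γ hγ => ?_⟩
  · exact smul_sum_out (G := ↥H) hfix ⟨h, hh⟩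
  swap
  · rw [hcoef]
    exact Finset.sum_eq_zero fun c _ => hx0 _ (hγ _ (SetLike.coe_mem _))
  -- the stabiliser count
  let I : AddSubgroup ℤ :=
    { carrier := {i | γ₀⁻¹ * ModularGroup.T ^ i * γ₀ ∈ H}
      zero_mem' := by simp [one_mem]
      add_mem' := fun {a b} (ha : γ₀⁻¹ * ModularGroup.T ^ a * γ₀ ∈ H)
          (hb : γ₀⁻¹ * ModularGroup.T ^ b * γ₀ ∈ H) => by
        have := mul_mem ha hb
        show γ₀⁻¹ * ModularGroup.T ^ (a + b) * γ₀ ∈ H
        rw [zpow_add]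
        convert this using 1
        group
      neg_mem' := fun {a} (ha : γ₀⁻¹ * ModularGroup.T ^ a * γ₀ ∈ H) => by
        have := inv_mem ha
        show γ₀⁻¹ * ModularGroup.T ^ (-a) * γ₀ ∈ H
        convert this using 1
        group }
  have hLI : (L : ℤ) ∈ I := by
    show γ₀⁻¹ * ModularGroup.T ^ (L : ℤ) * γ₀ ∈ H
    refine hpm ?_
    have hT : ModularGroup.T ^ (L : ℤ) ∈ pmGamma L := Or.inl (by
      rw [CongruenceSubgroup.Gamma_mem, ModularGroup.coe_T_zpow]; simp)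
    simpa using pmGamma_conj hT γ₀⁻¹
  obtain ⟨g, hg⟩ := Int.subgroup_cyclic I
  rw [← AddSubgroup.zmultiples_eq_closure] at hg
  set b := g.natAbs with hb
  have hmemI : ∀ i : ℤ, i ∈ I ↔ (b : ℤ) ∣ i := fun i => by
    rw [hg, Int.mem_zmultiples_iff, hb, Int.natAbs_dvd]
  obtain ⟨m₀, hm₀⟩ : b ∣ L := Int.natCast_dvd_natCast.mp ((hmemI L).mp hLI)
  have hbpos : 0 < b := Nat.pos_of_ne_zero fun h => NeZero.ne L (by rw [hm₀, h, zero_mul])
  set u := expCoeff x 1 (-(s : ℤ)) with hu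
  have hu1 : IsUnit u := hx1 1 (by simpa using atInfty_T_zpow_mul (L := L) 0 (one_mem _))
  set S := Finset.univ.filter fun c : ↥H ⧸ K => AtInfty L (γ₀ * o c * γ₀⁻¹) with hS
  have hval : ∀ c ∈ S, expCoeff x (γ₀ * o c * γ₀⁻¹) (-(s : ℤ)) = u := by
    intro c hc
    simp only [hS, Finset.mem_filter, Finset.mem_univ, true_and] at hc
    obtain ⟨i, δ, hδ, he⟩ := hc.exists_T_zpow
    have hiH : γ₀⁻¹ * ModularGroup.T ^ i * γ₀ ∈ H := by
      have hδ' : γ₀⁻¹ * δ⁻¹ * γ₀ ∈ H := hpm (by simpa using pmGamma_conj (inv_mem hδ) γ₀⁻¹)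
      have heq : γ₀⁻¹ * ModularGroup.T ^ i * γ₀ = o c * (γ₀⁻¹ * δ⁻¹ * γ₀) := by
        rw [show ModularGroup.T ^ i = γ₀ * o c * γ₀⁻¹ * δ⁻¹ by rw [he]; group]
        group
      rw [heq]
      exact mul_mem (SetLike.coe_mem _) hδ'
    refine Subtype.ext ?_
    rw [he, ← mul_one (ModularGroup.T ^ i * δ), coe_expCoeff_T_zpow_mul_pm x i _ hδ,
      (zetaRoot_zpow_eq_one_iff L _).mpr (by simpa using hper i hiH), one_mul]
  have hcard : S.card = m₀ := by
    have hmem : ∀ j : ℕ, γ₀⁻¹ * ModularGroup.T ^ ((b : ℤ) * j) * γ₀ ∈ H := fun j =>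
      (hmemI _).mpr (dvd_mul_right _ _)
    have hout : ∀ j : ℕ, ∃ δ ∈ pmGamma L,
        o (QuotientGroup.mk (⟨_, hmem j⟩ : ↥H)) =
          γ₀⁻¹ * ModularGroup.T ^ ((b : ℤ) * j) * γ₀ * δ := by
      intro j
      have h := QuotientGroup.eq.mp
        (QuotientGroup.out_eq' (QuotientGroup.mk (⟨_, hmem j⟩ : ↥H) : ↥H ⧸ K)).symm
      refine ⟨_, Subgroup.mem_subgroupOf.mp h, ?_⟩
      rw [Subgroup.coe_mul, Subgroup.coe_inv]
      simp only [ho]
      group
    rw [← Finset.card_range m₀]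
    refine (Finset.card_bij (fun j _ => (QuotientGroup.mk (⟨_, hmem j⟩ : ↥H) : ↥H ⧸ K))
      (fun j _ => ?_) (fun j hj j' hj' h => ?_) (fun c hc => ?_)).symm
    · obtain ⟨δ, hδ, he⟩ := hout j
      simp only [hS, Finset.mem_filter, Finset.mem_univ, true_and, he]
      have : γ₀ * (γ₀⁻¹ * ModularGroup.T ^ ((b : ℤ) * j) * γ₀ * δ) * γ₀⁻¹ =
          ModularGroup.T ^ ((b : ℤ) * j) * (γ₀ * δ * γ₀⁻¹) := by group
      rw [this]
      exact atInfty_T_zpow_mul _ (pmGamma_conj hδ γ₀)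
    · have h1 := Subgroup.mem_subgroupOf.mp (QuotientGroup.eq.mp h)
      rw [Subgroup.coe_mul, Subgroup.coe_inv] at h1
      have h2 := pmGamma_conj h1 γ₀
      rw [show γ₀ * ((γ₀⁻¹ * ModularGroup.T ^ ((b : ℤ) * j) * γ₀)⁻¹ *
          (γ₀⁻¹ * ModularGroup.T ^ ((b : ℤ) * j') * γ₀)) * γ₀⁻¹ =
        ModularGroup.T ^ ((b : ℤ) * j' - (b : ℤ) * j) by group] at h2
      have h3 := dvd_of_T_zpow_mem h2
      rw [hm₀, Nat.cast_mul, ← mul_sub] at h3
      have h4 := Int.dvd_of_mul_dvd_mul_left (by omega) h3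
      simp only [Finset.mem_range] at hj hj'
      have := Int.eq_zero_of_abs_lt_dvd h4 (by rw [abs_lt]; constructor <;> omega)
      omega
    · simp only [hS, Finset.mem_filter, Finset.mem_univ, true_and] at hc
      obtain ⟨i, δ, hδ, he⟩ := hc.exists_T_zpow
      have hiI : (b : ℤ) ∣ i := by
        rw [← hmemI]
        show γ₀⁻¹ * ModularGroup.T ^ i * γ₀ ∈ H
        have hδ' : γ₀⁻¹ * δ⁻¹ * γ₀ ∈ H := hpm (by simpa using pmGamma_conj (inv_mem hδ) γ₀⁻¹)
        have heq : γ₀⁻¹ * ModularGroup.T ^ i * γ₀ = o c * (γ₀⁻¹ * δ⁻¹ * γ₀) := by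
          rw [show ModularGroup.T ^ i = γ₀ * o c * γ₀⁻¹ * δ⁻¹ by rw [he]; group]
          group
        rw [heq]
        exact mul_mem (SetLike.coe_mem _) hδ'
      obtain ⟨q, hq⟩ := hiI
      have hm0pos : 0 < m₀ := Nat.pos_of_ne_zero fun h => NeZero.ne L (by rw [hm₀, h, mul_zero])
      obtain ⟨j, hj⟩ := Int.eq_ofNat_of_zero_le
        (Int.emod_nonneg q (by omega : (m₀ : ℤ) ≠ 0))
      refine ⟨j, Finset.mem_range.mpr (by
        have := Int.emod_lt_of_pos q (by omega : (0 : ℤ) < m₀); omega), ?_⟩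
      rw [← QuotientGroup.out_eq' c, QuotientGroup.eq, Subgroup.mem_subgroupOf, Subgroup.coe_mul,
        Subgroup.coe_inv]
      show (γ₀⁻¹ * ModularGroup.T ^ ((b : ℤ) * j) * γ₀)⁻¹ * o c ∈ pmGamma L
      have hT : ModularGroup.T ^ ((b : ℤ) * ((m₀ : ℤ) * (q / m₀))) ∈ pmGamma L := by
        refine Or.inl ?_
        rw [CongruenceSubgroup.Gamma_mem, ModularGroup.coe_T_zpow]
        simp only [Matrix.of_apply, Matrix.cons_val', Matrix.cons_val_zero, Matrix.cons_val_one,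
          Matrix.cons_val_fin_one]
        have h0 : (((b : ℤ) * ((m₀ : ℤ) * (q / m₀)) : ℤ) : ZMod L) = 0 :=
          (ZMod.intCast_zmod_eq_zero_iff_dvd _ L).mpr ⟨q / m₀, by rw [hm₀, Nat.cast_mul]; ring⟩
        simp only [Int.cast_one, Int.cast_zero, h0, and_self]
      have e : (γ₀⁻¹ * ModularGroup.T ^ ((b : ℤ) * j) * γ₀)⁻¹ * o c =
          γ₀⁻¹ * (ModularGroup.T ^ ((b : ℤ) * ((m₀ : ℤ) * (q / m₀))) * δ) * γ₀ := by
        have hi : i = (b : ℤ) * j + (b : ℤ) * ((m₀ : ℤ) * (q / m₀)) := by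
          rw [hq, ← hj, ← mul_add, Int.emod_add_mul_ediv]
        have hoc : o c = γ₀⁻¹ * (ModularGroup.T ^ i * δ) * γ₀ := by rw [← he]; group
        rw [hoc, hi, zpow_add]
        group
      rw [e]
      simpa using pmGamma_conj (mul_mem hT hδ) γ₀⁻¹
  rw [hcoef, ← Finset.sum_subset (Finset.subset_univ S) (fun c _ hc => hx0 _ (by
    simpa [hS] using hc)), Finset.sum_congr rfl hval, Finset.sum_const, hcard, nsmul_eq_mul]
  refine IsUnit.mul (IsUnit.of_mul_eq_one ⟨(b : ℂ) * (L : ℂ)⁻¹, mul_mem (natCast_mem R b) hL⟩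
    (Subtype.ext ?_)) hu1
  rw [Subring.coe_mul, Subring.coe_natCast, ← mul_assoc, ← Nat.cast_mul, mul_comm m₀ b, ← hm₀,
    mul_inv_cancel₀ (Nat.cast_ne_zero.mpr (NeZero.ne L)), Subring.coe_one]

variable {k : Type*} [Field k] (ρ : R →+* k)

theorem redExp_smul_coeff (f : intFun L R) (γ : SL(2, ℤ)) (m : ℤ) :
    (redExp L R ρ (γ • f)).coeff m = ρ (expCoeff f γ m) := by
  rw [redExp, RingHom.comp_apply, ModularCurve.coeffMap_coeff]
  rfl

/-- Residually bounded poles can be corrected. -/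
theorem exists_exact_lift' (hR : HasRoots L R) (hL : (L : ℂ)⁻¹ ∈ R) (h3 : 3 ≤ L)
    (H : Subgroup SL(2, ℤ)) (hΓ : CongruenceSubgroup.Gamma L ≤ H) (hneg : -1 ∈ H) :
    ∃ n₀ : ℕ, ∀ n : ℕ, n₀ ≤ n → ∀ f : intFun L R, (∀ γ ∈ H, γ • f = f) →
      (∀ (γ : SL(2, ℤ)) (m : ℤ), m < -((n : ℤ) * L) → (redExp L R ρ (γ • f)).coeff m = 0) →
      ∃ g : intFun L R, (∀ γ ∈ H, γ • g = g) ∧ toRes L R ρ g = toRes L R ρ f ∧
        ∀ (γ : SL(2, ℤ)) (m : ℤ), m < -((n : ℤ) * L) → (intExp L R (γ • g)).coeff m = 0 := by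
  classical
  have hpm : pmGamma L ≤ H := by
    intro γ hγ
    rcases hγ with h | h
    · exact hΓ h
    · simpa using mul_mem hneg (hΓ h)
  have hD := decompGroup_eq_top ρ hR hL
  let Γ := CongruenceSubgroup.Gamma L
  have : Fintype (SL(2, ℤ) ⧸ Γ) := Fintype.ofFinite _
  have hout : ∀ (f : intFun L R) (γ : SL(2, ℤ)) (m : ℤ),
      expCoeff f γ m = expCoeff f (QuotientGroup.mk γ : SL(2, ℤ) ⧸ Γ).out m := by
    intro f γ m
    obtain ⟨δ, hδ, hc⟩ : ∃ δ ∈ Γ, (QuotientGroup.mk γ : SL(2, ℤ) ⧸ Γ).out = γ * δ := by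
      refine ⟨γ⁻¹ * (QuotientGroup.mk γ : SL(2, ℤ) ⧸ Γ).out, ?_, by group⟩
      rw [← QuotientGroup.eq, QuotientGroup.out_eq']
    rw [hc, ← expCoeff_smul, smul_of_mem_gamma L R hδ]
  obtain ⟨n₀, hn₀⟩ := exists_exact_pole hR hL h3
  refine ⟨n₀, fun n hn f hf hred => ?_⟩
  set P : intFun L R → Prop := fun g => (∀ γ ∈ H, γ • g = g) ∧ toRes L R ρ g = toRes L R ρ f
    with hP
  have hredP : ∀ g, P g → ∀ γ m, m < -((n : ℤ) * L) → ρ (expCoeff g γ m) = 0 := by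
    intro g hg γ m hm
    rw [← redExp_smul_coeff, ← resExp_toRes, ← resSmul_toRes ρ hD, hg.2, resSmul_toRes, resExp_toRes]
    exact hred γ m hm
  -- one level
  have level : ∀ s : ℕ, n * L < s → ∀ N : ℕ, ∀ g : intFun L R, P g → CuspBound g (-(s : ℤ)) →
      (Finset.univ.filter fun c : SL(2, ℤ) ⧸ Γ => expCoeff g c.out (-(s : ℤ)) ≠ 0).card ≤ N →
      ∃ g', P g' ∧ CuspBound g' (-(s : ℤ) + 1) := by
    intro s hs N
    obtain ⟨x, hxb, hx1, hx0⟩ := hn₀ s (lt_of_le_of_lt (Nat.mul_le_mul_right L hn) hs)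
    induction N with
    | zero =>
      intro g hg hb hN
      refine ⟨g, hg, fun γ m hm => ?_⟩
      rcases lt_or_eq_of_le (show m ≤ -(s : ℤ) by omega) with h | rfl
      · exact hb γ m h
      · rw [hout]
        by_contra hne
        have hc := Finset.eq_empty_iff_forall_notMem.mp (Finset.card_eq_zero.mp (Nat.le_zero.mp hN))
          (QuotientGroup.mk γ)
        exact hc (Finset.mem_filter.mpr ⟨Finset.mem_univ _, hne⟩)
    | succ N ih =>
      intro g hg hb hN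
      by_cases hall : ∀ c : SL(2, ℤ) ⧸ Γ, expCoeff g c.out (-(s : ℤ)) = 0
      · refine ih g hg hb ?_
        rw [Finset.filter_eq_empty_iff.mpr fun c _ => not_not.mpr (hall c), Finset.card_empty]
        exact Nat.zero_le _
      obtain ⟨c₀, hc₀⟩ := not_forall.mp hall
      set γ₀ := c₀.out with hγ₀
      set a := expCoeff g γ₀ (-(s : ℤ)) with ha
      have hac : (a : ℂ) ≠ 0 := fun h => hc₀ (Subtype.ext h)
      have hper : ∀ i : ℤ, γ₀⁻¹ * ModularGroup.T ^ i * γ₀ ∈ H → (L : ℤ) ∣ i * s := by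
        intro i hi
        have e := congrArg (fun y : intFun L R => (expCoeff y γ₀ (-(s : ℤ)) : ℂ)) (hg.1 _ hi)
        simp only [expCoeff_smul] at e
        rw [show γ₀ * (γ₀⁻¹ * ModularGroup.T ^ i * γ₀) = ModularGroup.T ^ i * γ₀ by group,
          coe_expCoeff_T_zpow_mul, ← ha] at e
        have h1 : zetaRoot L ^ (-i * -(s : ℤ)) = 1 := mul_right_cancel₀ hac (by rw [e, one_mul])
        rw [zetaRoot_zpow_eq_one_iff] at h1
        simpa using h1
      obtain ⟨X, hXinv, hXb, hXu, hX0⟩ := exists_orbit_function hL H hpm hxb hx1 hx0 γ₀ hper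
      obtain ⟨u, hu⟩ := hXu
      set c := a * (↑u⁻¹ : R) with hc
      have hρa : ρ a = 0 := hredP g hg γ₀ _ (by
        have : (n : ℤ) * L < s := by exact_mod_cast hs
        omega)
      set g' := g - constHom L R c * X with hg'
      have hPg' : P g' := by
        refine ⟨fun γ hγ => by rw [hg', smul_sub, smul_mul', smul_constHom, hg.1 γ hγ, hXinv γ hγ], ?_⟩
        rw [hg', map_sub, map_mul, toRes_constHom_eq_zero ρ (by rw [hc, map_mul, hρa, zero_mul]),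
          zero_mul, sub_zero, hg.2]
      have hcoef : ∀ γ, expCoeff g' γ (-(s : ℤ)) =
          expCoeff g γ (-(s : ℤ)) - c * expCoeff X γ (-(s : ℤ)) := fun γ => by
        rw [hg', expCoeff_sub, expCoeff_const_mul]
      refine ih g' hPg' (hb.sub (hXb.const_mul c)) (Nat.lt_succ_iff.mp (lt_of_lt_of_le ?_ hN))
      refine Finset.card_lt_card ((Finset.ssubset_iff_of_subset ?_).mpr
        ⟨c₀, Finset.mem_filter.mpr ⟨Finset.mem_univ _, hc₀⟩, ?_⟩)
      · intro d hd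
        simp only [Finset.mem_filter, Finset.mem_univ, true_and] at hd ⊢
        intro hzero
        rw [hcoef, hzero, zero_sub, neg_ne_zero] at hd
        have hXne : expCoeff X d.out (-(s : ℤ)) ≠ 0 := right_ne_zero_of_mul hd
        obtain ⟨h, hh, hat⟩ : ∃ h ∈ H, AtInfty L (d.out * h * γ₀⁻¹) := by
          by_contra hcon
          push Not at hcon
          exact hXne (hX0 _ hcon)
        obtain ⟨i, δ, hδ, he⟩ := hat.exists_T_zpow
        have e := congrArg (fun y : intFun L R => (expCoeff y d.out (-(s : ℤ)) : ℂ)) (hg.1 h hh)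
        simp only [expCoeff_smul] at e
        rw [show d.out * h = ModularGroup.T ^ i * δ * γ₀ by rw [← he]; group,
          coe_expCoeff_T_zpow_mul_pm g i _ hδ, hzero, Subring.coe_zero] at e
        exact mul_ne_zero (zetaRoot_ne_zero L _) hac e
      · simp only [Finset.mem_filter, Finset.mem_univ, true_and, not_not, ← hγ₀]
        rw [hcoef, hc, ← hu, mul_assoc, Units.inv_mul, mul_one, ← ha, sub_self]
  -- descend
  have descend : ∀ d : ℕ, ∀ g, P g → CuspBound g (-((n * L + d : ℕ) : ℤ)) →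
      ∃ g', P g' ∧ CuspBound g' (-((n * L : ℕ) : ℤ)) := by
    intro d
    induction d with
    | zero => exact fun g hg hb => ⟨g, hg, by simpa using hb⟩
    | succ d ih =>
      intro g hg hb
      obtain ⟨g', hg', hb'⟩ := level (n * L + (d + 1)) (by omega) _ g hg hb le_rfl
      exact ih g' hg' (hb'.mono (by push_cast; omega))
  obtain ⟨m, hm⟩ := exists_cuspBound f
  obtain ⟨g, hg, hgb⟩ := descend m f ⟨hf, rfl⟩ (hm.mono (by
    push_cast
    have : (0 : ℤ) ≤ (n : ℤ) * L := by positivity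
    omega))
  exact ⟨g, hg.1, hg.2, fun γ m' hm' => hgb γ m' (by push_cast; exact hm')⟩

end FermatAgent.Igusa

end
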