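import Fermat.Agent.Igusa.Fibre.Normal
import Fermat.Agent.Igusa.Fibre.Greedy

/-!
# Residual functions of level `L`: normality, kernel of the action, cusp correction
-/

set_option autoImplicit false

noncomputable section

open UpperHalfPlane hiding I
open scoped MatrixGroups

namespace FermatAgent.Igusa

variable {L : ℕ} [NeZero L] {R : Subring ℂ} {k : Type*} [Field k] (ρ : R →+* k)

/-- The residual functions of level `L` form a normal domain. -/
theorem isIntegrallyClosed_res (hR : HasRoots L R) (hL : (L : ℂ)⁻¹ ∈ R) (hρ : Function.Surjective ρ)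
    (h3 : 3 ≤ L) (hM : 2 ∣ L ∨ 3 ∣ L) : IsIntegrallyClosed (Res L R ρ) :=
  isIntegrallyClosed_res' ρ hR hL hρ h3 hM

/-- An element acting trivially on the residual functions lies in `±Γ(L)`. -/
theorem mem_gamma_of_toRes_smul_eq (hR : HasRoots L R) (hL : (L : ℂ)⁻¹ ∈ R) (h3 : 3 ≤ L)
    (hM : 2 ∣ L ∨ 3 ∣ L) {γ : SL(2, ℤ)}
    (h : ∀ x : intFun L R, toRes L R ρ (γ • x) = toRes L R ρ x) :
    γ ∈ CongruenceSubgroup.Gamma L ∨ -γ ∈ CongruenceSubgroup.Gamma L :=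
  mem_pmGamma_of_toRes_smul_eq ρ hR hL h3 hM h

/-- Residual bounds on the poles at the cusps can be made exact, beyond a fixed bound. -/
theorem exists_exact_lift (hR : HasRoots L R) (hL : (L : ℂ)⁻¹ ∈ R) (h3 : 3 ≤ L)
    (H : Subgroup SL(2, ℤ)) (hΓ : CongruenceSubgroup.Gamma L ≤ H) (hneg : -1 ∈ H) :
    ∃ n₀ : ℕ, ∀ n : ℕ, n₀ ≤ n → ∀ f : intFun L R, (∀ γ ∈ H, γ • f = f) →
      (∀ (γ : SL(2, ℤ)) (m : ℤ), m < -((n : ℤ) * L) → (redExp L R ρ (γ • f)).coeff m = 0) →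
      ∃ g : intFun L R, (∀ γ ∈ H, γ • g = g) ∧ toRes L R ρ g = toRes L R ρ f ∧
        ∀ (γ : SL(2, ℤ)) (m : ℤ), m < -((n : ℤ) * L) → (intExp L R (γ • g)).coeff m = 0 :=
  exists_exact_lift' ρ hR hL h3 H hΓ hneg

end FermatAgent.Igusa

end
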