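import Fermat.Agent.ModCurve.Fun.Maps
import Mathlib.Analysis.Analytic.OfScalars

/-!
# Functions given by convergent power series in `q`
-/

set_option autoImplicit false

noncomputable section

open UpperHalfPlane hiding I
open Complex Filter Function Asymptotics
open scoped Real Topology MatrixGroups Manifold ModularForm

namespace FermatAgent.Igusa

open FermatAgent.ModFun

local notation "𝕢" => Periodic.qParam

variable {c : ℕ → ℂ} {f : ℍ → ℂ}

theorem summable_norm_of_hasSum (h : ∀ τ : ℍ, HasSum (fun n => c n * 𝕢 1 τ ^ n) (f τ))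
    {r : ℝ} (hr0 : 0 < r) (hr : r < 1) : Summable fun n => ‖c n‖ * r ^ n := by
  set r' := (1 + r) / 2 with hr'
  have hr1 : r' < 1 := by rw [hr']; linarith
  have hr2 : r < r' := by rw [hr']; linarith
  have hr'0 : 0 < r' := hr0.trans hr2
  have him : 0 < -Real.log r' / (2 * π) :=
    div_pos (neg_pos.mpr (Real.log_neg hr'0 hr1)) (by positivity)
  set τ : ℍ := ⟨⟨0, -Real.log r' / (2 * π)⟩, him⟩ with hτ
  have hq : ‖𝕢 1 (τ : ℂ)‖ = r' := by
    have hτim : (τ : ℂ).im = -Real.log r' / (2 * π) := rfl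
    rw [Function.Periodic.norm_qParam, hτim]
    have : -2 * π * (-Real.log r' / (2 * π)) / 1 = Real.log r' := by field_simp
    rw [this, Real.exp_log hr'0]
  obtain ⟨C, hC⟩ := (h τ).summable.tendsto_atTop_zero.norm.bddAbove_range
  refine Summable.of_norm_bounded (g := fun n => C * (r / r') ^ n)
    ((summable_geometric_of_lt_one (by positivity) ((div_lt_one hr'0).mpr hr2)).mul_left C)
    fun n => ?_
  have hCn : ‖c n‖ * r' ^ n ≤ C := by
    have := hC ⟨n, rfl⟩
    simpa [norm_mul, norm_pow, hq] using this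
  rw [Real.norm_of_nonneg (by positivity)]
  calc ‖c n‖ * r ^ n = ‖c n‖ * r' ^ n * (r / r') ^ n := by
        rw [mul_assoc, ← mul_pow, mul_div_cancel₀ _ hr'0.ne']
    _ ≤ C * (r / r') ^ n := mul_le_mul_of_nonneg_right hCn (by positivity)

theorem one_le_radius_of_hasSum (h : ∀ τ : ℍ, HasSum (fun n => c n * 𝕢 1 τ ^ n) (f τ)) :
    (1 : ENNReal) ≤ (FormalMultilinearSeries.ofScalars ℂ c).radius := by
  refine ENNReal.le_of_forall_nnreal_lt fun r hr => ?_
  rcases eq_or_ne r 0 with rfl | hr0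
  · simp
  refine FormalMultilinearSeries.le_radius_of_summable_norm _ ?_
  have := summable_norm_of_hasSum h (r := r) (by exact_mod_cast pos_iff_ne_zero.mpr hr0)
    (by exact_mod_cast hr)
  simpa [FormalMultilinearSeries.ofScalars_norm] using this

/-- A function given by a power series in `q` is holomorphic, periodic, bounded, with that
expansion. -/
theorem mem_cuspRing_of_hasSum (h : ∀ τ : ℍ, HasSum (fun n => c n * 𝕢 1 τ ^ n) (f τ)) :
    f ∈ cuspRing ∧ IsBoundedAtImInfty f ∧ qLaurent f = toLS (PowerSeries.mk c) := by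
  have hrad := one_le_radius_of_hasSum h
  have hp := (FormalMultilinearSeries.ofScalars ℂ c).hasFPowerSeriesOnBall
    (zero_lt_one.trans_le hrad)
  have hfg : ∀ τ : ℍ, f τ = FormalMultilinearSeries.ofScalarsSum c (𝕢 1 (τ : ℂ)) := fun τ => by
    rw [FormalMultilinearSeries.ofScalars_sum_eq]
    simpa [smul_eq_mul] using (h τ).tsum_eq.symm
  have hmem : ∀ z : ℂ, ‖z‖ < 1 → z ∈ Metric.eball (0 : ℂ)
      (FormalMultilinearSeries.ofScalars ℂ c).radius := fun z hz => by
    rw [Metric.mem_eball, edist_zero_right]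
    refine lt_of_lt_of_le ?_ hrad
    rw [enorm_eq_nnnorm]
    exact_mod_cast hz
  have hmd : MDiff f := by
    rw [UpperHalfPlane.mdifferentiable_iff]
    intro z hz
    have hz' : 0 < z.im := hz
    have hq1 : ‖𝕢 1 z‖ < 1 := Function.Periodic.norm_qParam_lt_one one_pos hz'
    have hd : DifferentiableAt ℂ (fun w => FormalMultilinearSeries.ofScalarsSum c (𝕢 1 w)) z :=
      ((hp.analyticAt_of_mem (hmem _ hq1)).differentiableAt).comp z
        (Function.Periodic.differentiable_qParam.differentiableAt)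
    refine (hd.congr_of_eventuallyEq ?_).differentiableWithinAt
    filter_upwards [(isOpen_upperHalfPlaneSet.mem_nhds hz' :)] with w hw
    simp [hfg, ofComplex_apply_of_im_pos hw]
  have hper : ∀ τ : ℍ, f ((1 : ℝ) +ᵥ τ) = f τ := fun τ => by
    rw [hfg, hfg, UpperHalfPlane.coe_vadd]
    congr 1
    simp [Function.Periodic.qParam, mul_add, Complex.exp_add]
  have hb : IsBoundedAtImInfty f := by
    have hc : ContinuousAt (FormalMultilinearSeries.ofScalarsSum c : ℂ → ℂ) 0 :=
      (hp.analyticAt_of_mem (by simpa using hmem 0 (by simp))).continuousAt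
    have ht : Tendsto (fun τ : ℍ => 𝕢 1 (τ : ℂ)) atImInfty (𝓝 0) :=
      tendsto_nhdsWithin_iff.mp ((Function.Periodic.qParam_tendsto one_pos).comp
        tendsto_coe_atImInfty) |>.1
    have := (hc.tendsto.comp ht).isBigO_one ℝ
    exact this.congr_left fun τ => (hfg τ).symm
  refine ⟨⟨hmd, hper, .of_bounded hb⟩, hb, ?_⟩
  rw [qLaurent_of_bounded ⟨hmd, hper, .of_bounded hb⟩ hb]
  congr 1
  exact qExpansion_eq_of_hasSum ⟨hmd, hper, .of_bounded hb⟩ hb fun τ => by
    simpa [smul_eq_mul] using h τ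

/-- The constant term is the limit at `i∞`. -/
theorem tendsto_of_hasSum (h : ∀ τ : ℍ, HasSum (fun n => c n * 𝕢 1 τ ^ n) (f τ)) :
    Tendsto f atImInfty (𝓝 (c 0)) := by
  have hrad := one_le_radius_of_hasSum h
  have hp := (FormalMultilinearSeries.ofScalars ℂ c).hasFPowerSeriesOnBall
    (zero_lt_one.trans_le hrad)
  have h0 : (FormalMultilinearSeries.ofScalars ℂ c).sum 0 = c 0 :=
    (hp.coeff_zero 1).symm.trans (by simp [FormalMultilinearSeries.ofScalars])
  have hc : ContinuousAt ((FormalMultilinearSeries.ofScalars ℂ c).sum) 0 :=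
    hp.analyticAt.continuousAt
  have ht : Tendsto (fun τ : ℍ => 𝕢 1 (τ : ℂ)) atImInfty (𝓝 0) :=
    tendsto_nhdsWithin_iff.mp ((Function.Periodic.qParam_tendsto one_pos).comp
      tendsto_coe_atImInfty) |>.1
  have h2 := hc.tendsto.comp ht
  rw [h0] at h2
  refine h2.congr fun τ => ?_
  show FormalMultilinearSeries.ofScalarsSum c (𝕢 1 (τ : ℂ)) = f τ
  rw [FormalMultilinearSeries.ofScalars_sum_eq]
  simpa [smul_eq_mul] using (h τ).tsum_eq

/-- Inverse of a nowhere vanishing function given by a power series. -/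
theorem inv_mem_cuspRing_of_hasSum (h : ∀ τ : ℍ, HasSum (fun n => c n * 𝕢 1 τ ^ n) (f τ))
    (hne : ∀ τ, f τ ≠ 0) {m : ℕ} (hlt : ∀ n < m, c n = 0) (hm : c m ≠ 0) :
    (fun τ => (f τ)⁻¹) ∈ cuspRing := by
  obtain ⟨⟨hmd, hper, -⟩, -, -⟩ := mem_cuspRing_of_hasSum h
  have hsum : ∀ τ : ℍ, HasSum (fun n => c (n + m) * 𝕢 1 (τ : ℂ) ^ n) (f τ / 𝕢 1 (τ : ℂ) ^ m) := by
    intro τ
    have h1 : HasSum (fun n => c (n + m) * 𝕢 1 (τ : ℂ) ^ (n + m)) (f τ) := by
      have := (hasSum_nat_add_iff' m).mpr (h τ)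
      rwa [Finset.sum_eq_zero (fun n hn => by rw [hlt n (Finset.mem_range.mp hn), zero_mul]),
        sub_zero] at this
    refine (h1.div_const (𝕢 1 (τ : ℂ) ^ m)).congr_fun fun n => ?_
    have hq : 𝕢 1 (τ : ℂ) ≠ 0 := Complex.exp_ne_zero _
    rw [pow_add]
    field_simp
  have ht := (tendsto_of_hasSum hsum).inv₀ (by simpa using hm)
  refine ⟨?_, fun τ => by simp [hper], 2 * π * m, ?_⟩
  · rw [UpperHalfPlane.mdifferentiable_iff] at hmd ⊢
    exact hmd.inv fun z _ => hne _
  · have h1 : (fun τ : ℍ => (f τ / 𝕢 1 (τ : ℂ) ^ m)⁻¹) =O[atImInfty] fun _ => (1 : ℝ) :=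
      ht.isBigO_one ℝ
    have h2 : (fun τ : ℍ => (𝕢 1 (τ : ℂ) ^ m)⁻¹) =O[atImInfty]
        fun τ => Real.exp (2 * π * m * τ.im) := by
      refine IsBigO.of_bound 1 (Eventually.of_forall fun τ => le_of_eq ?_)
      rw [one_mul, norm_inv, norm_pow, Function.Periodic.norm_qParam,
        Real.norm_of_nonneg (Real.exp_pos _).le, ← Real.exp_nat_mul, ← Real.exp_neg]
      congr 1
      simp only [UpperHalfPlane.coe_im]
      ring
    refine (h1.mul h2).congr (fun τ => ?_) (fun τ => one_mul _)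
    have hq : 𝕢 1 (τ : ℂ) ^ m ≠ 0 := pow_ne_zero _ (Complex.exp_ne_zero _)
    rw [inv_div]
    field_simp

end FermatAgent.Igusa

end
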