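import Mathlib.NumberTheory.ModularForms.EisensteinSeries.QExpansion
import Mathlib.NumberTheory.ModularForms.EisensteinSeries.Summable
import Mathlib.NumberTheory.LSeries.HurwitzZetaValues
import Mathlib.Analysis.SpecificLimits.Normed

/-!
# The series `∑ₙ 1/(w+n)²`

`intInvSqSum w` is the sum over all integers, with the convention `1/0 = 0`.  For `w` not an
integer it equals `(2πi)² u/(1-u)²` with `u = exp(2πiw)`, and its value at `0` is `π²/3`.
-/

set_option autoImplicit false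

noncomputable section

open Complex
open scoped Real Topology UpperHalfPlane

namespace FermatAgent.Igusa

/-- `∑ₙ 1/(w+n)²` over all integers `n` (the singular term, if any, is `0`). -/
def intInvSqSum (w : ℂ) : ℂ := ∑' n : ℤ, 1 / (w + n) ^ 2

/-- The exponential `exp (2πiw)`. -/
def expTwoPi (w : ℂ) : ℂ := cexp (2 * π * I * w)

/-- The rational function `u ↦ u/(1-u)²`. -/
def koebe {K : Type*} [Field K] (u : K) : K := u / (1 - u) ^ 2

theorem koebe_inv {K : Type*} [Field K] {u : K} (hu : u ≠ 0) : koebe u⁻¹ = koebe u := by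
  rcases eq_or_ne u 1 with rfl | h1
  · simp
  have h : (1 : K) - u ≠ 0 := sub_ne_zero.mpr (Ne.symm h1)
  have h' : (1 : K) - u⁻¹ ≠ 0 := by
    rw [sub_ne_zero]
    exact fun h2 => h1 (by simpa using congrArg (fun x : K => x⁻¹) h2.symm)
  unfold koebe
  rw [div_eq_div_iff (pow_ne_zero 2 h') (pow_ne_zero 2 h)]
  field_simp
  ring

theorem summable_intInvSq (w : ℂ) : Summable fun n : ℤ => 1 / (w + n) ^ 2 := by
  refine (EisensteinSeries.linear_right_summable w 1 (k := 2) le_rfl).congr fun n => ?_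
  simp [pow_two]

theorem intInvSqSum_neg (w : ℂ) : intInvSqSum (-w) = intInvSqSum w := by
  unfold intInvSqSum
  rw [← (Equiv.neg ℤ).tsum_eq]
  refine tsum_congr fun n => ?_
  simp only [Equiv.neg_apply, Int.cast_neg]
  congr 1
  ring

theorem expTwoPi_add (v w : ℂ) : expTwoPi (v + w) = expTwoPi v * expTwoPi w := by
  rw [expTwoPi, expTwoPi, expTwoPi, ← Complex.exp_add]
  congr 1
  ring

theorem expTwoPi_ne_zero (w : ℂ) : expTwoPi w ≠ 0 := Complex.exp_ne_zero _

theorem expTwoPi_neg (w : ℂ) : expTwoPi (-w) = (expTwoPi w)⁻¹ := by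
  rw [expTwoPi, expTwoPi, ← Complex.exp_neg]
  congr 1
  ring

theorem norm_expTwoPi (w : ℂ) : ‖expTwoPi w‖ = Real.exp (-2 * π * w.im) := by
  rw [expTwoPi, Complex.norm_exp]
  congr 1
  simp

theorem norm_expTwoPi_lt_one {w : ℂ} (hw : 0 < w.im) : ‖expTwoPi w‖ < 1 := by
  rw [norm_expTwoPi, Real.exp_lt_one_iff]
  have := Real.pi_pos
  nlinarith

theorem expTwoPi_eq_one_iff (w : ℂ) : expTwoPi w = 1 ↔ ∃ n : ℤ, w = n := by
  rw [expTwoPi, Complex.exp_eq_one_iff]
  refine exists_congr fun n => ⟨fun h => ?_, fun h => by rw [h]; ring⟩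
  have h2 : (2 * π * I : ℂ) ≠ 0 := by simp [Real.pi_ne_zero]
  exact mul_left_cancel₀ h2 (by rw [h]; ring)

theorem intInvSqSum_of_im_pos {w : ℂ} (hw : 0 < w.im) :
    intInvSqSum w = (-2 * π * I) ^ 2 * koebe (expTwoPi w) := by
  have h := EisensteinSeries.qExpansion_identity (k := 1) le_rfl ⟨w, hw⟩
  have hgeom := hasSum_coe_mul_geometric_of_norm_lt_one (norm_expTwoPi_lt_one hw)
  simp only [Nat.factorial_one, Nat.cast_one, div_one, pow_one] at h
  rw [intInvSqSum, h]
  congr 1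
  exact hgeom.tsum_eq

theorem continuousAt_intInvSqSum {x : ℂ} (hx : ∀ n : ℤ, x + n ≠ 0) (hxr : x.im = 0) :
    ContinuousAt intInvSqSum x := by
  obtain ⟨δ, hδ, hδn⟩ : ∃ δ > 0, ∀ n : ℤ, 2 * δ ≤ ‖x + n‖ := by
    have hfl : x.re - ⌊x.re⌋ ≠ 0 := by
      intro h
      apply hx (-⌊x.re⌋)
      apply Complex.ext
      · simpa [sub_eq_add_neg] using h
      · simp [hxr]
    refine ⟨min (x.re - ⌊x.re⌋) (⌊x.re⌋ + 1 - x.re) / 2, ?_, fun n => ?_⟩
    · have h1 := Int.floor_le x.re
      have h2 := Int.lt_floor_add_one x.re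
      refine div_pos (lt_min (lt_of_le_of_ne (by linarith) (Ne.symm hfl)) (by linarith)) two_pos
    · have h1 := Int.floor_le x.re
      have h2 := Int.lt_floor_add_one x.re
      refine le_trans ?_ (Complex.abs_re_le_norm _)
      rw [mul_div_cancel₀ _ two_ne_zero, Complex.add_re, Complex.intCast_re]
      rcases le_or_gt (-n) ⌊x.re⌋ with h | h
      · have h' : (-(n : ℝ)) ≤ (⌊x.re⌋ : ℝ) := by exact_mod_cast h
        exact (min_le_left _ _).trans ((by linarith : _ ≤ x.re + n).trans (le_abs_self _))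
      · have h' : (⌊x.re⌋ : ℝ) + 1 ≤ (-(n : ℝ)) := by exact_mod_cast h
        exact (min_le_right _ _).trans ((by linarith : _ ≤ -(x.re + n)).trans (neg_le_abs _))
  have hlow : ∀ w ∈ Metric.ball x δ, ∀ n : ℤ, ‖x + n‖ / 2 ≤ ‖w + n‖ := fun w hw n => by
    have h1 : ‖x + n‖ ≤ ‖w + n‖ + ‖w - x‖ := by
      simpa [show w + (n : ℂ) - (w - x) = x + n by ring] using norm_sub_le (w + (n : ℂ)) (w - x)
    rw [mem_ball_iff_norm] at hw
    linarith [hδn n]
  have hpos : ∀ n : ℤ, 0 < ‖x + n‖ / 2 := fun n => half_pos (norm_pos_iff.mpr (hx n))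
  refine (continuousOn_tsum (fun n => ?_) (((summable_intInvSq x).norm).mul_left 4)
    (fun n w hw => ?_)).continuousAt (Metric.ball_mem_nhds x hδ)
  · refine ContinuousOn.div continuousOn_const (by fun_prop) fun w hw => ?_
    exact pow_ne_zero 2 (norm_pos_iff.mp ((hpos n).trans_le (hlow w hw n)))
  · rw [norm_div, norm_div, norm_one, norm_pow, norm_pow]
    have h := hlow w hw n
    have h0 := hpos n
    rw [mul_one_div, div_le_div_iff₀ (pow_pos (h0.trans_le h) 2)
      (pow_pos (by linarith : 0 < ‖x + n‖) 2)]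
    nlinarith

theorem intInvSqSum_eq_koebe {w : ℂ} (hw : ∀ n : ℤ, w + n ≠ 0) :
    intInvSqSum w = (-2 * π * I) ^ 2 * koebe (expTwoPi w) := by
  rcases lt_trichotomy 0 w.im with h | h | h
  · exact intInvSqSum_of_im_pos h
  · have hne : (1 : ℂ) - expTwoPi w ≠ 0 := by
      rw [sub_ne_zero, ne_comm, Ne, expTwoPi_eq_one_iff]
      rintro ⟨n, rfl⟩
      exact hw (-n) (by simp)
    have hpath : Filter.Tendsto (fun t : ℝ => w + t * I) (𝓝[>] 0) (𝓝 w) := by
      have : Continuous fun t : ℝ => w + t * I := by fun_prop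
      simpa using (this.tendsto 0).mono_left nhdsWithin_le_nhds
    have h1 : Filter.Tendsto (fun t : ℝ => intInvSqSum (w + t * I)) (𝓝[>] 0)
        (𝓝 (intInvSqSum w)) :=
      (continuousAt_intInvSqSum hw h.symm).tendsto.comp hpath
    have hK : ContinuousAt (fun v => (-2 * π * I) ^ 2 * koebe (expTwoPi v)) w := by
      refine continuousAt_const.mul ?_
      refine ContinuousAt.div (by unfold expTwoPi; fun_prop) (by unfold expTwoPi; fun_prop) ?_
      exact pow_ne_zero 2 hne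
    refine tendsto_nhds_unique h1 ((hK.tendsto.comp hpath).congr' ?_)
    filter_upwards [self_mem_nhdsWithin] with t ht
    refine (intInvSqSum_of_im_pos ?_).symm
    simpa [← h] using ht
  · rw [← intInvSqSum_neg, intInvSqSum_of_im_pos (by simpa using h), expTwoPi_neg,
      koebe_inv (expTwoPi_ne_zero w)]

theorem intInvSqSum_zero : intInvSqSum 0 = (π : ℂ) ^ 2 / 3 := by
  have h0 : HasSum (fun n : ℕ => 1 / ((n : ℂ)) ^ 2) ((π : ℂ) ^ 2 / 6) := by
    simpa [Function.comp_def] using Complex.hasSum_ofReal.mpr hasSum_zeta_two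
  have hp : HasSum (fun n : ℕ => (fun k : ℤ => 1 / ((0 : ℂ) + k) ^ 2) n) ((π : ℂ) ^ 2 / 6) := by
    simpa using h0
  have hn : HasSum (fun n : ℕ => (fun k : ℤ => 1 / ((0 : ℂ) + k) ^ 2) (-(n : ℤ)))
      ((π : ℂ) ^ 2 / 6) := by simpa using h0
  have h := HasSum.of_nat_of_neg (f := fun k : ℤ => 1 / ((0 : ℂ) + k) ^ 2) hp hn
  rw [intInvSqSum, h.tsum_eq]
  simp only [Int.cast_zero, add_zero]
  ring_nf

theorem intInvSqSum_zero_eq : intInvSqSum 0 = (-2 * π * I) ^ 2 * (-1 / 12) := by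
  rw [intInvSqSum_zero]
  ring_nf
  rw [Complex.I_sq]
  ring

end FermatAgent.Igusa
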