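import Fermat.Agent.Igusa.Fibre.RootUnits

/-!
# Differences of expansions of division values: integrality and unit leading term
-/

set_option autoImplicit false

noncomputable section

open Complex

namespace FermatAgent.Igusa

/-- `u` is congruent to `w` or to `-w` modulo `L`. -/
def PMEq (L : ℕ) (u w : ℤ × ℤ) : Prop :=
  ((L : ℤ) ∣ u.1 - w.1 ∧ (L : ℤ) ∣ u.2 - w.2) ∨ ((L : ℤ) ∣ u.1 + w.1 ∧ (L : ℤ) ∣ u.2 + w.2)

/-- The distance of the first coordinate to `Lℤ`. -/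
def vecHeight (L : ℕ) (u : ℤ × ℤ) : ℕ := min (u.1 % L).toNat (L - (u.1 % L).toNat)

/-- The coefficients of the expansion of `pDiv L u - pDiv L w`. -/
def wpDiffCoeff (L : ℕ) (u w : ℤ × ℤ) (n : ℕ) : ℂ :=
  wpCoeff L (zetaRoot L) u n - wpCoeff L (zetaRoot L) w n

theorem intDvd_congr {d x y : ℤ} (h : d ∣ x) (e : y = x) : d ∣ y := e ▸ h

variable {L : ℕ} [NeZero L]

theorem wpCoeff_congr {u w : ℤ × ℤ} (h1 : (L : ℤ) ∣ u.1 - w.1) (h2 : (L : ℤ) ∣ u.2 - w.2) :
    wpCoeff L (zetaRoot L) u = wpCoeff L (zetaRoot L) w := by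
  funext n
  have e : u.1 % (L : ℤ) = w.1 % L := Int.emod_eq_emod_iff_emod_sub_eq_zero.mpr
    (Int.emod_eq_zero_of_dvd h1)
  simp only [wpCoeff, zetaRoot_zpow_congr L h2, e, Int.dvd_iff_emod_eq_zero]

theorem wpCoeff_neg (u : ℤ × ℤ) :
    wpCoeff L (zetaRoot L) (-u) = wpCoeff L (zetaRoot L) u := by
  funext n
  simp only [wpCoeff, Prod.fst_neg, Prod.snd_neg, zpow_neg, dvd_neg, inv_inv,
    koebe_inv (zetaRoot_ne_zero L u.2)]
  split_ifs with hn hd <;> try rfl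
  rw [add_comm (arithCoeff L ((-u.1) % L).toNat _ n)]
  congr 2 <;> apply arithCoeff_congr
  all_goals
    have hL : (0 : ℤ) < L := Int.natCast_pos.mpr (NeZero.pos L)
    have h1 := Int.emod_nonneg u.1 hL.ne'
    have h2 := Int.emod_lt_of_pos u.1 hL
    obtain ⟨r, hr⟩ := Int.eq_ofNat_of_zero_le h1
    by_cases h0 : r = 0
    · subst h0
      have : (-u.1) % (L : ℤ) = 0 := Int.emod_eq_zero_of_dvd
        (dvd_neg.mpr (Int.dvd_of_emod_eq_zero (by simpa using hr)))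
      simp [this, hr]
    · have : (-u.1) % (L : ℤ) = ((L - r : ℕ) : ℤ) := by
        have hnd : ¬ (L : ℤ) ∣ u.1 := fun h => h0 (by have := Int.emod_eq_zero_of_dvd h; omega)
        rw [Nat.cast_sub (by omega), Int.neg_emod, if_neg hnd, hr, Int.natAbs_natCast]
      rw [this, hr, Int.toNat_natCast, Int.toNat_natCast]
      all_goals rw [show L - (L - r) = r by omega]

/-- Normal form of an index: `(a, b)` with `2a ≤ L`. -/
theorem exists_normal_index (u : ℤ × ℤ) :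
    ∃ (a : ℕ) (b : ℤ), a = vecHeight L u ∧ 2 * a ≤ L ∧ PMEq L u ((a : ℤ), b) ∧
      wpCoeff L (zetaRoot L) u = wpCoeff L (zetaRoot L) ((a : ℤ), b) := by
  have hL : (0 : ℤ) < L := Int.natCast_pos.mpr (NeZero.pos L)
  obtain ⟨r, hr⟩ := Int.eq_ofNat_of_zero_le (Int.emod_nonneg u.1 hL.ne')
  have hrL : r < L := by have := Int.emod_lt_of_pos u.1 hL; omega
  have hd : (L : ℤ) ∣ u.1 - r := by rw [← hr]; exact Int.dvd_self_sub_emod
  by_cases h : 2 * r ≤ L
  · exact ⟨r, u.2, by rw [vecHeight, hr, Int.toNat_natCast]; omega, h, Or.inl ⟨hd, by simp⟩, wpCoeff_congr hd (by simp)⟩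
  · have hd' : (L : ℤ) ∣ u.1 + ((L - r : ℕ) : ℤ) := by
      rw [Nat.cast_sub hrL.le]
      have := dvd_add hd (dvd_refl (L : ℤ))
      exact intDvd_congr this (by ring)
    refine ⟨L - r, -u.2, by rw [vecHeight, hr, Int.toNat_natCast]; omega, by omega, Or.inr ⟨hd', by simp⟩, ?_⟩
    rw [← wpCoeff_neg u]
    exact wpCoeff_congr (by
      rw [Prod.fst_neg, show -u.1 - ((L - r : ℕ) : ℤ) = -(u.1 + ((L - r : ℕ) : ℤ)) by ring]
      exact dvd_neg.mpr hd') (by simp)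

omit [NeZero L] in
theorem wpCoeff_zero (u : ℤ × ℤ) :
    wpCoeff L (zetaRoot L) u 0 =
      1 / 12 + if (L : ℤ) ∣ u.1 then koebe (zetaRoot L ^ u.2) else 0 := by
  rw [wpCoeff, if_pos rfl]

omit [NeZero L] in
theorem arithCoeff_of_lt {K : Type*} [CommRing K] {c n : ℕ} (ω : K) (hc : c ≤ L) (hn : n < c) :
    arithCoeff L c ω n = 0 := by
  rw [arithCoeff, Finset.sum_eq_zero]
  intro d hd
  rw [Finset.mem_filter, Nat.mem_divisors] at hd
  exfalso
  have hd0 : 0 < d := Nat.pos_of_ne_zero fun h => hd.1.2 (by simpa [h] using hd.1.1)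
  have hdn : d ≤ n := Nat.le_of_dvd (Nat.pos_of_ne_zero hd.1.2) hd.1.1
  rcases hc.lt_or_eq with hc' | hc'
  · rw [Nat.mod_eq_of_lt (by omega), Nat.mod_eq_of_lt hc'] at hd; omega
  · rw [hc', Nat.mod_self, Nat.mod_eq_of_lt (by omega)] at hd; omega

omit [NeZero L] in
theorem arithCoeff_self {K : Type*} [CommRing K] {c : ℕ} (ω : K) (hc0 : 0 < c) (hc : c < L) :
    arithCoeff L c ω c = ω := by
  rw [arithCoeff, Finset.sum_eq_single c]
  · simp [Nat.div_self hc0]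
  · intro d hd hne
    rw [Finset.mem_filter, Nat.mem_divisors] at hd
    have hdn : d ≤ c := Nat.le_of_dvd hc0 hd.1.1
    rw [Nat.mod_eq_of_lt (by omega), Nat.mod_eq_of_lt hc] at hd
    exact absurd hd.2 hne
  · intro h; simp [hc0.ne'] at h

omit [NeZero L] in
theorem wpCoeff_of_lt {a n : ℕ} (b : ℤ) (ha : 2 * a ≤ L) (hn0 : 0 < n) (hn : n < a) :
    wpCoeff L (zetaRoot L) ((a : ℤ), b) n = 0 := by
  have hmod : ((a : ℤ) % L).toNat = a := by
    rw [← Int.natCast_emod, Int.toNat_natCast, Nat.mod_eq_of_lt (by omega)]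
  rw [wpCoeff, if_neg hn0.ne']
  simp only [hmod]
  rw [arithCoeff_of_lt _ (by omega) hn, arithCoeff_of_lt _ (by omega) (by omega),
    arithCoeff_of_lt _ le_rfl (by omega)]
  ring

omit [NeZero L] in
/-- The coefficient of `t ^ a`. -/
theorem wpCoeff_self {a : ℕ} (b : ℤ) (ha0 : 0 < a) (ha : 2 * a ≤ L) :
    wpCoeff L (zetaRoot L) ((a : ℤ), b) a =
      zetaRoot L ^ b + if 2 * a = L then zetaRoot L ^ (-b) else 0 := by
  have hmod : ((a : ℤ) % L).toNat = a := by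
    rw [← Int.natCast_emod, Int.toNat_natCast, Nat.mod_eq_of_lt (by omega)]
  rw [wpCoeff, if_neg ha0.ne']
  simp only [hmod]
  rw [arithCoeff_self _ ha0 (by omega), arithCoeff_of_lt (1 : ℂ) le_rfl (by omega : a < L)]
  split_ifs with h
  · rw [show L - a = a by omega, arithCoeff_self _ ha0 (by omega), zpow_neg]; ring
  · rw [arithCoeff_of_lt _ (by omega) (by omega : a < L - a)]; ring

variable {R : Subring ℂ}

theorem koebe_mem (hR : HasRoots L R) (hL : (L : ℂ)⁻¹ ∈ R) (b : ℤ) :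
    koebe (zetaRoot L ^ b) ∈ R := by
  by_cases hb : (L : ℤ) ∣ b
  · rw [(zetaRoot_zpow_eq_one_iff L b).mpr hb]; simp [koebe]
  · exact ((isUnitIn_zetaRoot hR b).div ((isUnitIn_one_sub_zetaRoot hR hL hb).pow 2)).2.1

theorem wpDiffCoeff_mem (hR : HasRoots L R) (hL : (L : ℂ)⁻¹ ∈ R) (u w : ℤ × ℤ) (n : ℕ) :
    wpDiffCoeff L u w n ∈ R := by
  have harith : ∀ (c : ℕ) (b : ℤ), arithCoeff L c (zetaRoot L ^ b) n ∈ R := fun c b =>
    sum_mem fun d _ => mul_mem (natCast_mem R _) (pow_mem (zetaRoot_zpow_mem hR b) _)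
  have harith' : ∀ (c : ℕ) (b : ℤ), arithCoeff L c (zetaRoot L ^ b)⁻¹ n ∈ R := fun c b => by
    rw [← zpow_neg]; exact harith c (-b)
  rcases eq_or_ne n 0 with rfl | hn
  · rw [wpDiffCoeff, wpCoeff_zero, wpCoeff_zero, add_sub_add_left_eq_sub]
    refine sub_mem ?_ ?_ <;> split_ifs <;> first | exact koebe_mem hR hL _ | exact zero_mem R
  · rw [wpDiffCoeff, wpCoeff, wpCoeff, if_neg hn, if_neg hn, sub_sub_sub_cancel_right]
    exact sub_mem (add_mem (harith _ _) (harith' _ _)) (add_mem (harith _ _) (harith' _ _))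

omit [NeZero L] in
theorem PMEq.symm {u w : ℤ × ℤ} (h : PMEq L u w) : PMEq L w u := by
  rcases h with ⟨h1, h2⟩ | ⟨h1, h2⟩
  · exact Or.inl ⟨dvd_sub_comm.mp h1, dvd_sub_comm.mp h2⟩
  · exact Or.inr ⟨by rwa [add_comm], by rwa [add_comm]⟩

omit [NeZero L] in
theorem PMEq.trans {u v w : ℤ × ℤ} (h : PMEq L u v) (h' : PMEq L v w) : PMEq L u w := by
  rcases h with ⟨h1, h2⟩ | ⟨h1, h2⟩ <;> rcases h' with ⟨k1, k2⟩ | ⟨k1, k2⟩
  · exact Or.inl ⟨intDvd_congr (dvd_add h1 k1) (by ring), intDvd_congr (dvd_add h2 k2) (by ring)⟩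
  · exact Or.inr ⟨intDvd_congr (dvd_add h1 k1) (by ring), intDvd_congr (dvd_add h2 k2) (by ring)⟩
  · exact Or.inr ⟨intDvd_congr (dvd_sub h1 k1) (by ring), intDvd_congr (dvd_sub h2 k2) (by ring)⟩
  · exact Or.inl ⟨intDvd_congr (dvd_sub h1 k1) (by ring), intDvd_congr (dvd_sub h2 k2) (by ring)⟩

/-- A lead term of a difference. -/
def IsLeadAt (R : Subring ℂ) (c : ℕ → ℂ) (m : ℕ) : Prop :=
  (∀ n < m, c n = 0) ∧ IsUnitIn R (c m)

theorem exists_lead (hR : HasRoots L R) (hL : (L : ℂ)⁻¹ ∈ R) {u w : ℤ × ℤ}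
    (hu : NonzeroMod L u) (hw : NonzeroMod L w) (h : ¬ PMEq L u w) :
    ∃ m, m = min (vecHeight L u) (vecHeight L w) ∧ IsLeadAt R (wpDiffCoeff L u w) m := by
  obtain ⟨a, b, ea, ha, hua, hue⟩ := exists_normal_index (L := L) u
  obtain ⟨c, d, ec, hc, hwc, hwe⟩ := exists_normal_index (L := L) w
  have hne : ¬ PMEq L ((a : ℤ), b) ((c : ℤ), d) := fun h' => h ((hua.trans h').trans hwc.symm)
  have hnz : ∀ {v : ℤ × ℤ} {x : ℕ} {y : ℤ}, NonzeroMod L v → PMEq L v ((x : ℤ), y) → x = 0 →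
      ¬ (L : ℤ) ∣ y := by
    intro v x y hv hp hx hy
    subst hx
    apply hv
    rcases hp with ⟨h1, h2⟩ | ⟨h1, h2⟩
    · exact ⟨by simpa using h1, by simpa using dvd_add h2 hy⟩
    · exact ⟨by simpa using h1, by simpa using dvd_sub h2 hy⟩
  have hdvd0 : ∀ {x : ℕ}, 2 * x ≤ L → ((L : ℤ) ∣ (x : ℤ) ↔ x = 0) := fun {x} hx => by
    have := NeZero.pos L
    refine ⟨fun h => Nat.eq_zero_of_dvd_of_lt (Int.natCast_dvd_natCast.mp h) (by omega),
      fun h => by simp [h]⟩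
  have hz1 : zetaRoot L ≠ 0 := by simpa using zetaRoot_ne_zero L 1
  unfold IsLeadAt wpDiffCoeff
  rw [hue, hwe]
  wlog hac : a ≤ c generalizing a b c d u w
  · obtain ⟨m, hm, h1, h2⟩ := this (u := w) (w := u) hw hu (fun h' => h h'.symm) c d ec hc hwc hwe
      a b ea ha hua hue (fun h' => hne h'.symm) (by omega)
    exact ⟨m, by omega, fun n hn => by rw [← neg_sub, h1 n hn, neg_zero], by
      rw [← neg_sub]; exact h2.neg⟩
  refine ⟨a, by omega, fun n hn => ?_, ?_⟩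
  · rcases eq_or_ne n 0 with rfl | hn0
    · rw [wpCoeff_zero, wpCoeff_zero, if_neg (by simp [hdvd0 ha]; omega),
        if_neg (by simp [hdvd0 hc]; omega), sub_self]
    · rw [wpCoeff_of_lt b ha (by omega) hn, wpCoeff_of_lt d hc (by omega) (by omega), sub_self]
  rcases Nat.eq_zero_or_pos a with rfl | ha0
  · have hb : ¬ (L : ℤ) ∣ b := hnz hu hua rfl
    have hκ := ((isUnitIn_zetaRoot hR b).div ((isUnitIn_one_sub_zetaRoot hR hL hb).pow 2))
    rw [wpCoeff_zero, wpCoeff_zero, add_sub_add_left_eq_sub, if_pos (by simp)]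
    by_cases hc0 : c = 0
    · subst hc0
      have hd : ¬ (L : ℤ) ∣ d := hnz hw hwc rfl
      have h1 : ¬ (L : ℤ) ∣ b - d := fun h' => hne (Or.inl ⟨by simp, h'⟩)
      have h2 : ¬ (L : ℤ) ∣ b + d := fun h' => hne (Or.inr ⟨by simp, h'⟩)
      rw [if_pos (by simp)]
      convert (((isUnitIn_zetaRoot_sub hR hL h1).mul (isUnitIn_one_sub_zetaRoot hR hL h2)).div
        (((isUnitIn_one_sub_zetaRoot hR hL hb).pow 2).mul
          ((isUnitIn_one_sub_zetaRoot hR hL hd).pow 2))) using 1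
      simp only [koebe, zpow_add₀ hz1]
      have e1 := (isUnitIn_one_sub_zetaRoot hR hL hb).1
      have e2 := (isUnitIn_one_sub_zetaRoot hR hL hd).1
      field_simp
      ring
    · rw [if_neg (by simp only [hdvd0 hc]; exact hc0), sub_zero]
      exact hκ
  · rw [wpCoeff_self b ha0 ha]
    rcases hac.lt_or_eq with hlt | rfl
    · rw [if_neg (by omega), wpCoeff_of_lt d hc ha0 hlt, add_zero, sub_zero]
      exact isUnitIn_zetaRoot hR b
    · rw [wpCoeff_self d ha0 hc]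
      have h1 : ¬ (L : ℤ) ∣ b - d := fun h' => hne (Or.inl ⟨by simp, h'⟩)
      split_ifs with hhalf
      · have h2 : ¬ (L : ℤ) ∣ -(b + d) := fun h' => hne (Or.inr ⟨by
          rw [← two_mul]; exact ⟨1, by rw [mul_one, ← hhalf]; push_cast; ring⟩, dvd_neg.mp h'⟩)
        convert (isUnitIn_zetaRoot_sub hR hL h1).mul (isUnitIn_one_sub_zetaRoot hR hL h2) using 1
        rw [neg_add, zpow_add₀ hz1, zpow_neg, zpow_neg]
        field_simp [zetaRoot_ne_zero L b, zetaRoot_ne_zero L d]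
        ring
      · rw [add_zero, add_zero]
        exact isUnitIn_zetaRoot_sub hR hL h1

end FermatAgent.Igusa

end
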