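import Fermat.Agent.Igusa.Transitive
import Fermat.Agent.Igusa.Fibre.WpCoeff
import Fermat.Agent.Igusa.Fibre.Series

/-!
# Differences and ratios of division values as integral modular functions
-/

set_option autoImplicit false

noncomputable section

open UpperHalfPlane hiding I
open Complex Filter Function
open scoped Real Topology MatrixGroups Manifold ModularForm

namespace FermatAgent.Igusa

open FermatAgent.ModFun ModularCurve

/-- The difference of two division values. -/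
def wpDiff (L : ℕ) (u w : ℤ × ℤ) (τ : ℍ) : ℂ := pDiv L u τ - pDiv L w τ

/-- The cross ratio like function `(℘v - ℘a)/(℘b - ℘a)`. -/
def wpRatio (L : ℕ) (v a b : ℤ × ℤ) (τ : ℍ) : ℂ := wpDiff L v a τ / wpDiff L b a τ

variable {L : ℕ} [NeZero L]

theorem tParam_dil (τ : ℍ) : tParam L (dil L τ) = Periodic.qParam 1 (τ : ℂ) := by
  rw [tParam, expTwoPi, coe_dil, mul_div_cancel_left₀ _ (Nat.cast_ne_zero.mpr (NeZero.ne L)),
    Periodic.qParam]
  congr 1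
  simp

theorem hasSum_wpDiff {u w : ℤ × ℤ} (hu : NonzeroMod L u) (hw : NonzeroMod L w) (τ : ℍ) :
    HasSum (fun n : ℕ => wpDiffCoeff L u w n * Periodic.qParam 1 (τ : ℂ) ^ n)
      ((wpDiff L u w ∘ dil L) τ) := by
  have h := (hasSum_pDiv (NeZero.pos L) hu (dil L τ)).sub
    (hasSum_pDiv (NeZero.pos L) hw (dil L τ))
  rw [tParam_dil] at h
  exact h.congr_fun fun n => by rw [wpDiffCoeff, sub_mul]

theorem wpDiff_ne_zero {u w : ℤ × ℤ} (hu : NonzeroMod L u) (hw : NonzeroMod L w)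
    (h : ¬ PMEq L u w) (τ : ℍ) : wpDiff L u w τ ≠ 0 := fun h0 =>
  h ((pDiv_eq_iff (NeZero.pos L) hu hw τ).mp (sub_eq_zero.mp h0))

omit [NeZero L] in
theorem vecMulSL_add (u w : ℤ × ℤ) (γ : SL(2, ℤ)) :
    vecMulSL (u + w) γ = vecMulSL u γ + vecMulSL w γ := by
  simp only [vecMulSL, Prod.fst_add, Prod.snd_add, Prod.mk_add_mk]
  ext <;> ring

omit [NeZero L] in
theorem dvd_vecMulSL {u : ℤ × ℤ} (h1 : (L : ℤ) ∣ u.1) (h2 : (L : ℤ) ∣ u.2) (γ : SL(2, ℤ)) :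
    (L : ℤ) ∣ (vecMulSL u γ).1 ∧ (L : ℤ) ∣ (vecMulSL u γ).2 :=
  ⟨dvd_add (h1.mul_right _) (h2.mul_right _), dvd_add (h1.mul_right _) (h2.mul_right _)⟩

omit [NeZero L] in
theorem PMEq.vecMulSL {u w : ℤ × ℤ} (h : PMEq L u w) (γ : SL(2, ℤ)) :
    PMEq L (vecMulSL u γ) (vecMulSL w γ) := by
  rcases h with ⟨h1, h2⟩ | ⟨h1, h2⟩
  · obtain ⟨k1, k2⟩ := dvd_vecMulSL (u := u - w) (by simpa using h1) (by simpa using h2) γ
    exact Or.inl ⟨intDvd_congr k1 (by simp [Igusa.vecMulSL]; ring),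
      intDvd_congr k2 (by simp [Igusa.vecMulSL]; ring)⟩
  · obtain ⟨k1, k2⟩ := dvd_vecMulSL (u := u + w) (by simpa using h1) (by simpa using h2) γ
    exact Or.inr ⟨intDvd_congr k1 (by simp [Igusa.vecMulSL]; ring),
      intDvd_congr k2 (by simp [Igusa.vecMulSL]; ring)⟩

omit [NeZero L] in
theorem not_pmEq_vecMulSL {u w : ℤ × ℤ} (h : ¬ PMEq L u w) (γ : SL(2, ℤ)) :
    ¬ PMEq L (vecMulSL u γ) (vecMulSL w γ) := fun h' => h (by
  simpa [← vecMulSL_mul, vecMulSL_one] using h'.vecMulSL γ⁻¹)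

omit [NeZero L] in
theorem wpDiff_smul (u w : ℤ × ℤ) (γ : SL(2, ℤ)) (τ : ℍ) :
    wpDiff L u w (γ • τ) =
      ((γ 1 0 : ℂ) * τ + γ 1 1) ^ 2 * wpDiff L (vecMulSL u γ) (vecMulSL w γ) τ := by
  rw [wpDiff, wpDiff, pDiv_smul, pDiv_smul, mul_sub]

omit [NeZero L] in
theorem dvd_vecMulSL_sub_of_mem_gamma {γ : SL(2, ℤ)} (hγ : γ ∈ CongruenceSubgroup.Gamma L)
    (u : ℤ × ℤ) :
    (L : ℤ) ∣ (vecMulSL u γ).1 - u.1 ∧ (L : ℤ) ∣ (vecMulSL u γ).2 - u.2 := by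
  obtain ⟨h00, h01, h10, h11⟩ := CongruenceSubgroup.Gamma_mem.mp hγ
  simp only [← ZMod.intCast_zmod_eq_zero_iff_dvd, vecMulSL]
  push_cast
  constructor <;> simp [h00, h01, h10, h11]

theorem pDiv_vecMulSL_of_mem_gamma {γ : SL(2, ℤ)} (hγ : γ ∈ CongruenceSubgroup.Gamma L)
    (u : ℤ × ℤ) (τ : ℍ) : pDiv L (vecMulSL u γ) τ = pDiv L u τ :=
  pDiv_congr (NeZero.pos L) (dvd_vecMulSL_sub_of_mem_gamma hγ u).1
    (dvd_vecMulSL_sub_of_mem_gamma hγ u).2 τ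

variable {R : Subring ℂ}

theorem toLS_mk_coeff (c : ℕ → ℂ) (n : ℕ) :
    (toLS (PowerSeries.mk c)).coeff (n : ℤ) = c n := by
  rw [HahnSeries.ofPowerSeries_apply_coeff, PowerSeries.coeff_mk]

theorem toLS_mk_coeff_neg (c : ℕ → ℂ) {m : ℤ} (hm : m < 0) :
    (toLS (PowerSeries.mk c)).coeff m = 0 := by
  rw [PowerSeries.coeff_coe, if_pos hm]

theorem qExp_wpDiff {u w : ℤ × ℤ} (hu : NonzeroMod L u) (hw : NonzeroMod L w) :
    qExp L (wpDiff L u w) = toLS (PowerSeries.mk (wpDiffCoeff L u w)) :=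
  (mem_cuspRing_of_hasSum (hasSum_wpDiff hu hw)).2.2

theorem wpDiff_mem_expSubring (hR : HasRoots L R) (hL : (L : ℂ)⁻¹ ∈ R) {u w : ℤ × ℤ}
    (hu : NonzeroMod L u) (hw : NonzeroMod L w) : wpDiff L u w ∈ expSubring L R := by
  refine (mem_expSubring L R).mpr ⟨(mem_cuspRing_of_hasSum (hasSum_wpDiff hu hw)).1, fun m => ?_⟩
  rw [qExp_wpDiff hu hw]
  rcases lt_or_ge m 0 with hm | hm
  · rw [toLS_mk_coeff_neg _ hm]; exact zero_mem R
  · obtain ⟨n, rfl⟩ := Int.eq_ofNat_of_zero_le hm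
    rw [toLS_mk_coeff]
    exact wpDiffCoeff_mem hR hL u w n

theorem inv_wpDiff_mem_expSubring (hR : HasRoots L R) (hL : (L : ℂ)⁻¹ ∈ R) {u w : ℤ × ℤ}
    (hu : NonzeroMod L u) (hw : NonzeroMod L w) (h : ¬ PMEq L u w) :
    (fun τ => (wpDiff L u w τ)⁻¹) ∈ expSubring L R := by
  obtain ⟨m, -, hlt, hm⟩ := exists_lead hR hL hu hw h
  have hsum := hasSum_wpDiff (L := L) hu hw
  have hinv : (fun τ => ((wpDiff L u w ∘ dil L) τ)⁻¹) ∈ cuspRing :=
    inv_mem_cuspRing_of_hasSum hsum (fun τ => wpDiff_ne_zero hu hw h _) hlt hm.1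
  have hd := (mem_cuspRing_of_hasSum hsum).1
  refine (mem_expSubring L R).mpr ⟨hinv, mem_seriesSubring.mp ?_⟩
  set s : LaurentSeries R :=
    HahnSeries.ofPowerSeries ℤ R (PowerSeries.mk fun n => ⟨_, wpDiffCoeff_mem hR hL u w n⟩) with hs
  have hsC : coeffMap R.subtype s = qExp L (wpDiff L u w) := by
    rw [qExp_wpDiff hu hw, hs, coeffMap_ofPowerSeries]
    congr 1
  have hsm : s.coeff (m : ℤ) ≠ 0 := by
    rw [hs, HahnSeries.ofPowerSeries_apply_coeff, PowerSeries.coeff_mk]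
    exact fun h0 => hm.1 (congrArg Subtype.val h0)
  have hord : s.order = m := by
    refine order_eq_of_coeff hsm fun i hi => ?_
    rw [hs]
    rcases lt_or_ge i 0 with hi0 | hi0
    · rw [PowerSeries.coeff_coe, if_pos hi0]
    · obtain ⟨n, rfl⟩ := Int.eq_ofNat_of_zero_le hi0
      rw [HahnSeries.ofPowerSeries_apply_coeff, PowerSeries.coeff_mk]
      exact Subtype.ext (hlt n (by omega))
  have hu' : IsUnit s := by
    rw [HahnSeries.isUnit_iff, HahnSeries.leadingCoeff_eq, hord, hs,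
      HahnSeries.ofPowerSeries_apply_coeff, PowerSeries.coeff_mk]
    exact hm.isUnit_mk
  obtain ⟨t, ht⟩ := hu'.exists_right_inv
  refine ⟨t, ?_⟩
  have hd' : wpDiff L u w ∈ cuspRingAt L := hd
  have hi' : (fun τ => (wpDiff L u w τ)⁻¹) ∈ cuspRingAt L := hinv
  have hmul : qExp L (wpDiff L u w) * qExp L (fun τ => (wpDiff L u w τ)⁻¹) = 1 := by
    rw [← qExpHom_apply L ⟨_, hd'⟩, ← qExpHom_apply L ⟨_, hi'⟩, ← map_mul, ← map_one (qExpHom L)]
    congr 1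
    exact Subtype.ext (funext fun τ => mul_inv_cancel₀ (wpDiff_ne_zero hu hw h _))
  have hne : qExp L (wpDiff L u w) ≠ 0 := left_ne_zero_of_mul_eq_one hmul
  refine mul_left_cancel₀ hne ?_
  rw [hmul, ← hsC, ← map_mul, ht, map_one]

/-- The indices of a ratio are admissible. -/
structure RatioIdx (L : ℕ) (v a b : ℤ × ℤ) : Prop where
  hv : NonzeroMod L v
  ha : NonzeroMod L a
  hb : NonzeroMod L b
  hva : ¬ PMEq L v a
  hba : ¬ PMEq L b a

omit [NeZero L] in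
theorem RatioIdx.vecMulSL {v a b : ℤ × ℤ} (h : RatioIdx L v a b) (γ : SL(2, ℤ)) :
    RatioIdx L (vecMulSL v γ) (vecMulSL a γ) (vecMulSL b γ) :=
  ⟨nonzeroMod_vecMulSL h.hv γ, nonzeroMod_vecMulSL h.ha γ, nonzeroMod_vecMulSL h.hb γ,
    not_pmEq_vecMulSL h.hva γ, not_pmEq_vecMulSL h.hba γ⟩

omit [NeZero L] in
theorem wpRatio_smul (v a b : ℤ × ℤ) (γ : SL(2, ℤ)) (τ : ℍ) :
    wpRatio L v a b (γ • τ) =
      wpRatio L (vecMulSL v γ) (vecMulSL a γ) (vecMulSL b γ) τ := by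
  have hc : ((γ 1 0 : ℂ) * τ + γ 1 1) ^ 2 ≠ 0 :=
    pow_ne_zero _ (sl_denom_ne_zero γ τ)
  rw [wpRatio, wpRatio, wpDiff_smul, wpDiff_smul, mul_div_mul_left _ _ hc]

theorem wpRatio_mem_intFun (hR : HasRoots L R) (hL : (L : ℂ)⁻¹ ∈ R) {v a b : ℤ × ℤ}
    (h : RatioIdx L v a b) : wpRatio L v a b ∈ intFun L R := by
  refine ⟨fun γ hγ τ => ?_, fun γ => ?_⟩
  · rw [wpRatio_smul]
    simp only [wpRatio, wpDiff, pDiv_vecMulSL_of_mem_gamma hγ]
  · have h' := h.vecMulSL γ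
    have e : compSmul γ (wpRatio L v a b) =
        wpDiff L (vecMulSL v γ) (vecMulSL a γ) *
          fun τ => (wpDiff L (vecMulSL b γ) (vecMulSL a γ) τ)⁻¹ := by
      funext τ
      rw [compSmul_apply, wpRatio_smul, Pi.mul_apply, wpRatio, div_eq_mul_inv]
    rw [e]
    exact mul_mem (wpDiff_mem_expSubring hR hL h'.hv h'.ha)
      (inv_wpDiff_mem_expSubring hR hL h'.hb h'.ha h'.hba)

/-- The ratio as an integral function. -/
def ratioInt (hR : HasRoots L R) (hL : (L : ℂ)⁻¹ ∈ R) {v a b : ℤ × ℤ} (h : RatioIdx L v a b) :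
    intFun L R := ⟨wpRatio L v a b, wpRatio_mem_intFun hR hL h⟩

@[simp] theorem coe_ratioInt (hR : HasRoots L R) (hL : (L : ℂ)⁻¹ ∈ R) {v a b : ℤ × ℤ}
    (h : RatioIdx L v a b) : (ratioInt hR hL h : ℍ → ℂ) = wpRatio L v a b := rfl

theorem smul_ratioInt (hR : HasRoots L R) (hL : (L : ℂ)⁻¹ ∈ R) {v a b : ℤ × ℤ}
    (h : RatioIdx L v a b) (γ : SL(2, ℤ)) :
    γ • ratioInt hR hL h = ratioInt hR hL (h.vecMulSL γ⁻¹) := by
  refine Subtype.ext (funext fun τ => ?_)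
  rw [smul_apply, coe_ratioInt, coe_ratioInt, wpRatio_smul]

theorem ratioInt_mul_swap (hR : HasRoots L R) (hL : (L : ℂ)⁻¹ ∈ R) {v a b : ℤ × ℤ}
    (h : RatioIdx L v a b) :
    ratioInt hR hL h * ratioInt hR hL (⟨h.hb, h.ha, h.hv, h.hba, h.hva⟩ : RatioIdx L b a v) = 1 := by
  refine Subtype.ext (funext fun τ => ?_)
  have h1 := wpDiff_ne_zero h.hv h.ha h.hva τ
  have h2 := wpDiff_ne_zero h.hb h.ha h.hba τ
  show wpRatio L v a b τ * wpRatio L b a v τ = 1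
  rw [wpRatio, wpRatio]
  field_simp

/-- A ratio is a unit of the integral functions. -/
theorem isUnit_ratioInt (hR : HasRoots L R) (hL : (L : ℂ)⁻¹ ∈ R) {v a b : ℤ × ℤ}
    (h : RatioIdx L v a b) : IsUnit (ratioInt hR hL h) :=
  IsUnit.of_mul_eq_one _ (ratioInt_mul_swap hR hL h)

end FermatAgent.Igusa

end
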