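import Fermat.Agent.Igusa.Fibre.RatioLead
import Fermat.Agent.Igusa.Invariant

/-!
# The functions `(℘u - ℘w) E₄ E₆ / Δ`
-/

set_option autoImplicit false

noncomputable section

open UpperHalfPlane hiding I
open Complex Filter Function
open scoped Real Topology MatrixGroups Manifold ModularForm

namespace FermatAgent.Igusa

open FermatAgent.ModFun ModularCurve

/-- The expansion of `E₆` with integral coefficients. -/
def eisenSix : PowerSeries ℤ :=
  PowerSeries.mk fun n => if n = 0 then 1 else -504 * (ArithmeticFunction.sigma 5 n : ℤ)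

theorem constantCoeff_eisenSix : PowerSeries.constantCoeff eisenSix = 1 := by
  simp [← PowerSeries.coeff_zero_eq_constantCoeff_apply, eisenSix]

theorem qExpansion_E6_eq :
    qExpansion 1 (ModularForm.E₆ : ℍ → ℂ) = eisenSix.map (Int.castRingHom ℂ) := by
  ext m
  rw [EisensteinSeries.E_qExpansion_coeff _ ⟨3, rfl⟩, PowerSeries.coeff_map, eisenSix,
    PowerSeries.coeff_mk, show bernoulli 6 = 1 / 42 by decide +kernel]
  rcases eq_or_ne m 0 with rfl | hm
  · simp
  · simp [hm]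
    norm_num

/-- The expansion of `E₄ E₆ / Δ`. -/
def e46Ser (A : Type*) [CommRing A] : LaurentSeries A :=
  HahnSeries.ofPowerSeries ℤ A (eisenstein4.map (Int.castRingHom A)) *
    HahnSeries.ofPowerSeries ℤ A (eisenSix.map (Int.castRingHom A)) * invDeltaModC A

theorem coeffMap_e46Ser {A B : Type*} [CommRing A] [CommRing B] (f : A →+* B) :
    coeffMap f (e46Ser A) = e46Ser B := by
  rw [e46Ser, map_mul, map_mul, coeffMap_invDeltaModC, coeffMap_ofPowerSeries,
    coeffMap_ofPowerSeries, e46Ser]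
  simp only [← RingHom.comp_apply (PowerSeries.map f), ← PowerSeries.map_comp,
    RingHom.ext_int (f.comp (Int.castRingHom A)) (Int.castRingHom B)]

theorem e46Ser_lead (A : Type*) [CommRing A] :
    (∀ i < (-1 : ℤ), (e46Ser A).coeff i = 0) ∧ (e46Ser A).coeff (-1) = 1 := by
  set p : PowerSeries A := eisenstein4.map (Int.castRingHom A) * eisenSix.map (Int.castRingHom A) *
    dedekindEtaUnitInv.map (Int.castRingHom A) with hp
  have e : e46Ser A = HahnSeries.single (-1 : ℤ) (1 : A) * HahnSeries.ofPowerSeries ℤ A p := by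
    rw [e46Ser, invDeltaModC, hp, map_mul, map_mul]
    ring
  refine ⟨fun i hi => ?_, ?_⟩
  · rw [e, HahnSeries.coeff_single_mul, PowerSeries.coeff_coe, if_pos (by omega), mul_zero]
  · rw [e, HahnSeries.coeff_single_mul, sub_self, one_mul,
      show (0 : ℤ) = ((0 : ℕ) : ℤ) from rfl, HahnSeries.ofPowerSeries_apply_coeff,
      PowerSeries.coeff_zero_eq_constantCoeff_apply, hp, map_mul, map_mul,
      ← PowerSeries.coeff_zero_eq_constantCoeff_apply, ← PowerSeries.coeff_zero_eq_constantCoeff_apply,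
      ← PowerSeries.coeff_zero_eq_constantCoeff_apply, PowerSeries.coeff_map, PowerSeries.coeff_map,
      PowerSeries.coeff_map]
    simp [PowerSeries.coeff_zero_eq_constantCoeff_apply, constantCoeff_eisenSix,
      constantCoeff_dedekindEtaUnitInv]

/-- `E₄ E₆ / Δ`. -/
def e46Fun (τ : ℍ) : ℂ := ModularForm.E₄ τ * ModularForm.E₆ τ * invDelta τ

theorem e46Fun_mem_cuspRing : e46Fun ∈ cuspRing :=
  mul_mem (mul_mem (modularForm_mem_cuspRing ModularForm.E₄)
    (modularForm_mem_cuspRing ModularForm.E₆)) invDelta_mem_cuspRing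

theorem qLaurent_e46Fun : qLaurent e46Fun = e46Ser ℂ := by
  have h4 := modularForm_mem_cuspRing ModularForm.E₄
  have h6 := modularForm_mem_cuspRing ModularForm.E₆
  have e : qLaurentHom ((⟨_, h4⟩ : cuspRing) * ⟨_, h6⟩ * ⟨_, invDelta_mem_cuspRing⟩) =
      qLaurent e46Fun := rfl
  rw [← e, map_mul, map_mul, qLaurentHom_apply, qLaurentHom_apply, qLaurentHom_apply,
    qLaurent_invDelta, qLaurent_of_bounded h4 (ModularFormClass.bdd_at_infty _),
    qLaurent_of_bounded h6 (ModularFormClass.bdd_at_infty _), qExpansion_E4_eq, qExpansion_E6_eq]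
  rfl

theorem e46Fun_smul (γ : SL(2, ℤ)) (τ : ℍ) :
    e46Fun (γ • τ) * ((γ 1 0 : ℂ) * τ + γ 1 1) ^ 2 = e46Fun τ := by
  have hc := sl_denom_ne_zero γ τ
  have hd : denom (γ : GL (Fin 2) ℝ) τ = (γ 1 0 : ℂ) * τ + γ 1 1 := by simp [denom]
  rw [e46Fun, e46Fun, invDelta, invDelta, discriminant_smul_eq, modularForm_smul_eq,
    modularForm_smul_eq, hd]
  have hD := ModularForm.discriminant_ne_zero τ
  simp only [show ((4 : ℤ)) = ((4 : ℕ) : ℤ) from rfl, show ((6 : ℤ)) = ((6 : ℕ) : ℤ) from rfl,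
    zpow_natCast]
  field_simp

variable {L : ℕ} [NeZero L] {R : Subring ℂ}

/-- `(℘u - ℘w) E₄ E₆ / Δ`. -/
def formFun (L : ℕ) (u w : ℤ × ℤ) (τ : ℍ) : ℂ := wpDiff L u w τ * e46Fun τ

omit [NeZero L] in
theorem formFun_smul (u w : ℤ × ℤ) (γ : SL(2, ℤ)) (τ : ℍ) :
    formFun L u w (γ • τ) = formFun L (vecMulSL u γ) (vecMulSL w γ) τ := by
  rw [formFun, formFun, wpDiff_smul, ← e46Fun_smul γ τ]
  ring

theorem qExp_e46Fun : qExp L e46Fun = qExpand ℂ L (e46Ser ℂ) := by
  rw [qExp, qLaurent_comp_dil e46Fun_mem_cuspRing, qLaurent_e46Fun]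

theorem formFun_mem_intFun (hR : HasRoots L R) (hL : (L : ℂ)⁻¹ ∈ R) {u w : ℤ × ℤ}
    (hu : NonzeroMod L u) (hw : NonzeroMod L w) : formFun L u w ∈ intFun L R := by
  have he : e46Fun ∈ expSubring L R :=
    (mem_expSubring L R).mpr ⟨mem_cuspRing_comp_dil e46Fun_mem_cuspRing L, mem_seriesSubring.mp
      (qExp_e46Fun (L := L) ▸ qExpand_mem_seriesSubring L R ⟨e46Ser R, coeffMap_e46Ser _⟩)⟩
  refine ⟨fun γ hγ τ => ?_, fun γ => ?_⟩
  · rw [formFun_smul]
    simp only [formFun, wpDiff, pDiv_vecMulSL_of_mem_gamma hγ]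
  · have e : compSmul γ (formFun L u w) =
        wpDiff L (vecMulSL u γ) (vecMulSL w γ) * e46Fun := by
      funext τ
      rw [compSmul_apply, formFun_smul]
      rfl
    rw [e]
    exact mul_mem (wpDiff_mem_expSubring hR hL (nonzeroMod_vecMulSL hu γ)
      (nonzeroMod_vecMulSL hw γ)) he

/-- `(℘u - ℘w) E₄ E₆ / Δ` as an integral function. -/
def formInt (hR : HasRoots L R) (hL : (L : ℂ)⁻¹ ∈ R) {u w : ℤ × ℤ}
    (hu : NonzeroMod L u) (hw : NonzeroMod L w) : intFun L R :=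
  ⟨formFun L u w, formFun_mem_intFun hR hL hu hw⟩

theorem smul_formInt (hR : HasRoots L R) (hL : (L : ℂ)⁻¹ ∈ R) {u w : ℤ × ℤ}
    (hu : NonzeroMod L u) (hw : NonzeroMod L w) (γ : SL(2, ℤ)) :
    γ • formInt hR hL hu hw =
      formInt hR hL (nonzeroMod_vecMulSL hu γ⁻¹) (nonzeroMod_vecMulSL hw γ⁻¹) :=
  Subtype.ext (funext fun τ => by rw [smul_apply]; exact formFun_smul u w γ⁻¹ τ)

theorem intExp_formInt (hR : HasRoots L R) (hL : (L : ℂ)⁻¹ ∈ R) {u w : ℤ × ℤ}
    (hu : NonzeroMod L u) (hw : NonzeroMod L w) :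
    intExp L R (formInt hR hL hu hw) = diffSeries hR hL u w * qExpand R L (e46Ser R) := by
  apply coeffMap_injective R.subtype_injective
  rw [map_mul, coeffMap_intExp, coeffMap_diffSeries hR hL hu hw, coeffMap_qExpand, coeffMap_e46Ser,
    ← qExp_e46Fun]
  exact map_mul (qExpHom L)
    ⟨_, ((mem_expSubring L R).mp (wpDiff_mem_expSubring hR hL hu hw)).1⟩
    ⟨e46Fun, mem_cuspRing_comp_dil e46Fun_mem_cuspRing L⟩

theorem cuspBound_formInt (hR : HasRoots L R) (hL : (L : ℂ)⁻¹ ∈ R) {u w : ℤ × ℤ}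
    (hu : NonzeroMod L u) (hw : NonzeroMod L w) : CuspBound (formInt hR hL hu hw) (-(L : ℤ)) := by
  intro γ m hm
  rw [expCoeff, smul_formInt, intExp_formInt]
  refine (coeff_mul_of_bound (s := 0) (t := -(L : ℤ))
    (fun i hi => diffSeries_coeff_neg hR hL _ _ hi) (fun i hi => ?_)).1 m (by simpa using hm)
  by_cases hd : (L : ℤ) ∣ i
  · obtain ⟨c, rfl⟩ := hd
    rw [qExpand_coeff_mul]
    refine (e46Ser_lead R).1 c ?_
    nlinarith [(Int.natCast_pos.mpr (NeZero.pos L) : (0 : ℤ) < L)]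
  · exact qExpand_coeff_of_not_dvd _ _ hd

theorem expCoeff_formInt (hR : HasRoots L R) (hL : (L : ℂ)⁻¹ ∈ R) {u w : ℤ × ℤ}
    (hu : NonzeroMod L u) (hw : NonzeroMod L w) (γ : SL(2, ℤ)) {i : ℕ} (hi : i < L) :
    expCoeff (formInt hR hL hu hw) γ (-(L : ℤ) + i) =
      (diffSeries hR hL (vecMulSL u γ⁻¹) (vecMulSL w γ⁻¹)).coeff (i : ℤ) := by
  have hLp : (0 : ℤ) < L := Int.natCast_pos.mpr (NeZero.pos L)
  rw [expCoeff, smul_formInt, intExp_formInt]
  set x := diffSeries hR hL (vecMulSL u γ⁻¹) (vecMulSL w γ⁻¹)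
  set z := qExpand R L (e46Ser R) - HahnSeries.single (-(L : ℤ)) 1 with hz
  have hzb : ∀ j < (0 : ℤ), z.coeff j = 0 := by
    intro j hj
    rw [hz, HahnSeries.coeff_sub]
    by_cases hd : (L : ℤ) ∣ j
    · obtain ⟨c, rfl⟩ := hd
      rw [qExpand_coeff_mul]
      have hc : c ≤ -1 := by nlinarith
      rcases hc.lt_or_eq with hc | rfl
      · rw [(e46Ser_lead R).1 c hc, HahnSeries.coeff_single_of_ne (by nlinarith), sub_zero]
      · rw [(e46Ser_lead R).2, mul_neg, mul_one, HahnSeries.coeff_single_same, sub_self]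
    · rw [qExpand_coeff_of_not_dvd _ _ hd,
        HahnSeries.coeff_single_of_ne fun h => hd ⟨-1, by rw [h]; ring⟩, sub_zero]
  rw [show qExpand R L (e46Ser R) = HahnSeries.single (-(L : ℤ)) 1 + z by rw [hz]; ring, mul_add,
    HahnSeries.coeff_add, HahnSeries.coeff_mul_single, mul_one,
    (coeff_mul_of_bound (fun j hj => diffSeries_coeff_neg hR hL _ _ hj) hzb).1 _ (by omega),
    add_zero]
  congr 1
  ring

theorem cuspBound_jInt : CuspBound (jInt L R) (-(L : ℤ)) := by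
  intro γ m hm
  rw [expCoeff, smul_jInt, intExp_jInt]
  by_cases hd : (L : ℤ) ∣ m
  · obtain ⟨c, rfl⟩ := hd
    rw [qExpand_coeff_mul, coeff_jqModC_of_lt R (k := c) (by nlinarith)]
  · exact qExpand_coeff_of_not_dvd _ _ hd

theorem expCoeff_jInt (γ : SL(2, ℤ)) : expCoeff (jInt L R) γ (-(L : ℤ)) = 1 := by
  rw [expCoeff, smul_jInt, intExp_jInt, show -(L : ℤ) = (L : ℤ) * (-1) by ring, qExpand_coeff_mul,
    coeff_jqModC_neg_one]

end FermatAgent.Igusa

end
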