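import Mathlib.Analysis.SpecificLimits.Normed
import Mathlib.NumberTheory.ArithmeticFunction.Misc
import Mathlib.Topology.Algebra.InfiniteSum.Constructions
import Fermat.Agent.Igusa.Fibre.Lipschitz

/-!
# The series `∑ₘ K(ω t^{mL+c})`

For `K u = u/(1-u)² = ∑ r uʳ`, the sum over `m ≥ 0` of `K (ω t^{mL+c})` (`1 ≤ c ≤ L`) is the power
series in `t` whose `n`-th coefficient is `∑_{d ∣ n, d ≡ c (L)} (n/d) ω^{n/d}`.
-/

set_option autoImplicit false

noncomputable section

open Complex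

namespace FermatAgent.Igusa

/-- `∑_{d ∣ n, d ≡ c mod L} (n/d) ω^{n/d}`. -/
def arithCoeff {K : Type*} [CommRing K] (L c : ℕ) (ω : K) (n : ℕ) : K :=
  ∑ d ∈ n.divisors.filter (fun d => d % L = c % L), ((n / d : ℕ) : K) * ω ^ (n / d)

theorem map_arithCoeff {K K' : Type*} [CommRing K] [CommRing K'] (f : K →+* K') (L c : ℕ) (ω : K)
    (n : ℕ) : f (arithCoeff L c ω n) = arithCoeff L c (f ω) n := by
  simp [arithCoeff, map_sum]

theorem arithCoeff_congr {K : Type*} [CommRing K] {L c c' : ℕ} (h : c % L = c' % L) (ω : K)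
    (n : ℕ) : arithCoeff L c ω n = arithCoeff L c' ω n := by
  simp [arithCoeff, h]

theorem hasSum_arithCoeff {L c : ℕ} (hL : 0 < L) (hc : 0 < c) (hcL : c ≤ L) {ω t : ℂ}
    (hω : ‖ω‖ = 1) (ht : ‖t‖ < 1) :
    ∃ S : ℂ, HasSum (fun m : ℕ => koebe (ω * t ^ (m * L + c))) S ∧
      HasSum (fun n : ℕ => arithCoeff L c ω n * t ^ n) S := by
  obtain ⟨f, hf⟩ : ∃ f : ℕ × ℕ → ℂ, f = fun p => (p.2 : ℂ) * (ω * t ^ (p.1 * L + c)) ^ p.2 :=
    ⟨_, rfl⟩
  have hexp : ∀ m r : ℕ, 1 ≤ r → m + r ≤ (m * L + c) * r := fun m r hr => by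
    have h1 : m ≤ m * L * r := by
      rw [mul_assoc]
      exact Nat.le_mul_of_pos_right _ (Nat.mul_pos hL hr)
    have h2 : r ≤ c * r := Nat.le_mul_of_pos_left r hc
    rw [add_mul]
    omega
  have hbound : ∀ p : ℕ × ℕ, ‖f p‖ ≤ ‖t‖ ^ p.1 * ((p.2 : ℝ) * ‖t‖ ^ p.2) := by
    rintro ⟨m, r⟩
    rcases Nat.eq_zero_or_pos r with rfl | hr
    · simp [hf]
    · simp only [hf, norm_mul, norm_pow, hω, one_mul, Complex.norm_natCast, ← pow_mul]
      rw [mul_left_comm, ← pow_add]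
      exact mul_le_mul_of_nonneg_left
        (pow_le_pow_of_le_one (norm_nonneg t) ht.le (hexp m r hr)) (Nat.cast_nonneg r)
  have hsum : Summable f := by
    have hg : Summable fun r : ℕ => (r : ℝ) * ‖t‖ ^ r := by
      have h := summable_pow_mul_geometric_of_norm_lt_one (R := ℝ) 1 (r := ‖t‖)
        (by rwa [norm_norm])
      simpa using h
    have hg0 : ∀ r : ℕ, 0 ≤ (r : ℝ) * ‖t‖ ^ r :=
      fun r => mul_nonneg (Nat.cast_nonneg r) (pow_nonneg (norm_nonneg t) r)
    have hh0 : ∀ m : ℕ, 0 ≤ ‖t‖ ^ m := fun m => pow_nonneg (norm_nonneg t) m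
    have hprod := Summable.mul_of_nonneg (summable_geometric_of_lt_one (norm_nonneg t) ht) hg
      hh0 hg0
    exact Summable.of_norm_bounded hprod hbound
  have hfib : ∀ m, HasSum (fun r => f (m, r)) (koebe (ω * t ^ (m * L + c))) := fun m => by
    have hlt : ‖ω * t ^ (m * L + c)‖ < 1 := by
      rw [norm_mul, norm_pow, hω, one_mul]
      exact pow_lt_one₀ (norm_nonneg t) ht (by omega)
    have h := hasSum_coe_mul_geometric_of_norm_lt_one (r := ω * t ^ (m * L + c)) hlt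
    simpa only [hf, koebe] using h
  refine ⟨∑' p, f p, hsum.hasSum.prod_fiberwise hfib, ?_⟩
  have hF : HasSum f (∑' p, f p) := hsum.hasSum
  refine (hF.tsum_fiberwise (fun p : ℕ × ℕ => (p.1 * L + c) * p.2)).congr_fun fun n => ?_
  rcases Nat.eq_zero_or_pos n with rfl | hn
  · rw [arithCoeff, Nat.divisors_zero, Finset.filter_empty, Finset.sum_empty, zero_mul]
    refine ((tsum_congr fun p => ?_).trans tsum_zero).symm
    obtain ⟨⟨m, r⟩, hp⟩ := p
    simp only [Set.mem_preimage, Set.mem_singleton_iff, mul_eq_zero] at hp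
    rcases hp with hp | hp
    · omega
    · simp [hf, hp]
  have hmem : ∀ d ∈ n.divisors.filter (fun d => d % L = c % L), c ≤ d ∧ L ∣ d - c ∧ d ∣ n := by
    intro d hd
    rw [Finset.mem_filter, Nat.mem_divisors] at hd
    obtain ⟨⟨hdn, -⟩, hdc⟩ := hd
    have hd0 : 0 < d := Nat.pos_of_dvd_of_pos hdn hn
    have hcd : c ≤ d := by
      rcases hcL.lt_or_eq with h | rfl
      · rw [Nat.mod_eq_of_lt h] at hdc
        exact hdc ▸ Nat.mod_le d L
      · rw [Nat.mod_self] at hdc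
        exact Nat.le_of_dvd hd0 (Nat.dvd_of_mod_eq_zero hdc)
    exact ⟨hcd, (Nat.modEq_iff_dvd' hcd).mp hdc.symm, hdn⟩
  set φ : ℕ → ℕ × ℕ := fun d => ((d - c) / L, n / d) with hφ
  have hφinv : ∀ d ∈ n.divisors.filter (fun d => d % L = c % L),
      (φ d).1 * L + c = d ∧ ((φ d).1 * L + c) * (φ d).2 = n := by
    intro d hd
    obtain ⟨hcd, hLd, hdn⟩ := hmem d hd
    have h1 : (φ d).1 * L + c = d := by
      simp only [hφ, Nat.div_mul_cancel hLd]
      omega
    exact ⟨h1, by rw [h1]; exact Nat.mul_div_cancel' hdn⟩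
  symm
  rw [tsum_subtype ((fun p : ℕ × ℕ => (p.1 * L + c) * p.2) ⁻¹' {n}) f,
    tsum_eq_sum (s := (n.divisors.filter (fun d => d % L = c % L)).image φ) ?_]
  · rw [Finset.sum_image, arithCoeff, Finset.sum_mul]
    · refine Finset.sum_congr rfl fun d hd => ?_
      rw [Set.indicator_of_mem (by simpa using (hφinv d hd).2)]
      simp only [hf]
      rw [(hφinv d hd).1, mul_pow, ← pow_mul, show d * (φ d).2 = n by
        simpa [(hφinv d hd).1] using (hφinv d hd).2]
      simp [hφ, mul_assoc]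
    · intro d hd d' hd' h
      rw [← (hφinv d hd).1, ← (hφinv d' hd').1, h]
  · rintro ⟨m, r⟩ hp
    refine Set.indicator_of_notMem (fun hn' => hp ?_) _
    simp only [Set.mem_preimage, Set.mem_singleton_iff] at hn'
    refine Finset.mem_image.mpr ⟨m * L + c, ?_, ?_⟩
    · rw [Finset.mem_filter, Nat.mem_divisors]
      exact ⟨⟨⟨r, hn'.symm⟩, by omega⟩, by simp [Nat.add_mod]⟩
    · simp only [hφ, Nat.add_sub_cancel, Nat.mul_div_cancel _ hL, Prod.mk.injEq, true_and]
      rw [← hn']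
      exact Nat.mul_div_cancel_left r (by omega)

end FermatAgent.Igusa
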