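import Mathlib.Analysis.SpecialFunctions.Elliptic.Weierstrass
import Mathlib.Analysis.Complex.UpperHalfPlane.MoebiusAction
import Mathlib.Analysis.SpecialFunctions.Complex.Circle
import Fermat.Agent.Igusa.Fibre.WpRows

/-!
# `q`-expansion of the Weierstrass `℘`-function at division points

`pDiv L (a, b) τ = (-2πi)⁻² ℘(τℤ+ℤ, (aτ+b)/L)`; for `(a, b) ∉ Lℤ²` it is the power series
`wpCoeff L ζ (a, b)` in `t = exp(2πiτ/L)`, with `ζ = exp(2πi/L)`.
-/

set_option autoImplicit false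

noncomputable section

open Complex
open scoped Real Topology UpperHalfPlane

namespace FermatAgent.Igusa

/-- The period pair `(τ, 1)`. -/
def pairTau (τ : ℍ) : PeriodPair where
  ω₁ := τ
  ω₂ := 1
  indep := by
    rw [LinearIndependent.pair_iff]
    intro s t h
    have h1 := congrArg Complex.im h
    have h2 := congrArg Complex.re h
    simp [Complex.real_smul, τ.im_ne_zero] at h1
    subst h1
    simp [Complex.real_smul] at h2
    exact ⟨rfl, h2⟩

theorem mem_pairTau_lattice {τ : ℍ} {x : ℂ} :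
    x ∈ (pairTau τ).lattice ↔ ∃ m n : ℤ, (m : ℂ) * τ + n = x := by
  simp [PeriodPair.mem_lattice, pairTau]

/-- The point `(aτ+b)/L`. -/
def divPoint (L : ℕ) (v : ℤ × ℤ) (τ : ℍ) : ℂ := ((v.1 : ℂ) * τ + v.2) / L

/-- The normalised value of `℘` at a division point. -/
def pDiv (L : ℕ) (v : ℤ × ℤ) (τ : ℍ) : ℂ :=
  ((-2 * π * I) ^ 2)⁻¹ * (pairTau τ).weierstrassP (divPoint L v τ)

/-- The pair is not divisible by `L`. -/
def NonzeroMod (L : ℕ) (v : ℤ × ℤ) : Prop := ¬ ((L : ℤ) ∣ v.1 ∧ (L : ℤ) ∣ v.2)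

/-- The coefficients of the expansion of `pDiv L v`. -/
def wpCoeff {K : Type*} [Field K] (L : ℕ) (ζ : K) (v : ℤ × ℤ) (n : ℕ) : K :=
  if n = 0 then 1 / 12 + if (L : ℤ) ∣ v.1 then koebe (ζ ^ v.2) else 0
  else arithCoeff L (v.1 % L).toNat (ζ ^ v.2) n
    + arithCoeff L (L - (v.1 % L).toNat) (ζ ^ v.2)⁻¹ n - 2 * arithCoeff L L 1 n

/-- The primitive root `exp(2πi/L)`. -/
def zetaRoot (L : ℕ) : ℂ := expTwoPi ((L : ℂ))⁻¹

/-- The parameter `exp(2πiτ/L)`. -/
def tParam (L : ℕ) (τ : ℍ) : ℂ := expTwoPi ((τ : ℂ) / L)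

theorem expTwoPi_intCast (n : ℤ) : expTwoPi n = 1 := (expTwoPi_eq_one_iff _).mpr ⟨n, rfl⟩

theorem expTwoPi_intMul (w : ℂ) (n : ℤ) : expTwoPi ((n : ℂ) * w) = expTwoPi w ^ n := by
  rw [expTwoPi, expTwoPi, ← Complex.exp_int_mul]
  congr 1
  ring

theorem zetaRoot_zpow (L : ℕ) (b : ℤ) : zetaRoot L ^ b = expTwoPi ((b : ℂ) / L) := by
  rw [zetaRoot, ← expTwoPi_intMul, div_eq_mul_inv]

theorem norm_zetaRoot_zpow (L : ℕ) (b : ℤ) : ‖zetaRoot L ^ b‖ = 1 := by
  rw [zetaRoot_zpow, norm_expTwoPi]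
  simp [Complex.div_natCast_im]

theorem norm_tParam_lt_one {L : ℕ} (hL : 0 < L) (τ : ℍ) : ‖tParam L τ‖ < 1 := by
  refine norm_expTwoPi_lt_one ?_
  rw [Complex.div_natCast_im]
  exact div_pos τ.im_pos (Nat.cast_pos.mpr hL)

theorem weierstrassP_eq_rows (τ : ℍ) (z : ℂ) :
    HasSum (fun m : ℤ => intInvSqSum (z - (m : ℂ) * τ) - intInvSqSum ((m : ℂ) * τ))
      ((pairTau τ).weierstrassP z) := by
  have h := (pairTau τ).hasSum_weierstrassP z
  rw [← (pairTau τ).latticeEquivProd.symm.toEquiv.hasSum_iff] at h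
  refine h.prod_fiberwise fun m => ?_
  simp only [Function.comp_apply, LinearEquiv.coe_toEquiv,
    PeriodPair.latticeEquiv_symm_apply]
  have h1 : HasSum (fun n : ℤ => 1 / (z - ((m : ℂ) * τ + n)) ^ 2)
      (intInvSqSum (z - (m : ℂ) * τ)) := by
    have h2 := (summable_intInvSq (z - (m : ℂ) * τ)).hasSum
    rw [← (Equiv.neg ℤ).hasSum_iff] at h2
    refine h2.congr_fun fun n => ?_
    simp only [Function.comp_apply, Equiv.neg_apply, Int.cast_neg]
    congr 1
    ring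
  have h3 : HasSum (fun n : ℤ => 1 / ((m : ℂ) * τ + n) ^ 2) (intInvSqSum ((m : ℂ) * τ)) :=
    (summable_intInvSq ((m : ℂ) * τ)).hasSum
  refine (h1.sub h3).congr_fun fun n => ?_
  simp [pairTau]

theorem expTwoPi_nat (L : ℕ) (v : ℤ × ℤ) (τ : ℍ) (m : ℤ) :
    expTwoPi (divPoint L v τ + (m : ℂ) * τ) =
      zetaRoot L ^ v.2 * expTwoPi ((τ : ℂ) / L) ^ (v.1 + m * L) ∨ L = 0 := by
  rcases Nat.eq_zero_or_pos L with h | h
  · exact Or.inr h
  refine Or.inl ?_
  rw [zetaRoot_zpow, ← expTwoPi_intMul, ← expTwoPi_add]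
  congr 1
  have hL : (L : ℂ) ≠ 0 := Nat.cast_ne_zero.mpr h.ne'
  simp only [divPoint, Int.cast_add, Int.cast_mul, Int.cast_natCast]
  field_simp
  ring

theorem hasSum_pDiv_of_range {L : ℕ} (hL : 0 < L) {a : ℕ} (ha : a < L) (b : ℤ)
    (hv : NonzeroMod L ((a : ℤ), b)) (τ : ℍ) :
    HasSum (fun n : ℕ => wpCoeff L (zetaRoot L) ((a : ℤ), b) n * tParam L τ ^ n)
      (pDiv L ((a : ℤ), b) τ) := by
  set v : ℤ × ℤ := ((a : ℤ), b) with hvdef
  set z : ℂ := divPoint L v τ with hz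
  set t : ℂ := tParam L τ with ht
  set ω : ℂ := zetaRoot L ^ b with hω
  set C : ℂ := (-2 * π * I) ^ 2 with hC
  have hC0 : C ≠ 0 := by simp [hC, Real.pi_ne_zero]
  have hexp : ∀ m : ℤ, expTwoPi (z + (m : ℂ) * τ) = ω * t ^ ((a : ℤ) + m * L) := fun m =>
    (expTwoPi_nat L v τ m).resolve_right hL.ne'
  have him : ∀ m : ℤ, (z + (m : ℂ) * τ).im = ((a : ℝ) + m * L) * τ.im / L := fun m => by
    have hL' : (L : ℝ) ≠ 0 := Nat.cast_ne_zero.mpr hL.ne'
    simp only [hz, hvdef, divPoint, Complex.add_im, Complex.mul_im, Complex.div_natCast_im,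
      Complex.intCast_re, Complex.intCast_im, UpperHalfPlane.coe_im, Int.cast_natCast,
      Complex.natCast_re, Complex.natCast_im]
    field_simp
    ring
  -- the three series
  obtain ⟨S₁, hS₁, hT₁⟩ := hasSum_arithCoeff (L := L) (c := L + a - L * (if a = 0 then 0 else 1))
    hL (by split_ifs <;> omega) (by split_ifs <;> omega) (norm_zetaRoot_zpow L b)
    (norm_tParam_lt_one hL τ)
  obtain ⟨S₂, hS₂, hT₂⟩ := hasSum_arithCoeff (L := L) (c := L - a) hL (by omega) (by omega)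
    (ω := ω⁻¹) (by rw [hω, norm_inv, norm_zetaRoot_zpow, inv_one]) (norm_tParam_lt_one hL τ)
  obtain ⟨S₃, hS₃, hT₃⟩ := hasSum_arithCoeff (L := L) (c := L) hL hL le_rfl (ω := (1 : ℂ))
    (by simp) (norm_tParam_lt_one hL τ)
  set κ : ℂ := if a = 0 then koebe ω else 0 with hκ
  -- rows `m ≤ 0`, starting at the row `0`
  have hSm : ∀ k : ℕ, intInvSqSum (((k + 1 : ℕ) : ℂ) * τ) = C * koebe (t ^ (k * L + L)) := by
    intro k
    rw [intInvSqSum_of_im_pos (by simpa using mul_pos (by positivity) τ.im_pos)]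
    congr 2
    rw [ht, tParam, ← zpow_natCast, ← expTwoPi_intMul]
    congr 1
    have hL' : (L : ℂ) ≠ 0 := Nat.cast_ne_zero.mpr hL.ne'
    push_cast
    field_simp
  have hpos : HasSum (fun k : ℕ =>
      C * (koebe (ω⁻¹ * t ^ (k * L + (L - a))) - koebe (t ^ (k * L + L)))) (C * (S₂ - S₃)) := by
    simpa [one_mul] using ((hS₂.sub hS₃).mul_left C)
  have hR1 : HasSum (fun k : ℕ =>
      intInvSqSum (z - (((k : ℤ) + 1 : ℤ) : ℂ) * τ) - intInvSqSum ((((k : ℤ) + 1 : ℤ) : ℂ) * τ))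
      (C * (S₂ - S₃)) := by
    refine hpos.congr_fun fun k => ?_
    rw [mul_sub, ← intInvSqSum_neg]
    have him' : 0 < (-(z - (((k : ℤ) + 1 : ℤ) : ℂ) * τ)).im := by
      rw [neg_sub, show (((k : ℤ) + 1 : ℤ) : ℂ) * τ - z = -(z + ((-((k : ℤ) + 1) : ℤ) : ℂ) * τ) by
        push_cast; ring, Complex.neg_im, him]
      have : (a : ℝ) < L := Nat.cast_lt.mpr ha
      have h2 : (a : ℝ) + ((-((k : ℤ) + 1) : ℤ) : ℝ) * L < 0 := by
        push_cast; nlinarith [(Nat.cast_nonneg k : (0 : ℝ) ≤ k)]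
      have := τ.im_pos
      have hL' : (0 : ℝ) < L := Nat.cast_pos.mpr hL
      rw [neg_pos]
      exact div_neg_of_neg_of_pos (mul_neg_of_neg_of_pos h2 this) hL'
    rw [intInvSqSum_of_im_pos him', ← hC]
    congr 1
    · congr 2
      rw [neg_sub, show (((k : ℤ) + 1 : ℤ) : ℂ) * τ - z = -(z + ((-((k : ℤ) + 1) : ℤ) : ℂ) * τ) by
        push_cast; ring, expTwoPi_neg, hexp, mul_inv, ← zpow_neg t, ← zpow_natCast]
      congr 2
      push_cast [Nat.cast_sub ha.le]
      ring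
    · rw [← hSm k]
      congr 1
  have hneg : HasSum (fun k : ℕ =>
      intInvSqSum (z + (k : ℂ) * τ) - intInvSqSum (-((k : ℂ) * τ)))
      (C * (κ + S₁ - (-1 / 12 + S₃))) := by
    rcases Nat.eq_zero_or_pos a with ha0 | ha0
    · subst ha0
      have hb : ¬ (L : ℤ) ∣ b := fun h => hv ⟨⟨0, by simp [hvdef]⟩, h⟩
      refine (hasSum_nat_add_iff' 1).mp ?_
      have hrow : intInvSqSum z = C * koebe ω := by
        rw [intInvSqSum_eq_koebe ?_, ← hC]
        · congr 2
          have := hexp 0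
          simpa using this
        · intro n hn
          apply hb
          refine ⟨-n, ?_⟩
          have hL' : (L : ℂ) ≠ 0 := Nat.cast_ne_zero.mpr hL.ne'
          have : ((b : ℂ)) = ((L * -n : ℤ) : ℂ) := by
            simp only [hz, hvdef, divPoint, Nat.cast_zero, Int.cast_zero, zero_mul, zero_add] at hn
            field_simp at hn
            push_cast
            linear_combination hn
          exact_mod_cast this
      have h := (hS₁.sub hS₃).mul_left C
      simp only [Finset.range_one, Finset.sum_singleton, Nat.cast_zero, zero_mul, add_zero,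
        neg_zero, hrow, intInvSqSum_zero_eq, ← hC, hκ, if_pos]
      rw [show C * (koebe ω + S₁ - (-1 / 12 + S₃)) - (C * koebe ω - C * (-1 / 12))
        = C * (S₁ - S₃) by ring]
      refine h.congr_fun fun k => ?_
      rw [mul_sub, ← intInvSqSum_neg (-_), neg_neg, hSm k, one_mul,
        intInvSqSum_of_im_pos (by
          rw [show (((k + 1 : ℕ)) : ℂ) = (((k + 1 : ℕ) : ℤ) : ℂ) by simp, him]
          exact div_pos (mul_pos (by push_cast; positivity) τ.im_pos) (Nat.cast_pos.mpr hL)),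
        ← hC]
      congr 3
      rw [show (((k + 1 : ℕ)) : ℂ) = (((k + 1 : ℕ) : ℤ) : ℂ) by simp, hexp, ← zpow_natCast]
      congr 2
      simp
      ring
    · have h3 : HasSum (fun k : ℕ => intInvSqSum (-((k : ℂ) * τ))) (C * (-1 / 12 + S₃)) := by
        refine (hasSum_nat_add_iff' 1).mp ?_
        simp only [Finset.range_one, Finset.sum_singleton, Nat.cast_zero, zero_mul, neg_zero,
          intInvSqSum_zero_eq, ← hC]
        rw [show C * (-1 / 12 + S₃) - C * (-1 / 12) = C * S₃ by ring]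
        refine (hS₃.mul_left C).congr_fun fun k => ?_
        rw [intInvSqSum_neg, hSm k, one_mul]
      have h1 : HasSum (fun k : ℕ => intInvSqSum (z + (k : ℂ) * τ)) (C * (κ + S₁)) := by
        rw [hκ, if_neg ha0.ne', zero_add]
        refine (hS₁.mul_left C).congr_fun fun k => ?_
        rw [intInvSqSum_of_im_pos (by
          rw [show ((k : ℕ) : ℂ) = (((k : ℕ) : ℤ) : ℂ) by simp, him]
          refine div_pos (mul_pos ?_ τ.im_pos) (Nat.cast_pos.mpr hL)
          have : (0 : ℝ) < a := Nat.cast_pos.mpr ha0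
          push_cast; positivity), ← hC]
        congr 2
        rw [show ((k : ℕ) : ℂ) = (((k : ℕ) : ℤ) : ℂ) by simp, hexp, ← zpow_natCast]
        congr 2
        rw [if_neg ha0.ne', mul_one, Nat.add_sub_cancel_left]
        push_cast
        ring
      have h13 := h1.sub h3
      rw [← mul_sub] at h13
      exact h13
  -- assemble
  have hrows := weierstrassP_eq_rows τ z
  have hneg' : HasSum (fun k : ℕ =>
      intInvSqSum (z - ((-(k : ℤ) : ℤ) : ℂ) * τ) - intInvSqSum (((-(k : ℤ) : ℤ) : ℂ) * τ))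
      (C * (κ + S₁ - (-1 / 12 + S₃))) :=
    hneg.congr_fun fun k => by push_cast; congr 2 <;> ring
  have hall : HasSum (fun m : ℤ => intInvSqSum (z - (m : ℂ) * τ) - intInvSqSum ((m : ℂ) * τ))
      (C * (κ + S₁ - (-1 / 12 + S₃)) + C * (S₂ - S₃)) := by
    have := HasSum.of_nat_of_neg_add_one
      (f := fun m : ℤ => intInvSqSum (z - ((-m : ℤ) : ℂ) * τ) - intInvSqSum (((-m : ℤ) : ℂ) * τ))
      hneg' (by
        refine hR1.congr_fun fun k => ?_
        simp)
    rw [← (Equiv.neg ℤ).hasSum_iff] at this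
    refine this.congr_fun fun m => ?_
    simp [sub_eq_add_neg]
  have hval : pDiv L v τ = 1 / 12 + κ + (S₁ + S₂ - 2 * S₃) := by
    rw [pDiv, ← hC, hrows.unique hall]
    field_simp
    ring
  rw [hval]
  have hsum : HasSum (fun n : ℕ => (arithCoeff L (L + a - L * (if a = 0 then 0 else 1)) ω n
      + arithCoeff L (L - a) ω⁻¹ n - 2 * arithCoeff L L 1 n) * t ^ n) (S₁ + S₂ - 2 * S₃) := by
    have := (hT₁.add hT₂).sub (hT₃.mul_left 2)
    refine this.congr_fun fun n => ?_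
    ring
  refine ((hasSum_ite_eq 0 (1 / 12 + κ : ℂ)).add hsum).congr_fun fun n => ?_
  have hmod : ((v.1 % L).toNat) = a := by
    simp only [hvdef]
    rw [← Int.natCast_emod, Int.toNat_natCast, Nat.mod_eq_of_lt ha]
  rcases eq_or_ne n 0 with rfl | hn
  · have hdvd : ((L : ℤ) ∣ (a : ℤ)) ↔ a = 0 := by
      rw [Int.natCast_dvd_natCast]
      exact ⟨fun h => Nat.eq_zero_of_dvd_of_lt h ha, fun h => h ▸ dvd_zero L⟩
    have hzero : ∀ c : ℕ, ∀ w : ℂ, arithCoeff L c w 0 = 0 := fun c w => by simp [arithCoeff]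
    simp [wpCoeff, hvdef, hzero, hdvd, hκ, hω]
  · rw [if_neg hn, zero_add, wpCoeff, if_neg hn, hmod]
    congr 3
    apply arithCoeff_congr
    split_ifs with h <;> simp [h]

end FermatAgent.Igusa
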