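import Fermat.Agent.Igusa.Fibre.DecompTop

/-!
# The residual ring of `intFun M R` and the action of `SL(2, ℤ)` on it
-/

set_option autoImplicit false

noncomputable section

open UpperHalfPlane hiding I
open scoped MatrixGroups

namespace FermatAgent.Igusa

variable (M : ℕ) [NeZero M] (R : Subring ℂ) {k : Type*} [Field k] (ρ : R →+* k)

/-- The ring of residual functions. -/
abbrev Res : Type _ := intFun M R ⧸ redKer M R ρ

/-- The class of an integral function. -/
abbrev toRes : intFun M R →+* Res M R ρ := Ideal.Quotient.mk (redKer M R ρ)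

/-- The reduced expansion on residual functions. -/
def resExp : Res M R ρ →+* LaurentSeries k := RingHom.kerLift (redExp M R ρ)

@[simp] theorem resExp_toRes (f : intFun M R) : resExp M R ρ (toRes M R ρ f) = redExp M R ρ f :=
  rfl

theorem resExp_injective : Function.Injective (resExp M R ρ) := RingHom.kerLift_injective _

variable {M R}

theorem redKer_le_comap_smul (hD : decompGroup (M := M) ρ = ⊤) (γ : SL(2, ℤ)) :
    redKer M R ρ ≤ (redKer M R ρ).comap (MulSemiringAction.toRingHom SL(2, ℤ) (intFun M R) γ) :=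
  fun x hx => ((hD ▸ Subgroup.mem_top γ : γ ∈ decompGroup (M := M) ρ) x).mpr hx

/-- The action of `γ` on residual functions. -/
def resSmul (hD : decompGroup (M := M) ρ = ⊤) (γ : SL(2, ℤ)) : Res M R ρ →+* Res M R ρ :=
  Ideal.quotientMap _ _ (redKer_le_comap_smul ρ hD γ)

@[simp] theorem resSmul_toRes (hD : decompGroup (M := M) ρ = ⊤) (γ : SL(2, ℤ)) (f : intFun M R) :
    resSmul ρ hD γ (toRes M R ρ f) = toRes M R ρ (γ • f) :=
  Ideal.quotientMap_mk

theorem resSmul_one (hD : decompGroup (M := M) ρ = ⊤) (x : Res M R ρ) :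
    resSmul ρ hD 1 x = x := by
  obtain ⟨f, rfl⟩ := Ideal.Quotient.mk_surjective x
  rw [resSmul_toRes, one_smul]

theorem resSmul_mul (hD : decompGroup (M := M) ρ = ⊤) (γ δ : SL(2, ℤ)) (x : Res M R ρ) :
    resSmul ρ hD (γ * δ) x = resSmul ρ hD γ (resSmul ρ hD δ x) := by
  obtain ⟨f, rfl⟩ := Ideal.Quotient.mk_surjective x
  rw [resSmul_toRes, resSmul_toRes, resSmul_toRes, mul_smul]

theorem resSmul_injective (hD : decompGroup (M := M) ρ = ⊤) (γ : SL(2, ℤ)) :
    Function.Injective (resSmul ρ hD γ) :=
  Function.LeftInverse.injective (g := resSmul ρ hD γ⁻¹) fun x => by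
    rw [← resSmul_mul, inv_mul_cancel, resSmul_one]

end FermatAgent.Igusa

end
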