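import Fermat.Agent.Igusa.Fibre.WpFun
import Fermat.Agent.Igusa.Fibre.Residual

/-!
# Coefficients at the cusps of level `L` functions
-/

set_option autoImplicit false

noncomputable section

open UpperHalfPlane hiding I
open Complex Filter Function
open scoped Real Topology MatrixGroups Manifold ModularForm

namespace FermatAgent.Igusa

open FermatAgent.ModFun ModularCurve

variable {L : ℕ} [NeZero L] {R : Subring ℂ}

/-- The coefficient of `t ^ m` in the expansion of `f` at the cusp `γ⁻¹ ∞`. -/
def expCoeff (f : intFun L R) (γ : SL(2, ℤ)) (m : ℤ) : R := (intExp L R (γ • f)).coeff m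

theorem expCoeff_sub (f g : intFun L R) (γ : SL(2, ℤ)) (m : ℤ) :
    expCoeff (f - g) γ m = expCoeff f γ m - expCoeff g γ m := by
  rw [expCoeff, smul_sub, map_sub, HahnSeries.coeff_sub, expCoeff, expCoeff]

theorem expCoeff_sum {ι : Type*} (s : Finset ι) (f : ι → intFun L R) (γ : SL(2, ℤ)) (m : ℤ) :
    expCoeff (∑ i ∈ s, f i) γ m = ∑ i ∈ s, expCoeff (f i) γ m := by
  rw [expCoeff, Finset.smul_sum, map_sum, HahnSeries.coeff_sum]
  rfl

theorem expCoeff_const_mul (c : R) (f : intFun L R) (γ : SL(2, ℤ)) (m : ℤ) :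
    expCoeff (constHom L R c * f) γ m = c * expCoeff f γ m := by
  rw [expCoeff, smul_mul', smul_constHom, map_mul, intExp_constHom, HahnSeries.C_apply,
    HahnSeries.coeff_single_zero_mul, expCoeff]

theorem expCoeff_smul (f : intFun L R) (γ δ : SL(2, ℤ)) (m : ℤ) :
    expCoeff (δ • f) γ m = expCoeff f (γ * δ) m := by
  rw [expCoeff, expCoeff, mul_smul]

theorem neg_one_smul_intFun (f : intFun L R) : (-1 : SL(2, ℤ)) • f = f := by
  refine Subtype.ext (funext fun τ => ?_)
  rw [smul_apply]
  rw [show (-1 : SL(2, ℤ))⁻¹ = -1 from inv_eq_of_mul_eq_one_right (by simp)]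
  rw [ModularGroup.SL_neg_smul, one_smul]

theorem neg_smul_intFun (γ : SL(2, ℤ)) (f : intFun L R) : (-γ) • f = γ • f := by
  rw [← neg_one_mul γ, mul_smul, neg_one_smul_intFun]

theorem qExp_T_inv_smul (f : intFun L R) (n : ℤ) :
    (qExp L ((ModularGroup.T⁻¹ • f : intFun L R) : ℍ → ℂ)).coeff n =
      zetaRoot L ^ n * (qExp L (f : ℍ → ℂ)).coeff n := by
  have hz : zetaRoot L ^ n = (((expUnit ((1 : ℝ) / L)) ^ n : ℂˣ) : ℂ) := by
    rw [Units.val_zpow_eq_zpow_val, ← Int.cast_one (R := ℝ), ← zetaRoot_eq_expUnit, zpow_one]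
  have hxc := ((mem_expSubring L R).mp (intFun_le_expSubring L R f.2)).1
  rw [hz, qExp, qExp, ← twist_coeff, ← qLaurent_comp_vadd (f := (f : ℍ → ℂ) ∘ dil L) hxc]
  congr 2
  funext τ
  simp only [comp_apply, smul_apply, inv_inv, modular_T_smul]
  refine congrArg _ (UpperHalfPlane.ext ?_)
  simp only [coe_vadd, coe_dil, Complex.ofReal_one, Complex.ofReal_div, Complex.ofReal_natCast]
  rw [mul_add, mul_one_div_cancel (Nat.cast_ne_zero.mpr (NeZero.ne L))]

theorem coe_expCoeff_T_zpow_mul (f : intFun L R) (γ : SL(2, ℤ)) (i m : ℤ) :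
    (expCoeff f (ModularGroup.T ^ i * γ) m : ℂ) = zetaRoot L ^ (-i * m) * (expCoeff f γ m : ℂ) := by
  have hz0 : zetaRoot L ≠ 0 := by simpa using zetaRoot_ne_zero L 1
  have step : ∀ δ : SL(2, ℤ), (expCoeff f (ModularGroup.T⁻¹ * δ) m : ℂ) =
      zetaRoot L ^ m * (expCoeff f δ m : ℂ) := fun δ => by
    simp only [expCoeff, coe_intExp_coeff, mul_smul]
    exact qExp_T_inv_smul _ m
  induction i with
  | zero => simp
  | succ k ih =>
    have h := step (ModularGroup.T ^ ((k : ℤ) + 1) * γ)
    rw [← mul_assoc, ← zpow_neg_one, ← zpow_add, show (-1 : ℤ) + ((k : ℤ) + 1) = k by ring, ih] at h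
    rw [show -((k : ℤ) + 1) * m = -(k : ℤ) * m + -m by ring, zpow_add₀ hz0, mul_right_comm, h,
      zpow_neg]
    field_simp [zpow_ne_zero m hz0]
  | pred k ih =>
    rw [show -(k : ℤ) - 1 = -1 + -(k : ℤ) by ring, zpow_add, zpow_neg_one, mul_assoc, step, ih,
      ← mul_assoc, ← zpow_add₀ hz0]
    ring_nf

/-- `f` vanishes to order at least `s` at every cusp. -/
def CuspBound (f : intFun L R) (s : ℤ) : Prop := ∀ γ m, m < s → expCoeff f γ m = 0

theorem coeff_mul_of_bound {A : Type*} [CommRing A] {x y : LaurentSeries A} {s t : ℤ}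
    (hx : ∀ m < s, x.coeff m = 0) (hy : ∀ m < t, y.coeff m = 0) :
    (∀ m < s + t, (x * y).coeff m = 0) ∧ (x * y).coeff (s + t) = x.coeff s * y.coeff t := by
  classical
  constructor
  · intro m hm
    rw [HahnSeries.coeff_mul]
    refine Finset.sum_eq_zero fun ij hij => ?_
    rw [Finset.mem_antidiagonal, HahnSeries.mem_support, HahnSeries.mem_support] at hij
    rcases lt_or_ge ij.1 s with h | h
    · exact absurd (hx _ h) hij.1
    · exact absurd (hy _ (by omega)) hij.2.1
  · rw [HahnSeries.coeff_mul]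
    refine Finset.sum_eq_single (s, t) (fun ij hij hne => ?_) fun hij => ?_
    · rw [Finset.mem_antidiagonal, HahnSeries.mem_support, HahnSeries.mem_support] at hij
      rcases lt_or_ge ij.1 s with h | h
      · exact absurd (hx _ h) hij.1
      rcases lt_or_ge ij.2 t with h' | h'
      · exact absurd (hy _ h') hij.2.1
      exact absurd (Prod.ext (by simp only; omega) (by simp only; omega)) hne
    · simp only [Finset.mem_antidiagonal, HahnSeries.mem_support, and_true,
        not_and_or, not_not] at hij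
      rcases hij with h | h <;> simp [h]

theorem CuspBound.mul {f g : intFun L R} {s t : ℤ} (hf : CuspBound f s) (hg : CuspBound g t) :
    CuspBound (f * g) (s + t) := fun γ m hm => by
  rw [expCoeff, smul_mul', map_mul]
  exact (coeff_mul_of_bound (hf γ) (hg γ)).1 m hm

theorem expCoeff_mul {f g : intFun L R} {s t : ℤ} (hf : CuspBound f s) (hg : CuspBound g t)
    (γ : SL(2, ℤ)) : expCoeff (f * g) γ (s + t) = expCoeff f γ s * expCoeff g γ t := by
  rw [expCoeff, smul_mul', map_mul]
  exact (coeff_mul_of_bound (hf γ) (hg γ)).2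

theorem CuspBound.mono {f : intFun L R} {s t : ℤ} (hf : CuspBound f s) (h : t ≤ s) :
    CuspBound f t := fun γ m hm => hf γ m (lt_of_lt_of_le hm h)

theorem CuspBound.sub {f g : intFun L R} {s : ℤ} (hf : CuspBound f s) (hg : CuspBound g s) :
    CuspBound (f - g) s := fun γ m hm => by rw [expCoeff_sub, hf γ m hm, hg γ m hm, sub_zero]

theorem CuspBound.sum {ι : Type*} {S : Finset ι} {f : ι → intFun L R} {s : ℤ}
    (hf : ∀ i ∈ S, CuspBound (f i) s) : CuspBound (∑ i ∈ S, f i) s := fun γ m hm => by
  rw [expCoeff_sum]; exact Finset.sum_eq_zero fun i hi => hf i hi γ m hm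

theorem CuspBound.const_mul {f : intFun L R} {s : ℤ} (hf : CuspBound f s) (c : R) :
    CuspBound (constHom L R c * f) s := fun γ m hm => by
  rw [expCoeff_const_mul, hf γ m hm, mul_zero]

theorem CuspBound.smul {f : intFun L R} {s : ℤ} (hf : CuspBound f s) (δ : SL(2, ℤ)) :
    CuspBound (δ • f) s := fun γ m hm => by rw [expCoeff_smul]; exact hf _ m hm

theorem cuspBound_constHom (c : R) : CuspBound (constHom L R c) 0 := fun γ m hm => by
  rw [expCoeff, smul_constHom, intExp_constHom, HahnSeries.C_apply,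
    HahnSeries.coeff_single_of_ne hm.ne]

theorem expCoeff_constHom (c : R) (γ : SL(2, ℤ)) : expCoeff (constHom L R c) γ 0 = c := by
  rw [expCoeff, smul_constHom, intExp_constHom, HahnSeries.C_apply, HahnSeries.coeff_single_same]

theorem cuspBound_one : CuspBound (1 : intFun L R) 0 := by
  simpa using cuspBound_constHom (L := L) (1 : R)

theorem CuspBound.pow {f : intFun L R} {s : ℤ} (hf : CuspBound f s) (n : ℕ) :
    CuspBound (f ^ n) (n * s) := by
  induction n with
  | zero => simpa using cuspBound_one (L := L) (R := R)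
  | succ n ih => rw [pow_succ, Nat.cast_succ, add_mul, one_mul]; exact ih.mul hf

theorem expCoeff_pow {f : intFun L R} {s : ℤ} (hf : CuspBound f s) (γ : SL(2, ℤ)) (n : ℕ) :
    expCoeff (f ^ n) γ (n * s) = expCoeff f γ s ^ n := by
  induction n with
  | zero => simpa using expCoeff_constHom (L := L) (1 : R) γ
  | succ n ih =>
    rw [pow_succ, Nat.cast_succ, add_mul, one_mul, expCoeff_mul (hf.pow n) hf, ih, pow_succ]

theorem CuspBound.prod {ι : Type*} {S : Finset ι} {f : ι → intFun L R} {s : ℤ}
    (hf : ∀ i ∈ S, CuspBound (f i) s) : CuspBound (∏ i ∈ S, f i) (S.card * s) := by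
  classical
  induction S using Finset.induction with
  | empty => simpa using cuspBound_one (L := L) (R := R)
  | insert a S ha ih =>
    rw [Finset.prod_insert ha, Finset.card_insert_of_notMem ha, Nat.cast_succ, add_mul, one_mul,
      add_comm]
    exact (hf a (Finset.mem_insert_self a S)).mul (ih fun i hi => hf i (Finset.mem_insert_of_mem hi))

theorem expCoeff_prod {ι : Type*} {S : Finset ι} {f : ι → intFun L R} {s : ℤ}
    (hf : ∀ i ∈ S, CuspBound (f i) s) (γ : SL(2, ℤ)) :
    expCoeff (∏ i ∈ S, f i) γ (S.card * s) = ∏ i ∈ S, expCoeff (f i) γ s := by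
  classical
  induction S using Finset.induction with
  | empty => simpa using expCoeff_constHom (L := L) (1 : R) γ
  | insert a S ha ih =>
    rw [Finset.prod_insert ha, Finset.prod_insert ha, Finset.card_insert_of_notMem ha,
      Nat.cast_succ, add_mul, one_mul, add_comm]
    have hS : ∀ i ∈ S, CuspBound (f i) s := fun i hi => hf i (Finset.mem_insert_of_mem hi)
    rw [expCoeff_mul (hf a (Finset.mem_insert_self a S)) (CuspBound.prod hS), ih hS]

theorem exists_cuspBound (f : intFun L R) : ∃ n : ℕ, CuspBound f (-(n : ℤ)) := by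
  classical
  let Γ := CongruenceSubgroup.Gamma L
  have : Fintype (SL(2, ℤ) ⧸ Γ) := Fintype.ofFinite _
  refine ⟨∑ c : SL(2, ℤ) ⧸ Γ, (-(intExp L R (c.out • f)).order).toNat, fun γ m hm => ?_⟩
  set c : SL(2, ℤ) ⧸ Γ := QuotientGroup.mk γ
  obtain ⟨δ, hδ, hc⟩ : ∃ δ ∈ Γ, c.out = γ * δ := by
    refine ⟨γ⁻¹ * c.out, ?_, by group⟩
    rw [← QuotientGroup.eq, QuotientGroup.out_eq']
  have heq : γ • f = c.out • f := by rw [hc, mul_smul, smul_of_mem_gamma L R hδ]
  rw [expCoeff, heq]
  refine HahnSeries.coeff_eq_zero_of_lt_order ?_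
  have := Finset.single_le_sum (f := fun c : SL(2, ℤ) ⧸ Γ => (-(intExp L R (c.out • f)).order).toNat)
    (fun _ _ => Nat.zero_le _) (Finset.mem_univ c)
  omega

/-- An integral function without poles at the cusps is constant. -/
theorem exists_constHom_of_cuspBound (f : intFun L R) (hf : CuspBound f 0) :
    ∃ c : R, constHom L R c = f := by
  classical
  let Γ := CongruenceSubgroup.Gamma L
  have : Fintype (SL(2, ℤ) ⧸ Γ) := Fintype.ofFinite _
  have hfix : ∀ h ∈ Γ, h • f = f := fun h hh => smul_of_mem_gamma L R hh f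
  set P : Polynomial (intFun L R) := ∏ c : SL(2, ℤ) ⧸ Γ, (Polynomial.X - Polynomial.C (c.out • f))
    with hP
  have hco : ∀ i, ∃ a : R, constHom L R a = P.coeff i := by
    intro i
    have hinv : ∀ γ : SL(2, ℤ), γ • P.coeff i = P.coeff i := by
      intro γ
      have : P.map (MulSemiringAction.toRingHom SL(2, ℤ) (intFun L R) γ) = P := by
        rw [hP, Polynomial.map_prod]
        refine Fintype.prod_equiv (MulAction.toPerm γ) _ _ fun c => ?_
        rw [Polynomial.map_sub, Polynomial.map_X, Polynomial.map_C]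
        congr 2
        exact smul_out_smul hfix γ c
      conv_rhs => rw [← this, Polynomial.coeff_map]
      rfl
    have hb : CuspBound (P.coeff i) 0 := by
      have : ∀ (S : Finset (SL(2, ℤ) ⧸ Γ)) (i : ℕ), CuspBound
          ((∏ c ∈ S, (Polynomial.X - Polynomial.C (c.out • f))).coeff i) 0 := by
        intro S
        induction S using Finset.induction with
        | empty =>
          intro i
          rw [Finset.prod_empty, Polynomial.coeff_one]
          split_ifs
          · exact cuspBound_one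
          · exact fun γ m _ => by simp [expCoeff]
        | insert c S hc ih =>
          intro i
          rw [Finset.prod_insert hc, sub_mul, Polynomial.coeff_sub, Polynomial.coeff_C_mul]
          refine CuspBound.sub ?_ (by simpa using (hf.smul c.out).mul (ih i))
          rcases i with _ | i
          · rw [Polynomial.coeff_X_mul_zero]; exact fun γ m _ => by simp [expCoeff]
          · rw [Polynomial.coeff_X_mul]; exact ih i
      exact this Finset.univ i
    obtain ⟨Q, hQ⟩ := exists_polyInt_eq L R (P.coeff i) hinv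
    refine ⟨Q.coeff 0, ?_⟩
    suffices h0 : Q.natDegree = 0 by
      rw [← hQ, Polynomial.eq_C_of_natDegree_eq_zero h0, Polynomial.coeff_C_zero, polyInt,
        Polynomial.coe_eval₂RingHom, Polynomial.eval₂_C]
    by_contra hd
    have hQ0 : Q.map R.subtype ≠ 0 := fun h => hd (by
      rw [(Polynomial.map_eq_zero_iff R.subtype_injective).mp h, Polynomial.natDegree_zero])
    obtain ⟨hne, hord⟩ := qExpand_jqModC_transcendental ℂ L (Q.map R.subtype) hQ0
    rw [← redExp_polyInt' (M := L) R.subtype Q, hQ] at hne hord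
    rw [Polynomial.natDegree_map_eq_of_injective R.subtype_injective] at hord
    have hlt : (redExp L R R.subtype (P.coeff i)).order < 0 := lt_of_le_of_lt hord
      (neg_neg_of_pos (mul_pos (Int.natCast_pos.mpr (NeZero.pos L))
        (Int.natCast_pos.mpr (Nat.pos_of_ne_zero hd))))
    refine HahnSeries.coeff_order_eq_zero.not.mpr hne ?_
    generalize (redExp L R R.subtype (P.coeff i)).order = o at hlt ⊢
    have := hb 1 o hlt
    rw [expCoeff, one_smul] at this
    rw [redExp, RingHom.comp_apply, coeffMap_coeff, this, map_zero]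
  choose a ha using hco
  have hroot : P.eval f = 0 := by
    rw [hP, Polynomial.eval_prod]
    refine Finset.prod_eq_zero (Finset.mem_univ (QuotientGroup.mk 1)) ?_
    rw [Polynomial.eval_sub, Polynomial.eval_X, Polynomial.eval_C]
    obtain ⟨δ, hδ, hc⟩ : ∃ δ ∈ Γ, (QuotientGroup.mk 1 : SL(2, ℤ) ⧸ Γ).out = δ := by
      refine ⟨_, ?_, rfl⟩
      simpa using QuotientGroup.eq.mp (QuotientGroup.out_eq' (QuotientGroup.mk 1 : SL(2, ℤ) ⧸ Γ)).symm
    rw [hc, hfix δ hδ, sub_self]
  have hPm : P.Monic := Polynomial.monic_prod_of_monic _ _ fun c _ => Polynomial.monic_X_sub_C _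
  let e : intFun L R →+* LaurentSeries ℂ := (coeffMap R.subtype).comp (intExp L R)
  have heinj : Injective e := (coeffMap_injective R.subtype_injective).comp (intExp_injective L R)
  set Pc : Polynomial ℂ :=
    ∑ j ∈ Finset.range (P.natDegree + 1), Polynomial.monomial j (a j : ℂ) with hPc
  have hPe : P.map e = Pc.map (HahnSeries.C : ℂ →+* LaurentSeries ℂ) := by
    ext1 j
    rw [Polynomial.coeff_map, Polynomial.coeff_map, hPc, Polynomial.finsetSum_coeff]
    simp only [Polynomial.coeff_monomial, Finset.sum_ite_eq', Finset.mem_range]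
    split_ifs with hj
    · rw [← ha j]
      simp [e, intExp_constHom, HahnSeries.C_apply, coeffMap_single]
    · rw [Polynomial.coeff_eq_zero_of_natDegree_lt (by omega), map_zero, map_zero]
  have hPcm : Pc.Monic := Polynomial.monic_of_injective (HahnSeries.C_injective) (hPe ▸ hPm.map e)
  have he : (Pc.map HahnSeries.C).eval (e f) = 0 := by
    rw [← hPe, Polynomial.eval_map, Polynomial.eval₂_hom, hroot, map_zero]
  rw [(IsAlgClosed.splits Pc).eq_prod_roots_of_monic hPcm, Polynomial.map_multiset_prod,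
    Polynomial.eval_multiset_prod, Multiset.prod_eq_zero_iff] at he
  simp only [Multiset.map_map, Multiset.mem_map, comp_apply, Polynomial.map_sub, Polynomial.map_X,
    Polynomial.map_C, Polynomial.eval_sub, Polynomial.eval_X, Polynomial.eval_C, sub_eq_zero] at he
  obtain ⟨x, -, hx⟩ := he
  refine ⟨expCoeff f 1 0, heinj ?_⟩
  have h0 : ((expCoeff f 1 0 : R) : ℂ) = x := by
    have := congrArg (fun s : LaurentSeries ℂ => s.coeff 0) hx
    simpa [e, expCoeff, HahnSeries.C_apply, coe_intExp_coeff] using this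
  rw [hx]
  simp [e, intExp_constHom, HahnSeries.C_apply, coeffMap_single, h0]

end FermatAgent.Igusa

end
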