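import Fermat.Agent.Igusa.Transitive
import Mathlib.NumberTheory.Modular

/-!
# The decomposition group of the reduced expansion is the whole of `SL(2, ℤ)`
-/

set_option autoImplicit false

noncomputable section

open Matrix
open scoped MatrixGroups

namespace FermatAgent.Igusa

open ModularGroup

/-- Reduction modulo `M`. -/
abbrev slMod (M : ℕ) : SL(2, ℤ) →* SpecialLinearGroup (Fin 2) (ZMod M) :=
  SpecialLinearGroup.map (Int.castRingHom (ZMod M))

/-- The lower unipotent matrix. -/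
def lowerU : SL(2, ℤ) := ⟨!![1, 0; 1, 1], by norm_num [Matrix.det_fin_two_of]⟩

theorem S_eq_lowerU : ModularGroup.S = ModularGroup.T⁻¹ * lowerU * ModularGroup.T⁻¹ := by
  ext i j
  rw [Matrix.SpecialLinearGroup.coe_mul, Matrix.SpecialLinearGroup.coe_mul,
    ModularGroup.coe_T_inv, ModularGroup.coe_S]
  simp only [lowerU, Matrix.mul_fin_two]
  fin_cases i <;> fin_cases j <;> simp

/-- The lower unipotent matrix with entry `t` over `ZMod M`. -/
def lowerMod (M : ℕ) (t : ZMod M) : SpecialLinearGroup (Fin 2) (ZMod M) :=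
  ⟨!![1, 0; t, 1], by simp [Matrix.det_fin_two_of]⟩

theorem lowerMod_add (M : ℕ) (s t : ZMod M) : lowerMod M (s + t) = lowerMod M s * lowerMod M t := by
  ext i j
  rw [Matrix.SpecialLinearGroup.coe_mul]
  fin_cases i <;> fin_cases j <;> simp [lowerMod, Matrix.mul_apply, Fin.sum_univ_two]

theorem lowerMod_pow (M : ℕ) (t : ZMod M) (n : ℕ) : lowerMod M t ^ n = lowerMod M ((n : ZMod M) * t) := by
  induction n with
  | zero =>
    rw [pow_zero, Nat.cast_zero, zero_mul]
    ext i j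
    rw [Matrix.SpecialLinearGroup.coe_one]
    fin_cases i <;> fin_cases j <;> simp [lowerMod]
  | succ n ih => rw [pow_succ, ih, ← lowerMod_add, Nat.cast_succ, add_mul, one_mul]

theorem slMod_lowerU (M : ℕ) : slMod M lowerU = lowerMod M 1 := by
  ext i j
  rw [Matrix.SpecialLinearGroup.map_apply_coe]
  fin_cases i <;> fin_cases j <;> simp [lowerU, lowerMod]

theorem conj_lower_eq {A : Type*} [CommRing A] {a b d : A} (hdet : a * d = 1)
    {gT gS gm gh : Matrix.SpecialLinearGroup (Fin 2) A}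
    (eh : (gh : Matrix (Fin 2) (Fin 2) A) = !![a, b; 0, d])
    (eT : (gT : Matrix (Fin 2) (Fin 2) A) = !![1, 1; 0, 1])
    (eS : (gS : Matrix (Fin 2) (Fin 2) A) = !![0, -1; 1, 0])
    (eTm : (gm : Matrix (Fin 2) (Fin 2) A) = !![1, -b * a; 0, 1]) :
    ((gm * (gh * (gS⁻¹ * gT * gS) * gh⁻¹) * gm⁻¹ : Matrix.SpecialLinearGroup (Fin 2) A) :
      Matrix (Fin 2) (Fin 2) A) = !![1, 0; -(d * d), 1] := by
  simp only [Matrix.SpecialLinearGroup.coe_mul, Matrix.SpecialLinearGroup.coe_inv, eh, eT, eS,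
    eTm, Matrix.adjugate_fin_two_of, Matrix.mul_fin_two]
  ext i j
  fin_cases i <;> fin_cases j <;> simp
  · linear_combination (1 + b * d) * hdet
  · linear_combination (-(b ^ 2 * (1 - a * d))) * hdet
  · linear_combination (1 - b * d) * hdet

variable {M : ℕ} [NeZero M] {R : Subring ℂ} {k : Type*} [Field k] (ρ : R →+* k)

theorem decompGroup_eq_top (hR : HasRoots M R) (hM : (M : ℂ)⁻¹ ∈ R) :
    decompGroup (M := M) ρ = ⊤ := by
  set D := decompGroup (M := M) ρ with hD
  have hsat : ∀ γ : SL(2, ℤ), slMod M γ ∈ D.map (slMod M) → γ ∈ D := by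
    rintro γ ⟨δ, hδ, he⟩
    have hmem : δ⁻¹ * γ ∈ CongruenceSubgroup.Gamma M := by
      rw [CongruenceSubgroup.Gamma_mem', map_mul, map_inv, he, inv_mul_cancel]
    simpa using mul_mem hδ (gamma_le_decompGroup ρ hmem)
  have hT := T_mem_decompGroup ρ hR
  obtain ⟨δ, hδ, hh⟩ := exists_decompGroup_mul_mem_gamma0 ρ hR hM ModularGroup.S
  set h := δ * ModularGroup.S with hdef
  have hX : h * (ModularGroup.S⁻¹ * ModularGroup.T * ModularGroup.S) * h⁻¹ ∈ D := by
    have := mul_mem (mul_mem hδ hT) (inv_mem hδ)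
    convert this using 1
    rw [hdef]; group
  rw [CongruenceSubgroup.Gamma0_mem] at hh
  have hdet : ((h 0 0 : ℤ) : ZMod M) * (h 1 1 : ℤ) = 1 := by
    have hd := h.det_coe
    rw [Matrix.det_fin_two] at hd
    have := congrArg (fun z : ℤ => (z : ZMod M)) hd
    simpa [hh] using this
  set a : ZMod M := ((h 0 0 : ℤ) : ZMod M) with ha
  set b : ZMod M := ((h 0 1 : ℤ) : ZMod M) with hb
  set d : ZMod M := ((h 1 1 : ℤ) : ZMod M) with hd'
  obtain ⟨m, hm⟩ : ∃ m : ℤ, (m : ZMod M) = -b * a := ZMod.intCast_surjective _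
  set Y := ModularGroup.T ^ m * (h * (ModularGroup.S⁻¹ * ModularGroup.T * ModularGroup.S) * h⁻¹) *
    (ModularGroup.T ^ m)⁻¹ with hYdef
  have hY : Y ∈ D := mul_mem (mul_mem (zpow_mem hT m) hX) (inv_mem (zpow_mem hT m))
  have eh : (↑(slMod M h) : Matrix (Fin 2) (Fin 2) (ZMod M)) = !![a, b; 0, d] := by
    rw [SpecialLinearGroup.map_apply_coe]
    ext i j
    fin_cases i <;> fin_cases j <;> simp [ha, hb, hd', hh]
  have eT : (↑(slMod M ModularGroup.T) : Matrix (Fin 2) (Fin 2) (ZMod M)) = !![1, 1; 0, 1] := by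
    rw [SpecialLinearGroup.map_apply_coe, ModularGroup.coe_T]
    ext i j
    fin_cases i <;> fin_cases j <;> simp
  have eS : (↑(slMod M ModularGroup.S) : Matrix (Fin 2) (Fin 2) (ZMod M)) = !![0, -1; 1, 0] := by
    rw [SpecialLinearGroup.map_apply_coe, ModularGroup.coe_S]
    ext i j
    fin_cases i <;> fin_cases j <;> simp
  have eTm : (↑(slMod M (ModularGroup.T ^ m)) : Matrix (Fin 2) (Fin 2) (ZMod M)) =
      !![1, -b * a; 0, 1] := by
    rw [SpecialLinearGroup.map_apply_coe, ModularGroup.coe_T_zpow]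
    ext i j
    fin_cases i <;> fin_cases j <;> simp [hm]
  have hYmod : slMod M Y = lowerMod M (-(d * d)) := by
    clear_value h
    simp only [hYdef, map_mul, map_inv]
    exact Subtype.ext (conj_lower_eq hdet eh eT eS eTm)
  have hU : lowerU ∈ D := by
    apply hsat
    obtain ⟨n, hn⟩ : ∃ n : ℕ, (n : ZMod M) = -(a * a) := ⟨_, ZMod.natCast_zmod_val _⟩
    refine ⟨Y ^ n, pow_mem hY n, ?_⟩
    rw [map_pow, hYmod, lowerMod_pow, slMod_lowerU, hn]
    congr 1
    linear_combination (1 + a * d) * hdet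
  rw [eq_top_iff, ← SpecialLinearGroup.SL2Z_generators, Subgroup.closure_le]
  rintro x (rfl | rfl)
  · rw [SetLike.mem_coe, S_eq_lowerU]
    exact mul_mem (mul_mem (inv_mem hT) hU) (inv_mem hT)
  · exact hT

end FermatAgent.Igusa
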