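import Fermat.Agent.Igusa.Fibre.Kernel

/-!
# The Galois element `δ = Σ xᵢ ⊗ yᵢ` for `Γ(M) / (Γ(M) ∩ ± Γ(L))`
-/

set_option autoImplicit false

noncomputable section

open UpperHalfPlane hiding I
open scoped MatrixGroups

namespace FermatAgent.Igusa

variable {L M e : ℕ} [NeZero L] {R : Subring ℂ}

/-- `Γ(M) ∩ ± Γ(L)` inside `Γ(M)`. -/
abbrev levelKer (L M : ℕ) : Subgroup ↥(CongruenceSubgroup.Gamma M) :=
  (pmGamma L).subgroupOf (CongruenceSubgroup.Gamma M)

theorem gamma_le_pmGamma (L : ℕ) : CongruenceSubgroup.Gamma L ≤ pmGamma L := fun _ h => Or.inl h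

instance pmGamma_finiteIndex : (pmGamma L).FiniteIndex :=
  Subgroup.finiteIndex_of_le (gamma_le_pmGamma L)

instance levelKer_fintype : Fintype (↥(CongruenceSubgroup.Gamma M) ⧸ levelKer L M) :=
  have : (levelKer L M).FiniteIndex := inferInstance
  Fintype.ofFinite _

/-- A representative of a class. -/
def rep (d : ↥(CongruenceSubgroup.Gamma M) ⧸ levelKer L M) : SL(2, ℤ) :=
  ((d.out : ↥(CongruenceSubgroup.Gamma M)) : SL(2, ℤ))

omit [NeZero L] in
theorem rep_mem (d : ↥(CongruenceSubgroup.Gamma M) ⧸ levelKer L M) :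
    rep d ∈ CongruenceSubgroup.Gamma M :=
  d.out.2

omit [NeZero L] in
theorem rep_one_mem : rep (QuotientGroup.mk 1 : ↥(CongruenceSubgroup.Gamma M) ⧸ levelKer L M) ∈
    pmGamma L := by
  have := QuotientGroup.eq.mp
    (QuotientGroup.out_eq' (QuotientGroup.mk 1 : ↥(CongruenceSubgroup.Gamma M) ⧸ levelKer L M)).symm
  simpa [Subgroup.mem_subgroupOf, rep] using this

omit [NeZero L] in
theorem rep_mem_pmGamma_iff (d : ↥(CongruenceSubgroup.Gamma M) ⧸ levelKer L M) :
    rep d ∈ pmGamma L ↔ d = QuotientGroup.mk 1 := by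
  refine ⟨fun h => ?_, fun h => h ▸ rep_one_mem⟩
  rw [← QuotientGroup.out_eq' d, QuotientGroup.eq, Subgroup.mem_subgroupOf]
  simpa [rep] using inv_mem h

/-- There are finitely many `xᵢ, yᵢ` with `Σ xᵢ (d yᵢ) = δ_{d,1}`. -/
theorem exists_galois_element (hR : HasRoots L R) (hL : (L : ℂ)⁻¹ ∈ R) (h3 : 3 ≤ L)
    (hB : BaseLevel L M e) :
    ∃ l : intFun L R →₀ intFun L R, ∀ d : ↥(CongruenceSubgroup.Gamma M) ⧸ levelKer L M,
      (rep d ∈ pmGamma L → l.sum (fun y x => x * (rep d • y)) = 1) ∧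
        (rep d ∉ pmGamma L → l.sum (fun y x => x * (rep d • y)) = 0) := by
  classical
  let T := ↥(CongruenceSubgroup.Gamma M) ⧸ levelKer L M
  let φ : intFun L R → T → intFun L R := fun y d => rep d • y
  set N := Submodule.span (intFun L R) (Set.range φ) with hN
  have hone : (1 : T → intFun L R) ∈ N :=
    Submodule.subset_span ⟨1, funext fun d => smul_one (rep d)⟩
  have hmul : ∀ x ∈ N, ∀ y ∈ N, x * y ∈ N := by
    intro x hx y hy
    have h := Submodule.mul_mem_mul hx hy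
    rw [hN, Submodule.span_mul_span] at h
    refine Submodule.span_mono ?_ h
    rintro z ⟨_, ⟨a, rfl⟩, _, ⟨b, rfl⟩, rfl⟩
    exact ⟨a * b, funext fun d => smul_mul' (rep d) a b⟩
  have hsep : ∀ c : T, ∃ E ∈ N, E (QuotientGroup.mk 1) = 1 ∧
      (c ≠ QuotientGroup.mk 1 → E c = 0) := by
    intro c
    by_cases hc : c = QuotientGroup.mk 1
    · exact ⟨1, hone, rfl, fun h => absurd hc h⟩
    obtain ⟨y, hy⟩ := exists_moved hR hL h3 hB (rep_mem c)
      (fun h => hc ((rep_mem_pmGamma_iff c).mp h))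
    obtain ⟨u, hu⟩ := hy
    refine ⟨(↑u⁻¹ : intFun L R) • (φ y - (rep c • y) • (1 : T → intFun L R)),
      N.smul_mem _ (N.sub_mem (Submodule.subset_span ⟨y, rfl⟩) (N.smul_mem _ hone)), ?_, fun _ => ?_⟩
    · simp only [Pi.smul_apply, Pi.sub_apply, Pi.one_apply, smul_eq_mul, mul_one, φ,
        smul_of_mem_pmGamma (rep_one_mem (L := L) (M := M)), ← hu, Units.inv_mul]
    · simp [φ]
  choose E hEN hE1 hE0 using hsep
  have hprod : ∏ c : T, E c ∈ N :=
    Finset.prod_induction E (· ∈ N) (fun a b ha hb => hmul a ha b hb) hone fun c _ => hEN c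
  obtain ⟨l, hl⟩ := Finsupp.mem_span_range_iff_exists_finsupp.mp hprod
  refine ⟨l, fun d => ?_⟩
  have h := congrFun hl d
  simp only [Finsupp.sum, Finset.sum_apply, Pi.smul_apply, smul_eq_mul, φ] at h
  rw [Finsupp.sum, h]
  refine ⟨fun hd => ?_, fun hd => ?_⟩ <;> rw [Finset.prod_apply]
  · rw [(rep_mem_pmGamma_iff d).mp hd]
    exact Finset.prod_eq_one fun c _ => hE1 c
  · exact Finset.prod_eq_zero (Finset.mem_univ d)
      (hE0 d fun h => hd ((rep_mem_pmGamma_iff d).mpr h))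

end FermatAgent.Igusa

end
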