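import Fermat.Agent.Igusa.Fibre.RatioLead

/-!
# The Hauptmodul of level `2` or `3` inside level `L`
-/

set_option autoImplicit false

noncomputable section

open UpperHalfPlane hiding I
open Complex Filter Function Polynomial
open scoped Real Topology MatrixGroups Manifold ModularForm

namespace FermatAgent.Igusa

open FermatAgent.ModFun ModularCurve

/-- `L = M e` with `M` equal to `2` or `3`. -/
structure BaseLevel (L M e : ℕ) : Prop where
  eq : L = M * e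
  small : M = 2 ∨ M = 3

variable {L M e : ℕ} [NeZero L] {R : Subring ℂ}

namespace BaseLevel

omit [NeZero L] in
theorem one_lt (hB : BaseLevel L M e) : 1 < M := by rcases hB.small with h | h <;> omega

theorem pos (hB : BaseLevel L M e) : 0 < e :=
  Nat.pos_of_ne_zero fun h => NeZero.ne L (by rw [hB.eq, h, mul_zero])

theorem dvd_mul_iff (hB : BaseLevel L M e) (x : ℤ) : (L : ℤ) ∣ (e : ℤ) * x ↔ (M : ℤ) ∣ x := by
  rw [hB.eq, Nat.cast_mul, mul_comm (M : ℤ), Int.mul_dvd_mul_iff_left]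
  exact_mod_cast hB.pos.ne'

theorem vecHeight_mul (hB : BaseLevel L M e) (x y : ℤ) :
    vecHeight L ((e : ℤ) * x, y) = if (M : ℤ) ∣ x then 0 else e := by
  have hM := hB.one_lt
  have he := hB.pos
  rw [vecHeight, hB.eq, Nat.cast_mul, mul_comm (M : ℤ), Int.mul_emod_mul_of_pos _ _ (by omega)]
  obtain ⟨r, hr⟩ := Int.eq_ofNat_of_zero_le (Int.emod_nonneg x (by omega : (M : ℤ) ≠ 0))
  have hrM : r < M := by have := Int.emod_lt_of_pos x (by omega : (0 : ℤ) < M); omega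
  rw [hr, ← Nat.cast_mul, Int.toNat_natCast]
  simp only [Int.dvd_iff_emod_eq_zero, hr, Nat.cast_eq_zero]
  split_ifs with h
  · simp [h]
  · rcases hB.small with rfl | rfl <;> (have : r = 1 ∨ r = 2 := by omega) <;>
      rcases this with rfl | rfl <;> omega

theorem nonzero (hB : BaseLevel L M e) {x y : ℤ} (h : ¬ (M : ℤ) ∣ x ∨ ¬ (M : ℤ) ∣ y) :
    NonzeroMod L ((e : ℤ) * x, (e : ℤ) * y) := fun ⟨h1, h2⟩ =>
  h.elim (fun h' => h' ((hB.dvd_mul_iff x).mp h1)) (fun h' => h' ((hB.dvd_mul_iff y).mp h2))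

theorem sigmaIdx (hB : BaseLevel L M e) :
    RatioIdx L ((e : ℤ) * 0, (e : ℤ) * 1) ((e : ℤ) * 1, (e : ℤ) * 0) ((e : ℤ) * 1, (e : ℤ) * 1) := by
  have hM := hB.one_lt
  have h1 : ¬ (M : ℤ) ∣ 1 := fun h => by have := Int.le_of_dvd one_pos h; omega
  refine ⟨hB.nonzero (Or.inr h1), hB.nonzero (Or.inl h1), hB.nonzero (Or.inl h1), ?_, ?_⟩
  · rintro (⟨h, -⟩ | ⟨h, -⟩)
    · rw [← mul_sub, hB.dvd_mul_iff, zero_sub, dvd_neg] at h; exact h1 h
    · rw [← mul_add, hB.dvd_mul_iff, zero_add] at h; exact h1 h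
  · rintro (⟨-, h⟩ | ⟨-, h⟩)
    · rw [← mul_sub, hB.dvd_mul_iff, sub_zero] at h; exact h1 h
    · rw [← mul_add, hB.dvd_mul_iff, add_zero] at h; exact h1 h

end BaseLevel

/-- The Hauptmodul of level `M`. -/
def sigmaInt (hR : HasRoots L R) (hL : (L : ℂ)⁻¹ ∈ R) (hB : BaseLevel L M e) : intFun L R :=
  ratioInt hR hL hB.sigmaIdx

theorem dvd_vecMulSL_sub_of_mem_gammaM (hB : BaseLevel L M e) {γ : SL(2, ℤ)}
    (hγ : γ ∈ CongruenceSubgroup.Gamma M) (x y : ℤ) :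
    (L : ℤ) ∣ (vecMulSL ((e : ℤ) * x, (e : ℤ) * y) γ).1 - (e : ℤ) * x ∧
      (L : ℤ) ∣ (vecMulSL ((e : ℤ) * x, (e : ℤ) * y) γ).2 - (e : ℤ) * y := by
  have : NeZero M := ⟨by have := hB.one_lt; omega⟩
  obtain ⟨h1, h2⟩ := dvd_vecMulSL_sub_of_mem_gamma (L := M) hγ (x, y)
  simp only [vecMulSL] at h1 h2 ⊢
  exact ⟨intDvd_congr ((hB.dvd_mul_iff _).mpr h1) (by ring),
    intDvd_congr ((hB.dvd_mul_iff _).mpr h2) (by ring)⟩

theorem smul_sigmaInt_of_mem (hR : HasRoots L R) (hL : (L : ℂ)⁻¹ ∈ R) (hB : BaseLevel L M e)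
    {γ : SL(2, ℤ)} (hγ : γ ∈ CongruenceSubgroup.Gamma M) :
    γ • sigmaInt hR hL hB = sigmaInt hR hL hB := by
  refine Subtype.ext (funext fun τ => ?_)
  rw [smul_apply, sigmaInt, coe_ratioInt, wpRatio_smul]
  have h : ∀ x y : ℤ, pDiv L (vecMulSL ((e : ℤ) * x, (e : ℤ) * y) γ⁻¹) τ =
      pDiv L ((e : ℤ) * x, (e : ℤ) * y) τ := fun x y =>
    pDiv_congr (NeZero.pos L) (dvd_vecMulSL_sub_of_mem_gammaM hB (inv_mem hγ) x y).1
      (dvd_vecMulSL_sub_of_mem_gammaM hB (inv_mem hγ) x y).2 τ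
  simp only [wpRatio, wpDiff, h]

/-- The poles of the Hauptmodul. -/
theorem leadAt_sigmaInt (hR : HasRoots L R) (hL : (L : ℂ)⁻¹ ∈ R) (hB : BaseLevel L M e)
    {γ : SL(2, ℤ)} (hγ : (M : ℤ) ∣ γ 1 0) :
    LeadAt (intExp L R (γ • sigmaInt hR hL hB)) (-(e : ℤ)) := by
  have h11 : ¬ (M : ℤ) ∣ γ 1 1 := fun h => by
    have hd := γ.det_coe
    rw [Matrix.det_fin_two] at hd
    have h1 : (M : ℤ) ∣ 1 := hd ▸ dvd_sub (h.mul_left _) (hγ.mul_left _)
    have := Int.le_of_dvd one_pos h1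
    have := hB.one_lt
    omega
  rw [sigmaInt, smul_ratioInt]
  convert leadAt_intExp_ratioInt hR hL (hB.sigmaIdx.vecMulSL γ⁻¹) using 1
  simp only [vecMulSL, Matrix.SpecialLinearGroup.SL2_inv_expl, Matrix.cons_val', Matrix.cons_val_zero,
    Matrix.cons_val_one, Matrix.empty_val', Matrix.cons_val_fin_one]
  rw [show (e : ℤ) * 0 * γ 1 1 + (e : ℤ) * 1 * -γ 1 0 = (e : ℤ) * (-γ 1 0) by ring,
    show (e : ℤ) * 1 * γ 1 1 + (e : ℤ) * 0 * -γ 1 0 = (e : ℤ) * γ 1 1 by ring,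
    show (e : ℤ) * 1 * γ 1 1 + (e : ℤ) * 1 * -γ 1 0 = (e : ℤ) * (γ 1 1 - γ 1 0) by ring,
    hB.vecHeight_mul, hB.vecHeight_mul, hB.vecHeight_mul, if_pos (dvd_neg.mpr hγ), if_neg h11,
    if_neg (fun h => h11 ((dvd_sub_left hγ).mp h))]
  simp

theorem expCoeff_sigmaInt_of_not_dvd (hR : HasRoots L R) (hL : (L : ℂ)⁻¹ ∈ R)
    (hB : BaseLevel L M e) {γ : SL(2, ℤ)} (hγ : ¬ (M : ℤ) ∣ γ 1 0) {m : ℤ} (hm : m < 0) :
    expCoeff (sigmaInt hR hL hB) γ m = 0 := by
  rw [expCoeff, sigmaInt, smul_ratioInt]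
  refine (leadAt_intExp_ratioInt hR hL (hB.sigmaIdx.vecMulSL γ⁻¹)).1 m (lt_of_lt_of_le hm ?_)
  simp only [vecMulSL, Matrix.SpecialLinearGroup.SL2_inv_expl, Matrix.cons_val', Matrix.cons_val_zero,
    Matrix.cons_val_one, Matrix.empty_val', Matrix.cons_val_fin_one]
  rw [show (e : ℤ) * 0 * γ 1 1 + (e : ℤ) * 1 * -γ 1 0 = (e : ℤ) * (-γ 1 0) by ring,
    show (e : ℤ) * 1 * γ 1 1 + (e : ℤ) * 0 * -γ 1 0 = (e : ℤ) * γ 1 1 by ring,
    show (e : ℤ) * 1 * γ 1 1 + (e : ℤ) * 1 * -γ 1 0 = (e : ℤ) * (γ 1 1 - γ 1 0) by ring,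
    hB.vecHeight_mul, hB.vecHeight_mul, hB.vecHeight_mul, if_neg (fun h => hγ (dvd_neg.mp h))]
  split_ifs <;> omega

/-- Evaluation of polynomials at the Hauptmodul. -/
def sigmaEval (hR : HasRoots L R) (hL : (L : ℂ)⁻¹ ∈ R) (hB : BaseLevel L M e) :
    R[X] →+* intFun L R :=
  eval₂RingHom (constHom L R) (sigmaInt hR hL hB)

theorem smul_sigmaEval_of_mem (hR : HasRoots L R) (hL : (L : ℂ)⁻¹ ∈ R) (hB : BaseLevel L M e)
    {γ : SL(2, ℤ)} (hγ : γ ∈ CongruenceSubgroup.Gamma M) (P : R[X]) :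
    γ • sigmaEval hR hL hB P = sigmaEval hR hL hB P := by
  induction P using Polynomial.induction_on' with
  | add p q hp hq => rw [map_add, smul_add, hp, hq]
  | monomial n a =>
    simp only [sigmaEval, coe_eval₂RingHom, eval₂_monomial, smul_mul', smul_pow', smul_constHom,
      smul_sigmaInt_of_mem hR hL hB hγ]

omit [NeZero L] in
/-- A matrix with lower left entry divisible by `M` is `± T^i` modulo `Γ(M)`. -/
theorem exists_T_zpow_of_dvd (hB : BaseLevel L M e) {γ : SL(2, ℤ)} (hγ : (M : ℤ) ∣ γ 1 0) :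
    ∃ (i : ℤ), ∃ δ ∈ CongruenceSubgroup.Gamma M,
      γ = ModularGroup.T ^ i * δ ∨ -γ = ModularGroup.T ^ i * δ := by
  have main : ∀ g : SL(2, ℤ), (M : ℤ) ∣ g 1 0 → (M : ℤ) ∣ g 0 0 - 1 →
      ∃ i : ℤ, ∃ δ ∈ CongruenceSubgroup.Gamma M, g = ModularGroup.T ^ i * δ := by
    intro g hc ha
    have hd := g.det_coe
    rw [Matrix.det_fin_two] at hd
    have hd1 : (M : ℤ) ∣ g 1 1 - 1 := by
      refine intDvd_congr (dvd_sub (hc.mul_left (g 0 1)) (ha.mul_right (g 1 1))) ?_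
      linear_combination hd
    refine ⟨g 0 1, ModularGroup.T ^ (-(g 0 1)) * g, ?_, by rw [← mul_assoc, ← zpow_add,
      add_neg_cancel, zpow_zero, one_mul]⟩
    rw [CongruenceSubgroup.Gamma_mem]
    simp only [ModularGroup.coe_T_zpow, Matrix.SpecialLinearGroup.coe_mul, Matrix.mul_apply,
      Fin.sum_univ_two, Matrix.of_apply, Matrix.cons_val', Matrix.cons_val_zero,
      Matrix.cons_val_one, Matrix.cons_val_fin_one, one_mul, zero_mul, zero_add]
    have e1 : ((g 1 0 : ℤ) : ZMod M) = 0 := (ZMod.intCast_zmod_eq_zero_iff_dvd _ _).mpr hc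
    have e2 : ((g 0 0 : ℤ) : ZMod M) = 1 := by
      have h := (ZMod.intCast_zmod_eq_zero_iff_dvd _ M).mpr ha
      rwa [Int.cast_sub, Int.cast_one, sub_eq_zero] at h
    have e3 : ((g 1 1 : ℤ) : ZMod M) = 1 := by
      have h := (ZMod.intCast_zmod_eq_zero_iff_dvd _ M).mpr hd1
      rwa [Int.cast_sub, Int.cast_one, sub_eq_zero] at h
    push_cast
    simp [e1, e2, e3]
  have hd := γ.det_coe
  rw [Matrix.det_fin_two] at hd
  have hna : ¬ (M : ℤ) ∣ γ 0 0 := fun h => by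
    have h1 : (M : ℤ) ∣ 1 := hd ▸ dvd_sub (h.mul_right _) (hγ.mul_left _)
    have := Int.le_of_dvd one_pos h1
    have := hB.one_lt
    omega
  have : (M : ℤ) ∣ γ 0 0 - 1 ∨ (M : ℤ) ∣ -γ 0 0 - 1 := by
    rcases hB.small with rfl | rfl <;> omega
  rcases this with h | h
  · obtain ⟨i, δ, hδ, h1⟩ := main γ hγ h
    exact ⟨i, δ, hδ, Or.inl h1⟩
  · obtain ⟨i, δ, hδ, h1⟩ := main (-γ) (by simpa using hγ) (by simpa using h)
    exact ⟨i, δ, hδ, Or.inr h1⟩

theorem expCoeff_pole_eq (hB : BaseLevel L M e) {f : intFun L R}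
    (hinv : ∀ δ ∈ CongruenceSubgroup.Gamma M, δ • f = f) {γ : SL(2, ℤ)} (hγ : (M : ℤ) ∣ γ 1 0)
    (m : ℤ) (h1 : expCoeff f 1 m = 0) : expCoeff f γ m = 0 := by
  obtain ⟨i, δ, hδ, h⟩ := exists_T_zpow_of_dvd hB hγ
  have key : expCoeff f (ModularGroup.T ^ i * δ) m = 0 := by
    refine Subtype.ext ?_
    rw [coe_expCoeff_T_zpow_mul, ← mul_one δ, mul_one δ, ← one_mul δ, ← expCoeff_smul,
      hinv δ hδ, h1, Subring.coe_zero, mul_zero]
  rcases h with h | h
  · rw [h, key]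
  · rw [expCoeff, ← neg_smul_intFun, h, ← expCoeff, key]

theorem expCoeff_eq_zero_of_not_dvd (hB : BaseLevel L M e) {f : intFun L R}
    (hinv : ∀ δ ∈ CongruenceSubgroup.Gamma M, δ • f = f) {m : ℤ} (hm : ¬ (e : ℤ) ∣ m) :
    expCoeff f 1 m = 0 := by
  have hT : ModularGroup.T ^ (M : ℤ) ∈ CongruenceSubgroup.Gamma M := by
    rw [CongruenceSubgroup.Gamma_mem, ModularGroup.coe_T_zpow]
    simp
  have h := coe_expCoeff_T_zpow_mul f 1 (M : ℤ) m
  rw [show ModularGroup.T ^ (M : ℤ) * 1 = 1 * ModularGroup.T ^ (M : ℤ) by simp, ← expCoeff_smul,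
    hinv _ hT] at h
  by_contra hne
  have hne' : (expCoeff f 1 m : ℂ) ≠ 0 := fun h0 => hne (Subtype.ext h0)
  have h1 : zetaRoot L ^ (-(M : ℤ) * m) = 1 :=
    mul_right_cancel₀ hne' (by rw [← h, one_mul])
  rw [zetaRoot_zpow_eq_one_iff, neg_mul, dvd_neg] at h1
  apply hm
  have h2 : (M : ℤ) * (e : ℤ) ∣ (M : ℤ) * m := by rw [← Nat.cast_mul, ← hB.eq]; exact h1
  exact Int.dvd_of_mul_dvd_mul_left (by have := hB.one_lt; omega) h2

/-- An invariant function with poles only at the poles of the Hauptmodul is a polynomial in it. -/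
theorem exists_sigmaEval_eq (hR : HasRoots L R) (hL : (L : ℂ)⁻¹ ∈ R) (hB : BaseLevel L M e)
    (s : ℕ) : ∀ g : intFun L R, (∀ δ ∈ CongruenceSubgroup.Gamma M, δ • g = g) →
      (∀ γ : SL(2, ℤ), ¬ (M : ℤ) ∣ γ 1 0 → ∀ m < 0, expCoeff g γ m = 0) →
      CuspBound g (-(s : ℤ)) → ∃ P : R[X], sigmaEval hR hL hB P = g := by
  induction s with
  | zero =>
    intro g _ _ hb
    obtain ⟨c, hc⟩ := exists_constHom_of_cuspBound g (by simpa using hb)
    exact ⟨C c, by simp [sigmaEval, hc]⟩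
  | succ s ih =>
    intro g hinv hnp hb
    have lower : ∀ g' : intFun L R, (∀ δ ∈ CongruenceSubgroup.Gamma M, δ • g' = g') →
        (∀ γ : SL(2, ℤ), ¬ (M : ℤ) ∣ γ 1 0 → ∀ m < 0, expCoeff g' γ m = 0) →
        CuspBound g' (-((s + 1 : ℕ) : ℤ)) → expCoeff g' 1 (-((s + 1 : ℕ) : ℤ)) = 0 →
        CuspBound g' (-(s : ℤ)) := by
      intro g' hi hn hb' h1 γ m hm
      rcases (show m < -((s + 1 : ℕ) : ℤ) ∨ m = -((s + 1 : ℕ) : ℤ) by omega) with h | h
      · exact hb' γ m h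
      · by_cases hγ : (M : ℤ) ∣ γ 1 0
        · exact expCoeff_pole_eq hB hi hγ m (h ▸ h1)
        · exact hn γ hγ m (by omega)
    by_cases hd : e ∣ s + 1
    · obtain ⟨k, hk⟩ := hd
      set σ := sigmaInt hR hL hB with hσ
      have hσb : CuspBound σ (-(e : ℤ)) := fun γ m hm => by
        by_cases hγ : (M : ℤ) ∣ γ 1 0
        · exact (leadAt_sigmaInt hR hL hB hγ).1 m hm
        · exact expCoeff_sigmaInt_of_not_dvd hR hL hB hγ (by omega)
      obtain ⟨u, hu⟩ : IsUnit (expCoeff σ 1 (-(e : ℤ)) ^ k) :=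
        IsUnit.pow k (leadAt_sigmaInt hR hL hB (γ := 1) (by simp)).2
      set c : R := expCoeff g 1 (-((s + 1 : ℕ) : ℤ)) * (↑u⁻¹ : R)
      set g' := g - constHom L R c * σ ^ k with hg'
      have hsk : -((s + 1 : ℕ) : ℤ) = (k : ℤ) * -(e : ℤ) := by rw [hk]; push_cast; ring
      have hinv' : ∀ δ ∈ CongruenceSubgroup.Gamma M, δ • g' = g' := fun δ hδ => by
        rw [hg', smul_sub, smul_mul', smul_constHom, smul_pow', hσ,
          smul_sigmaInt_of_mem hR hL hB hδ, hinv δ hδ]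
      have hnp' : ∀ γ : SL(2, ℤ), ¬ (M : ℤ) ∣ γ 1 0 → ∀ m < 0, expCoeff g' γ m = 0 := by
        intro γ hγ m hm
        have hpow : ∀ j : ℕ, ∀ i < (0 : ℤ), (intExp L R (γ • σ ^ j)).coeff i = 0 := by
          intro j
          induction j with
          | zero =>
            intro i hi
            simpa [expCoeff] using cuspBound_one (L := L) (R := R) γ i hi
          | succ j ihj =>
            intro i hi
            rw [pow_succ, smul_mul', map_mul]
            exact (coeff_mul_of_bound (s := 0) (t := 0) ihj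
              (fun m hm => expCoeff_sigmaInt_of_not_dvd hR hL hB hγ hm)).1 i (by simpa using hi)
        rw [hg', expCoeff_sub, hnp γ hγ m hm, expCoeff_const_mul, expCoeff, hpow k m hm,
          mul_zero, sub_zero]
      have hb' : CuspBound g' (-((s + 1 : ℕ) : ℤ)) :=
        hb.sub (hsk ▸ (hσb.pow k).const_mul c)
      have h1' : expCoeff g' 1 (-((s + 1 : ℕ) : ℤ)) = 0 := by
        rw [hg', expCoeff_sub, expCoeff_const_mul]
        conv_lhs => enter [2, 2]; rw [hsk, expCoeff_pow hσb, ← hu]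
        rw [mul_assoc, Units.inv_mul, mul_one, sub_self]
      obtain ⟨P, hP⟩ := ih g' hinv' hnp' (lower g' hinv' hnp' hb' h1')
      refine ⟨P + C c * X ^ k, ?_⟩
      rw [map_add, hP, map_mul, map_pow, hg']
      simp [sigmaEval, hσ]
    · refine ih g hinv hnp (lower g hinv hnp hb (expCoeff_eq_zero_of_not_dvd hB hinv ?_))
      rw [dvd_neg, Int.natCast_dvd_natCast]
      exact hd

omit [NeZero L] in
theorem dvd_mul_gamma_iff (hB : BaseLevel L M e) {δ : SL(2, ℤ)}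
    (hδ : δ ∈ CongruenceSubgroup.Gamma L) (γ : SL(2, ℤ)) :
    (M : ℤ) ∣ (γ * δ) 1 0 ↔ (M : ℤ) ∣ γ 1 0 := by
  have hML : (M : ℤ) ∣ (L : ℤ) := ⟨e, by rw [hB.eq]; push_cast; ring⟩
  obtain ⟨h00, -, h10, -⟩ := CongruenceSubgroup.Gamma_mem.mp hδ
  have a10 : (M : ℤ) ∣ δ 1 0 := hML.trans ((ZMod.intCast_zmod_eq_zero_iff_dvd _ _).mp h10)
  have a00 : (M : ℤ) ∣ δ 0 0 - 1 := hML.trans ((ZMod.intCast_zmod_eq_zero_iff_dvd _ _).mp
    (by push_cast; rw [h00, sub_self]))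
  rw [Matrix.SpecialLinearGroup.coe_mul, Matrix.mul_apply, Fin.sum_univ_two,
    dvd_add_left (a10.mul_left _), show γ 1 0 * δ 0 0 = γ 1 0 * (δ 0 0 - 1) + γ 1 0 by ring,
    dvd_add_right (a00.mul_left _)]

/-- Every invariant function is a quotient of polynomials in the Hauptmodul, with monic
denominator. -/
theorem exists_mul_sigmaEval_eq (hR : HasRoots L R) (hL : (L : ℂ)⁻¹ ∈ R) (hB : BaseLevel L M e)
    (f : intFun L R) (hinv : ∀ δ ∈ CongruenceSubgroup.Gamma M, δ • f = f) :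
    ∃ Q P : R[X], Q.Monic ∧ f * sigmaEval hR hL hB Q = sigmaEval hR hL hB P := by
  classical
  let Γ := CongruenceSubgroup.Gamma L
  have : Fintype (SL(2, ℤ) ⧸ Γ) := Fintype.ofFinite _
  obtain ⟨n, hn⟩ := exists_cuspBound f
  set σ := sigmaInt hR hL hB with hσ
  set S := (Finset.univ : Finset (SL(2, ℤ) ⧸ Γ)).filter fun c => ¬ (M : ℤ) ∣ c.out 1 0 with hS
  set cv : SL(2, ℤ) ⧸ Γ → R := fun c => expCoeff σ c.out 0 with hcv
  set Q : R[X] := ∏ c ∈ S, (X - C (cv c)) ^ n with hQ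
  have hQm : Q.Monic := monic_prod_of_monic _ _ fun c _ => (monic_X_sub_C _).pow n
  set g := f * sigmaEval hR hL hB Q with hg
  have hinvg : ∀ δ ∈ CongruenceSubgroup.Gamma M, δ • g = g := fun δ hδ => by
    rw [hg, smul_mul', hinv δ hδ, smul_sigmaEval_of_mem hR hL hB hδ]
  have hQeval : sigmaEval hR hL hB Q = ∏ c ∈ S, (σ - constHom L R (cv c)) ^ n := by
    simp [hQ, sigmaEval, hσ, map_prod, eval₂_pow, eval₂_sub]
  have hnp : ∀ γ : SL(2, ℤ), ¬ (M : ℤ) ∣ γ 1 0 → ∀ m < 0, expCoeff g γ m = 0 := by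
    intro γ hγ m hm
    set c : SL(2, ℤ) ⧸ Γ := QuotientGroup.mk γ with hc
    obtain ⟨δ, hδ, hcδ⟩ : ∃ δ ∈ Γ, c.out = γ * δ := by
      refine ⟨γ⁻¹ * c.out, ?_, by group⟩
      rw [← QuotientGroup.eq, QuotientGroup.out_eq']
    have hcS : c ∈ S := by
      rw [hS, Finset.mem_filter]
      exact ⟨Finset.mem_univ _, fun h => hγ ((dvd_mul_gamma_iff hB hδ γ).mp (hcδ ▸ h))⟩
    have hsame : ∀ x : intFun L R, c.out • x = γ • x := fun x => by
      rw [hcδ, mul_smul, smul_of_mem_gamma L R hδ]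
    have hfac : ∀ (a : R), ∀ i < (0 : ℤ), (intExp L R (γ • (σ - constHom L R a))).coeff i = 0 :=
      fun a i hi => by
        rw [← expCoeff, expCoeff_sub, expCoeff_sigmaInt_of_not_dvd hR hL hB hγ hi,
          cuspBound_constHom a γ i hi, sub_zero]
    have hfc : ∀ i < (1 : ℤ), (intExp L R (γ • (σ - constHom L R (cv c)))).coeff i = 0 := by
      intro i hi
      rcases lt_or_eq_of_le (show i ≤ 0 by omega) with h | rfl
      · exact hfac _ i h
      · rw [← expCoeff, expCoeff_sub, expCoeff_constHom, hcv]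
        simp only [expCoeff, hsame, sub_self]
    have hpw : ∀ (x : LaurentSeries R) (t : ℤ) (j : ℕ), (∀ i < t, x.coeff i = 0) →
        ∀ i < (j : ℤ) * t, (x ^ j).coeff i = 0 := by
      intro x t j hx
      induction j with
      | zero =>
        intro i hi
        rw [pow_zero, HahnSeries.coeff_one, if_neg]
        push_cast at hi; omega
      | succ j ihj =>
        intro i hi
        rw [pow_succ]
        exact (coeff_mul_of_bound ihj hx).1 i (by push_cast at hi; linarith)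
    have hrest : ∀ (T : Finset (SL(2, ℤ) ⧸ Γ)), ∀ i < (0 : ℤ),
        (∏ d ∈ T, (intExp L R (γ • (σ - constHom L R (cv d)))) ^ n).coeff i = 0 := by
      intro T
      induction T using Finset.induction with
      | empty => intro i hi; rw [Finset.prod_empty, HahnSeries.coeff_one, if_neg hi.ne]
      | insert d T hd ihT =>
        intro i hi
        rw [Finset.prod_insert hd]
        exact (coeff_mul_of_bound (s := 0) (t := 0)
          (fun i hi => hpw _ 0 n (hfac _) i (by simpa using hi)) ihT).1 i (by simpa using hi)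
    rw [hg, expCoeff, hQeval, smul_mul', Finset.smul_prod', map_mul, map_prod]
    simp only [smul_pow', map_pow]
    rw [← Finset.mul_prod_erase S _ hcS, ← mul_assoc]
    refine (coeff_mul_of_bound (s := 0) (t := 0) (fun i hi => ?_) (hrest _)).1 m (by simpa using hm)
    exact (coeff_mul_of_bound (s := -(n : ℤ)) (t := (n : ℤ)) (hn γ)
      (fun i hi => hpw _ 1 n hfc i (by simpa using hi))).1 i (by simpa using hi)
  obtain ⟨m, hm⟩ := exists_cuspBound g
  obtain ⟨P, hP⟩ := exists_sigmaEval_eq hR hL hB m g hinvg hnp hm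
  exact ⟨Q, P, hQm, hP.symm⟩

end FermatAgent.Igusa

end
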