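import Fermat.Agent.Igusa.Fibre.Hauptmodul
import Fermat.Agent.Igusa.Irreducible

/-!
# The kernel of the action on residual functions is `± Γ(L)`
-/

set_option autoImplicit false

noncomputable section

open UpperHalfPlane hiding I
open Complex Filter Function
open scoped Real Topology MatrixGroups Manifold ModularForm

namespace FermatAgent.Igusa

open FermatAgent.ModFun ModularCurve

/-- The subgroup `± Γ(L)`. -/
def pmGamma (L : ℕ) : Subgroup SL(2, ℤ) where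
  carrier := {γ | γ ∈ CongruenceSubgroup.Gamma L ∨ -γ ∈ CongruenceSubgroup.Gamma L}
  one_mem' := Or.inl (one_mem _)
  mul_mem' {a b} ha hb := by
    rcases ha with ha | ha <;> rcases hb with hb | hb
    · exact Or.inl (mul_mem ha hb)
    · exact Or.inr (by rw [← mul_neg]; exact mul_mem ha hb)
    · exact Or.inr (by rw [← neg_mul]; exact mul_mem ha hb)
    · exact Or.inl (by simpa using mul_mem ha hb)
  inv_mem' {a} ha := by
    rcases ha with ha | ha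
    · exact Or.inl (inv_mem ha)
    · refine Or.inr ?_
      have : -a⁻¹ = (-a)⁻¹ := eq_inv_of_mul_eq_one_left (by simp)
      rw [this]
      exact inv_mem ha

variable {L M e : ℕ} [NeZero L] {R : Subring ℂ}

theorem smul_of_mem_pmGamma {γ : SL(2, ℤ)} (hγ : γ ∈ pmGamma L) (f : intFun L R) : γ • f = f := by
  rcases hγ with h | h
  · exact smul_of_mem_gamma L R h f
  · rw [← neg_smul_intFun, smul_of_mem_gamma L R h f]

omit [NeZero L] in
theorem exists_baseLevel (h : 2 ∣ L ∨ 3 ∣ L) : ∃ M e, BaseLevel L M e := by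
  rcases h with ⟨e, he⟩ | ⟨e, he⟩
  · exact ⟨2, e, he, Or.inl rfl⟩
  · exact ⟨3, e, he, Or.inr rfl⟩

omit [NeZero L] in
theorem mem_gamma_of_dvd {γ : SL(2, ℤ)} (h00 : (L : ℤ) ∣ γ 0 0 - 1) (h01 : (L : ℤ) ∣ γ 0 1)
    (h10 : (L : ℤ) ∣ γ 1 0) (h11 : (L : ℤ) ∣ γ 1 1 - 1) : γ ∈ CongruenceSubgroup.Gamma L := by
  simp only [← ZMod.intCast_zmod_eq_zero_iff_dvd, Int.cast_sub, Int.cast_one, sub_eq_zero] at *
  exact CongruenceSubgroup.Gamma_mem.mpr ⟨h00, h01, h10, h11⟩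

omit [NeZero L] in
theorem mem_pmGamma_of_pmEq (γ : SL(2, ℤ)) (h1 : PMEq L (1, 0) (vecMulSL (1, 0) γ))
    (h2 : PMEq L (0, 1) (vecMulSL (0, 1) γ)) (h3 : PMEq L (1, 1) (vecMulSL (1, 1) γ)) :
    γ ∈ pmGamma L := by
  simp only [PMEq, vecMulSL, one_mul, zero_mul, add_zero, zero_add] at h1 h2 h3
  have h01 : (L : ℤ) ∣ γ 0 1 := by
    rcases h1 with ⟨-, h⟩ | ⟨-, h⟩
    · simpa using h
    · simpa using h
  have h10 : (L : ℤ) ∣ γ 1 0 := by
    rcases h2 with ⟨h, -⟩ | ⟨h, -⟩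
    · simpa using h
    · simpa using h
  rcases h3 with ⟨e1, e2⟩ | ⟨e1, e2⟩
  · exact Or.inl (mem_gamma_of_dvd (intDvd_congr (dvd_sub (dvd_neg.mpr e1) h10) (by ring)) h01 h10
      (intDvd_congr (dvd_sub (dvd_neg.mpr e2) h01) (by ring)))
  · refine Or.inr (mem_gamma_of_dvd ?_ ?_ ?_ ?_) <;>
      simp only [Matrix.SpecialLinearGroup.coe_neg, Matrix.neg_apply]
    · exact intDvd_congr (dvd_sub (dvd_neg.mpr e1) (dvd_neg.mpr h10)) (by ring)
    · exact dvd_neg.mpr h01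
    · exact dvd_neg.mpr h10
    · exact intDvd_congr (dvd_sub (dvd_neg.mpr e2) (dvd_neg.mpr h01)) (by ring)

/-- An element of `Γ(M)` outside `± Γ(L)` moves some function by a unit. -/
theorem exists_moved (hR : HasRoots L R) (hL : (L : ℂ)⁻¹ ∈ R) (_h3 : 3 ≤ L)
    (hB : BaseLevel L M e) {h : SL(2, ℤ)} (hh : h ∈ CongruenceSubgroup.Gamma M)
    (hn : h ∉ pmGamma L) : ∃ y : intFun L R, IsUnit (y - h • y) := by
  have hM := hB.one_lt
  have he : 2 ≤ e := by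
    by_contra he
    have : e = 1 := by have := hB.pos; omega
    exact hn (Or.inl (by rwa [hB.eq, this, mul_one]))
  set γ := h⁻¹ with hγdef
  have hγ : γ ∈ CongruenceSubgroup.Gamma M := inv_mem hh
  obtain ⟨v, hv1, hv⟩ : ∃ v : ℤ × ℤ, (v.1 = 1 ∨ v.2 = 1) ∧ ¬ PMEq L v (vecMulSL v γ) := by
    by_contra hcon
    push Not at hcon
    refine hn ?_
    rw [show h = γ⁻¹ by rw [hγdef, inv_inv]]
    exact inv_mem (mem_pmGamma_of_pmEq γ (hcon (1, 0) (Or.inl rfl)) (hcon (0, 1) (Or.inr rfl))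
      (hcon (1, 1) (Or.inl rfl)))
  have heL : (e : ℤ) ∣ (L : ℤ) := ⟨M, by rw [hB.eq]; push_cast; ring⟩
  have hnot1 : ∀ z : ℤ, ¬ (L : ℤ) ∣ 1 + (e : ℤ) * z := fun z hz => by
    have h1 : (e : ℤ) ∣ 1 := (dvd_add_left (dvd_mul_right _ z)).mp (heL.trans hz)
    have := Int.le_of_dvd one_pos h1
    omega
  have hvnz : NonzeroMod L v := fun hd => by
    rcases hv1 with h1 | h1
    · exact hnot1 0 (by simpa [h1] using hd.1)
    · exact hnot1 0 (by simpa [h1] using hd.2)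
  have hve : ∀ x y : ℤ, ¬ PMEq L v ((e : ℤ) * x, (e : ℤ) * y) := by
    intro x y hp
    rcases hp with ⟨p1, p2⟩ | ⟨p1, p2⟩ <;> rcases hv1 with h1 | h1 <;> simp only [h1] at p1 p2
    · exact hnot1 (-x) (intDvd_congr p1 (by ring))
    · exact hnot1 (-y) (intDvd_congr p2 (by ring))
    · exact hnot1 x p1
    · exact hnot1 y p2
  have hfix : ∀ x y : ℤ, PMEq L (vecMulSL ((e : ℤ) * x, (e : ℤ) * y) γ) ((e : ℤ) * x, (e : ℤ) * y) :=
    fun x y => Or.inl (dvd_vecMulSL_sub_of_mem_gammaM hB hγ x y)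
  set v' := vecMulSL v γ with hv'
  have hv'e : ∀ x y : ℤ, ¬ PMEq L v' ((e : ℤ) * x, (e : ℤ) * y) := fun x y hp =>
    not_pmEq_vecMulSL (hve x y) γ (hp.trans (hfix x y).symm)
  have hσ := hB.sigmaIdx
  have i0 : RatioIdx L v ((e : ℤ) * 1, (e : ℤ) * 0) ((e : ℤ) * 1, (e : ℤ) * 1) :=
    ⟨hvnz, hσ.ha, hσ.hb, hve _ _, hσ.hba⟩
  have i1 : RatioIdx L v v' ((e : ℤ) * 1, (e : ℤ) * 1) :=
    ⟨hvnz, nonzeroMod_vecMulSL hvnz γ, hσ.hb, hv, fun hp => hv'e _ _ hp.symm⟩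
  have i2 : RatioIdx L v' ((e : ℤ) * 1, (e : ℤ) * 1) ((e : ℤ) * 1, (e : ℤ) * 0) :=
    ⟨nonzeroMod_vecMulSL hvnz γ, hσ.hb, hσ.ha, hv'e _ _, fun hp => hσ.hba hp.symm⟩
  refine ⟨ratioInt hR hL i0, ?_⟩
  suffices heq : ratioInt hR hL i0 - h • ratioInt hR hL i0 =
      ratioInt hR hL i1 * ratioInt hR hL i2 by
    rw [heq]; exact (isUnit_ratioInt hR hL i1).mul (isUnit_ratioInt hR hL i2)
  refine Subtype.ext (funext fun τ => ?_)
  have hp : ∀ x y : ℤ, pDiv L (vecMulSL ((e : ℤ) * x, (e : ℤ) * y) γ) τ =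
      pDiv L ((e : ℤ) * x, (e : ℤ) * y) τ := fun x y =>
    pDiv_congr (NeZero.pos L) (dvd_vecMulSL_sub_of_mem_gammaM hB hγ x y).1
      (dvd_vecMulSL_sub_of_mem_gammaM hB hγ x y).2 τ
  show wpRatio L v _ _ τ - ((h • ratioInt hR hL i0 : intFun L R) : ℍ → ℂ) τ =
    wpRatio L v v' _ τ * wpRatio L v' _ _ τ
  rw [smul_ratioInt, coe_ratioInt]
  have n1 := wpDiff_ne_zero i1.hb i1.ha i1.hba τ
  have n2 := wpDiff_ne_zero i2.hb i2.ha i2.hba τ
  have n3 := wpDiff_ne_zero i0.hb i0.ha i0.hba τ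
  simp only [wpRatio, wpDiff, ← hγdef, hp, ← hv'] at n1 n2 n3 ⊢
  field_simp
  ring

variable {k : Type*} [Field k] (ρ : R →+* k)

theorem toRes_smul_conj (hD : decompGroup (M := L) ρ = ⊤) {γ : SL(2, ℤ)}
    (h : ∀ x : intFun L R, toRes L R ρ (γ • x) = toRes L R ρ x) (δ : SL(2, ℤ)) (x : intFun L R) :
    toRes L R ρ ((δ * γ * δ⁻¹) • x) = toRes L R ρ x := by
  rw [mul_smul, mul_smul, ← resSmul_toRes ρ hD δ, h, resSmul_toRes, smul_inv_smul]

theorem mem_pmGamma_of_toRes_smul_eq (hR : HasRoots L R) (hL : (L : ℂ)⁻¹ ∈ R) (h3 : 3 ≤ L)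
    (hM : 2 ∣ L ∨ 3 ∣ L) {γ : SL(2, ℤ)}
    (h : ∀ x : intFun L R, toRes L R ρ (γ • x) = toRes L R ρ x) : γ ∈ pmGamma L := by
  obtain ⟨M, e, hB⟩ := exists_baseLevel hM
  have hD := decompGroup_eq_top ρ hR hL
  have h0 : ∀ δ : SL(2, ℤ), (L : ℤ) ∣ (δ * γ * δ⁻¹) 1 0 := fun δ => by
    have hθ := congrArg (resExp L R ρ) (toRes_smul_conj ρ hD h δ (thetaInt hR))
    rw [resExp_toRes, resExp_toRes] at hθ
    have := mem_gamma0_of_redExp_eq ρ hR hθ
    rwa [CongruenceSubgroup.Gamma0_mem, ZMod.intCast_zmod_eq_zero_iff_dvd] at this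
  have hc : (L : ℤ) ∣ γ 1 0 := by simpa using h0 1
  have hb : (L : ℤ) ∣ γ 0 1 := by
    have h1 := h0 ModularGroup.S
    simpa [Matrix.mul_apply, Matrix.vecMul, dotProduct, Fin.sum_univ_two, ModularGroup.coe_S,
      Matrix.SpecialLinearGroup.coe_inv, Matrix.adjugate_fin_two] using h1
  have had : (L : ℤ) ∣ γ 0 0 - γ 1 1 := by
    have h1 := h0 lowerU
    rw [Matrix.SpecialLinearGroup.coe_mul, Matrix.SpecialLinearGroup.coe_mul,
      Matrix.SpecialLinearGroup.coe_inv] at h1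
    simp [Matrix.mul_apply, Matrix.vecMul, dotProduct, Fin.sum_univ_two, lowerU,
      Matrix.adjugate_fin_two] at h1
    exact intDvd_congr (dvd_add (dvd_sub h1 hc) hb) (by ring)
  have hdet := γ.det_coe
  rw [Matrix.det_fin_two] at hdet
  have hML : (M : ℤ) ∣ (L : ℤ) := ⟨e, by rw [hB.eq]; push_cast; ring⟩
  have hna : ¬ (M : ℤ) ∣ γ 0 0 := fun ha => by
    have h1 : (M : ℤ) ∣ 1 := hdet ▸ dvd_sub (ha.mul_right _) ((hML.trans hc).mul_left _)
    have := Int.le_of_dvd one_pos h1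
    have := hB.one_lt
    omega
  have hbM := hML.trans hb
  have hcM := hML.trans hc
  have hadM := hML.trans had
  have hsign : γ ∈ CongruenceSubgroup.Gamma M ∨ -γ ∈ CongruenceSubgroup.Gamma M := by
    have hcase : (M : ℤ) ∣ γ 0 0 - 1 ∨ (M : ℤ) ∣ -γ 0 0 - 1 := by
      rcases hB.small with rfl | rfl <;> omega
    rcases hcase with ha | ha
    · exact Or.inl (mem_gamma_of_dvd ha hbM hcM (intDvd_congr (dvd_sub ha hadM) (by ring)))
    · refine Or.inr (mem_gamma_of_dvd ?_ ?_ ?_ ?_) <;>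
        simp only [Matrix.SpecialLinearGroup.coe_neg, Matrix.neg_apply]
      · exact ha
      · exact dvd_neg.mpr hbM
      · exact dvd_neg.mpr hcM
      · exact intDvd_congr (dvd_add ha hadM) (by ring)
  have main : ∀ g : SL(2, ℤ), g ∈ CongruenceSubgroup.Gamma M →
      (∀ x : intFun L R, toRes L R ρ (g • x) = toRes L R ρ x) → g ∈ pmGamma L := by
    intro g hg hfix
    by_contra hn
    obtain ⟨y, hy⟩ := exists_moved hR hL h3 hB hg hn
    exact (hy.map (toRes L R ρ)).ne_zero (by rw [map_sub, hfix, sub_self])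
  rcases hsign with hs | hs
  · exact main γ hs h
  · have := main (-γ) hs fun x => by rw [neg_smul_intFun, h]
    rw [← neg_neg γ]
    rcases this with h' | h'
    · exact Or.inr (by simpa using h')
    · exact Or.inl (by simpa using h')

end FermatAgent.Igusa

end
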