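import Fermat.Agent.Igusa.Fibre.WpForm
import Fermat.Agent.Igusa.Fibre.Kernel

/-!
# Functions with exact pole order at the cusp `∞` of level `L`
-/

set_option autoImplicit false

noncomputable section

open UpperHalfPlane hiding I
open scoped MatrixGroups

namespace FermatAgent.Igusa

open FermatAgent.ModFun ModularCurve

/-- `γ` is `± T^i` modulo `Γ(L)`. -/
def AtInfty (L : ℕ) (γ : SL(2, ℤ)) : Prop :=
  (L : ℤ) ∣ γ 1 0 ∧ ((L : ℤ) ∣ γ 0 0 - 1 ∨ (L : ℤ) ∣ γ 0 0 + 1)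

variable {L : ℕ} [NeZero L] {R : Subring ℂ}

omit [NeZero L] in
theorem AtInfty.exists_T_zpow {γ : SL(2, ℤ)} (h : AtInfty L γ) :
    ∃ (i : ℤ), ∃ δ ∈ pmGamma L, γ = ModularGroup.T ^ i * δ := by
  obtain ⟨hc, ha⟩ := h
  have hd := γ.det_coe
  rw [Matrix.det_fin_two] at hd
  rcases ha with ha | ha
  · refine ⟨γ 0 1, ModularGroup.T ^ (-(γ 0 1)) * γ, Or.inl ?_, by
      rw [← mul_assoc, ← zpow_add, add_neg_cancel, zpow_zero, one_mul]⟩
    have hd1 : (L : ℤ) ∣ γ 1 1 - 1 :=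
      intDvd_congr (dvd_sub (hc.mul_left (γ 0 1)) (ha.mul_right (γ 1 1))) (by linear_combination hd)
    refine mem_gamma_of_dvd ?_ ?_ ?_ ?_ <;>
      simp only [ModularGroup.coe_T_zpow, Matrix.SpecialLinearGroup.coe_mul, Matrix.mul_apply,
        Fin.sum_univ_two, Matrix.of_apply, Matrix.cons_val', Matrix.cons_val_zero,
        Matrix.cons_val_one, Matrix.cons_val_fin_one, one_mul, zero_mul, zero_add]
    · exact intDvd_congr (dvd_sub ha (hc.mul_left (γ 0 1))) (by ring)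
    · exact intDvd_congr (dvd_neg.mpr (hd1.mul_left (γ 0 1))) (by ring)
    · exact hc
    · exact hd1
  · refine ⟨-(γ 0 1), ModularGroup.T ^ (γ 0 1) * γ, Or.inr ?_, by
      rw [← mul_assoc, ← zpow_add, neg_add_cancel, zpow_zero, one_mul]⟩
    have hd1 : (L : ℤ) ∣ γ 1 1 + 1 :=
      intDvd_congr (dvd_sub (ha.mul_right (γ 1 1)) (hc.mul_left (γ 0 1))) (by linear_combination -hd)
    refine mem_gamma_of_dvd ?_ ?_ ?_ ?_ <;>
      simp only [Matrix.SpecialLinearGroup.coe_neg, Matrix.neg_apply, ModularGroup.coe_T_zpow,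
        Matrix.SpecialLinearGroup.coe_mul, Matrix.mul_apply, Fin.sum_univ_two, Matrix.of_apply,
        Matrix.cons_val', Matrix.cons_val_zero, Matrix.cons_val_one, Matrix.cons_val_fin_one,
        one_mul, zero_mul, zero_add]
    · exact intDvd_congr (dvd_neg.mpr (dvd_add ha (hc.mul_left (γ 0 1)))) (by ring)
    · exact intDvd_congr (dvd_neg.mpr (hd1.mul_left (γ 0 1))) (by ring)
    · exact dvd_neg.mpr hc
    · exact intDvd_congr (dvd_neg.mpr hd1) (by ring)

omit [NeZero L] in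
theorem not_dvd_of_atInfty (h3 : 3 ≤ L) {γ : SL(2, ℤ)} (h : (L : ℤ) ∣ γ 1 0) :
    ¬ (L : ℤ) ∣ γ 1 1 ∧ ¬ (L : ℤ) ∣ γ 1 1 - γ 1 0 := by
  have h11 : ¬ (L : ℤ) ∣ γ 1 1 := fun h' => by
    have hd := γ.det_coe
    rw [Matrix.det_fin_two] at hd
    have h1 : (L : ℤ) ∣ 1 := hd ▸ dvd_sub (h'.mul_left _) (h.mul_left _)
    have := Int.le_of_dvd one_pos h1
    omega
  exact ⟨h11, fun h' => h11 ((dvd_sub_left h).mp h')⟩

omit [NeZero L] in
theorem nonzeroMod_basis (h3 : 3 ≤ L) {x y : ℤ} (h : x = 1 ∨ y = 1) : NonzeroMod L (x, y) :=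
  fun ⟨h1, h2⟩ => by
    rcases h with rfl | rfl
    · have := Int.le_of_dvd one_pos h1; omega
    · have := Int.le_of_dvd one_pos h2; omega

/-- The constant term of a difference of division values. -/
theorem coe_diffSeries_zero (hR : HasRoots L R) (hL : (L : ℂ)⁻¹ ∈ R) (u w : ℤ × ℤ) :
    (((diffSeries hR hL u w).coeff 0 : R) : ℂ) =
      (if (L : ℤ) ∣ u.1 then koebe (zetaRoot L ^ u.2) else 0) -
        (if (L : ℤ) ∣ w.1 then koebe (zetaRoot L ^ w.2) else 0) := by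
  rw [show (0 : ℤ) = ((0 : ℕ) : ℤ) from rfl, coe_diffSeries_coeff, wpDiffCoeff, wpCoeff_zero,
    wpCoeff_zero]
  ring

/-- An indicator of the cusp `∞`: top coefficient `1` there and `0` at the other cusps. -/
theorem exists_indicator (hR : HasRoots L R) (hL : (L : ℂ)⁻¹ ∈ R) (h3 : 3 ≤ L) :
    ∃ (K : ℕ) (e : intFun L R), CuspBound e (-((K : ℤ) * L)) ∧
      (∀ γ, AtInfty L γ → expCoeff e γ (-((K : ℤ) * L)) = 1) ∧
      (∀ γ, ¬ AtInfty L γ → expCoeff e γ (-((K : ℤ) * L)) = 0) := by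
  classical
  have hu : NonzeroMod L (0, 1) := nonzeroMod_basis h3 (Or.inr rfl)
  have hw1 : NonzeroMod L (1, 0) := nonzeroMod_basis h3 (Or.inl rfl)
  have hw2 : NonzeroMod L (1, 1) := nonzeroMod_basis h3 (Or.inl rfl)
  set c : ℕ → R := fun d => ⟨koebe (zetaRoot L ^ (d : ℤ)), koebe_mem hR hL _⟩ with hc
  set g1 := formInt hR hL hu hw1
  set g2 := formInt hR hL hu hw2
  set S := (Finset.range L).filter fun d : ℕ =>
    Nat.Coprime d L ∧ ¬ (L : ℤ) ∣ (d : ℤ) - 1 ∧ ¬ (L : ℤ) ∣ (d : ℤ) + 1 with hS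
  set e0 := g1 * g2 * ∏ d ∈ S, (g1 - constHom L R (c d) * jInt L R) with he0
  have hg1 := cuspBound_formInt hR hL hu hw1
  have hg2 := cuspBound_formInt hR hL hu hw2
  have hfac : ∀ d ∈ S, CuspBound (g1 - constHom L R (c d) * jInt L R) (-(L : ℤ)) := fun d _ =>
    hg1.sub (cuspBound_jInt.const_mul _)
  have hb : CuspBound e0 (-(((2 + S.card : ℕ) : ℤ) * L)) := by
    convert (hg1.mul hg2).mul (CuspBound.prod hfac) using 1
    push_cast; ring
  have htop : ∀ γ, expCoeff e0 γ (-(((2 + S.card : ℕ) : ℤ) * L)) =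
      expCoeff g1 γ (-(L : ℤ)) * expCoeff g2 γ (-(L : ℤ)) *
        ∏ d ∈ S, (expCoeff g1 γ (-(L : ℤ)) - c d) := by
    intro γ
    rw [show -(((2 + S.card : ℕ) : ℤ) * L) = (-(L : ℤ) + -(L : ℤ)) + (S.card : ℤ) * -(L : ℤ) by
      push_cast; ring, he0, expCoeff_mul (hg1.mul hg2) (CuspBound.prod hfac),
      expCoeff_mul hg1 hg2, expCoeff_prod hfac]
    congr 1
    refine Finset.prod_congr rfl fun d _ => ?_
    rw [expCoeff_sub, expCoeff_const_mul, expCoeff_jInt, mul_one]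
  have hD : ∀ {u w : ℤ × ℤ} (hu : NonzeroMod L u) (hw : NonzeroMod L w) (γ : SL(2, ℤ)),
      expCoeff (formInt hR hL hu hw) γ (-(L : ℤ)) =
        (diffSeries hR hL (vecMulSL u γ⁻¹) (vecMulSL w γ⁻¹)).coeff 0 := fun hu hw γ => by
    simpa using expCoeff_formInt hR hL hu hw γ (i := 0) (by omega)
  -- the values at the cusps
  have hval : ∀ γ : SL(2, ℤ), (L : ℤ) ∣ γ 1 0 →
      (expCoeff g1 γ (-(L : ℤ)) : ℂ) = koebe (zetaRoot L ^ (γ 0 0)) ∧
      (expCoeff g2 γ (-(L : ℤ)) : ℂ) = koebe (zetaRoot L ^ (γ 0 0)) := by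
    intro γ hγ
    obtain ⟨n1, n2⟩ := not_dvd_of_atInfty h3 hγ
    constructor <;>
    · rw [hD, coe_diffSeries_zero]
      simp only [vecMulSL, Matrix.SpecialLinearGroup.SL2_inv_expl, Matrix.cons_val',
        Matrix.cons_val_zero, Matrix.cons_val_one, Matrix.cons_val_fin_one,
        zero_mul, one_mul, zero_add, add_zero]
      rw [if_pos (dvd_neg.mpr hγ), if_neg (by first | exact n1 | simpa [sub_eq_add_neg] using n2),
        sub_zero]
  set N0 : ℂ := koebe (zetaRoot L ^ (1 : ℤ)) * koebe (zetaRoot L ^ (1 : ℤ)) *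
    ∏ d ∈ S, (koebe (zetaRoot L ^ (1 : ℤ)) - koebe (zetaRoot L ^ (d : ℤ))) with hN0
  have h1L : ¬ (L : ℤ) ∣ (1 : ℤ) := fun h => by have := Int.le_of_dvd one_pos h; omega
  have hκ : IsUnitIn R (koebe (zetaRoot L ^ (1 : ℤ))) :=
    (isUnitIn_zetaRoot hR 1).div ((isUnitIn_one_sub_zetaRoot hR hL h1L).pow 2)
  have hprod : IsUnitIn R (∏ d ∈ S, (koebe (zetaRoot L ^ (1 : ℤ)) - koebe (zetaRoot L ^ (d : ℤ)))) := by
    refine Finset.prod_induction _ (IsUnitIn R) (fun a b ha hb => ha.mul hb)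
      ⟨one_ne_zero, one_mem R, by rw [inv_one]; exact one_mem R⟩ fun d hd => ?_
    simp only [hS, Finset.mem_filter, Finset.mem_range] at hd
    obtain ⟨hdL, hcop, hm1, hp1⟩ := hd
    have hd0 : NonzeroMod L (0, (d : ℤ)) := fun h => by
      have : d = 0 := Nat.eq_zero_of_dvd_of_lt (Int.natCast_dvd_natCast.mp h.2) hdL
      subst this
      rw [Nat.coprime_zero_left] at hcop
      omega
    obtain ⟨m, hm, -, hunit⟩ := exists_lead hR hL hu hd0 (by
      rintro (⟨-, h⟩ | ⟨-, h⟩)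
      · exact hm1 (dvd_sub_comm.mp h)
      · exact hp1 (by rwa [add_comm] at h))
    have hm0 : m = 0 := by simp [hm, vecHeight]
    rw [hm0, wpDiffCoeff, wpCoeff_zero, wpCoeff_zero, if_pos (dvd_zero _), if_pos (dvd_zero _),
      add_sub_add_left_eq_sub] at hunit
    exact hunit
  have hN : IsUnitIn R N0 := (hκ.mul hκ).mul hprod
  refine ⟨2 + S.card, constHom L R ⟨N0⁻¹, hN.2.2⟩ * e0, hb.const_mul _, fun γ hγ => ?_, fun γ hγ => ?_⟩
  · obtain ⟨v1, v2⟩ := hval γ hγ.1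
    have hκ' : koebe (zetaRoot L ^ (γ 0 0)) = koebe (zetaRoot L ^ (1 : ℤ)) := by
      rcases hγ.2 with h | h
      · rw [zetaRoot_zpow_congr L h]
      · rw [zetaRoot_zpow_congr L (b := -1) (by simpa using h), zpow_neg,
          koebe_inv (zetaRoot_ne_zero L 1)]
    refine Subtype.ext ?_
    rw [expCoeff_const_mul, Subring.coe_mul, htop, Subring.coe_mul, Subring.coe_mul, v1, v2, hκ']
    push_cast
    simp only [v1, hκ', hc]
    rw [← hN0, inv_mul_cancel₀ hN.1]
  · refine Subtype.ext ?_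
    rw [expCoeff_const_mul, Subring.coe_mul, htop, Subring.coe_zero]
    refine mul_eq_zero_of_right _ ?_
    by_cases hdvd : (L : ℤ) ∣ γ 1 0
    · obtain ⟨v1, -⟩ := hval γ hdvd
      have hnot : ¬ ((L : ℤ) ∣ γ 0 0 - 1 ∨ (L : ℤ) ∣ γ 0 0 + 1) := fun h => hγ ⟨hdvd, h⟩
      have hd := γ.det_coe
      rw [Matrix.det_fin_two] at hd
      have hLpos : (0 : ℤ) < L := Int.natCast_pos.mpr (NeZero.pos L)
      obtain ⟨d, hd'⟩ := Int.eq_ofNat_of_zero_le (Int.emod_nonneg (γ 0 0) hLpos.ne')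
      have hdL : d < L := by have := Int.emod_lt_of_pos (γ 0 0) hLpos; omega
      have hcong : (L : ℤ) ∣ γ 0 0 - d := by rw [← hd']; exact Int.dvd_self_sub_emod
      have hdS : d ∈ S := by
        simp only [hS, Finset.mem_filter, Finset.mem_range]
        refine ⟨hdL, ?_, fun h => hnot (Or.inl (intDvd_congr (dvd_add hcong h) (by ring))),
          fun h => hnot (Or.inr (intDvd_congr (dvd_add hcong h) (by ring)))⟩
        obtain ⟨x, hx⟩ := dvd_sub (hcong.mul_right (γ 1 1)) (hdvd.mul_left (γ 0 1))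
        have : IsCoprime (d : ℤ) (L : ℤ) := ⟨γ 1 1, x, by linear_combination hd - hx⟩
        exact Nat.isCoprime_iff_coprime.mp this
      rw [Subring.coe_mul, SubmonoidClass.coe_finsetProd]
      refine mul_eq_zero_of_right _ (Finset.prod_eq_zero hdS ?_)
      rw [AddSubgroupClass.coe_sub, v1, hc, zetaRoot_zpow_congr L hcong, sub_self]
    · rw [Subring.coe_mul, Subring.coe_mul]
      refine mul_eq_zero_of_left ?_ _
      rw [hD, hD, coe_diffSeries_zero, coe_diffSeries_zero]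
      simp only [vecMulSL, Matrix.SpecialLinearGroup.SL2_inv_expl, Matrix.cons_val',
        Matrix.cons_val_zero, Matrix.cons_val_one, Matrix.cons_val_fin_one,
        zero_mul, one_mul, zero_add, add_zero]
      rw [if_neg (fun h => hdvd (dvd_neg.mp h))]
      by_cases h11 : (L : ℤ) ∣ γ 1 1
      · refine mul_eq_zero_of_right _ ?_
        rw [if_neg fun h => hdvd ((dvd_add_right h11).mp h |> dvd_neg.mp), sub_zero]
      · refine mul_eq_zero_of_left ?_ _
        rw [if_neg h11, sub_zero]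

/-- A function with exact pole order `s` at `∞` and smaller order at the other cusps. -/
theorem exists_exact_pole (hR : HasRoots L R) (hL : (L : ℂ)⁻¹ ∈ R) (h3 : 3 ≤ L) :
    ∃ n₀ : ℕ, ∀ s : ℕ, n₀ * L < s → ∃ x : intFun L R, CuspBound x (-(s : ℤ)) ∧
      (∀ γ, AtInfty L γ → IsUnit (expCoeff x γ (-(s : ℤ)))) ∧
      (∀ γ, ¬ AtInfty L γ → expCoeff x γ (-(s : ℤ)) = 0) := by
  obtain ⟨K, e, heb, he1, he0⟩ := exists_indicator hR hL h3
  refine ⟨K * L + L, fun s hs => ?_⟩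
  have hu : NonzeroMod L (1, 0) := nonzeroMod_basis h3 (Or.inl rfl)
  have hw : NonzeroMod L (1, 1) := nonzeroMod_basis h3 (Or.inl rfl)
  have hne : ¬ PMEq L ((1 : ℤ), 0) (1, 1) := by
    rintro (⟨-, h⟩ | ⟨-, h⟩)
    · have := Int.le_of_dvd one_pos (dvd_neg.mp (by simpa using h)); omega
    · have := Int.le_of_dvd one_pos (by simpa using h); omega
  set d1 := formInt hR hL hu hw
  have hLp : 0 < L := NeZero.pos L
  obtain ⟨W, i, hiL, hsi⟩ : ∃ W i : ℕ, i < L ∧ s + i = W * L := by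
    by_cases h0 : s % L = 0
    · exact ⟨s / L, 0, hLp, by rw [add_zero, Nat.div_mul_cancel (Nat.dvd_of_mod_eq_zero h0)]⟩
    · refine ⟨s / L + 1, L - s % L, Nat.sub_lt hLp (Nat.pos_of_ne_zero h0), ?_⟩
      have := Nat.div_add_mod' s L
      have := Nat.mod_lt s hLp
      rw [add_mul, one_mul]
      omega
  obtain ⟨r, hr⟩ : ∃ r : ℕ, W = r + L * K + i := by
    have h1 : (K * L + L) * L < W * L := by omega
    have h2 := Nat.lt_of_mul_lt_mul_right h1
    exact ⟨W - L * K - i, by rw [mul_comm K L] at h2; omega⟩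
  have hd1 := cuspBound_formInt hR hL hu hw
  set x := jInt L R ^ r * e ^ L * d1 ^ i with hx
  have hxb : CuspBound x (-((W : ℤ) * L)) := by
    convert ((cuspBound_jInt.pow r).mul (heb.pow L)).mul (hd1.pow i) using 1
    rw [hr]; push_cast; ring
  have hsW : -(s : ℤ) = -((W : ℤ) * L) + i := by
    have : (s : ℤ) + i = (W : ℤ) * L := by exact_mod_cast hsi
    linarith
  have hbd : ∀ (y : intFun L R) (t : ℤ) (n : ℕ) (γ : SL(2, ℤ)),
      (∀ j < t, expCoeff y γ j = 0) →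
      (∀ j < (n : ℤ) * t, expCoeff (y ^ n) γ j = 0) ∧
        expCoeff (y ^ n) γ ((n : ℤ) * t) = expCoeff y γ t ^ n := by
    intro y t n γ hy
    induction n with
    | zero =>
      refine ⟨fun j hj => ?_, by simpa using expCoeff_constHom (L := L) (1 : R) γ⟩
      rw [pow_zero]
      exact cuspBound_one γ j (by simpa using hj)
    | succ n ih =>
      have h := coeff_mul_of_bound (x := intExp L R (γ • y ^ n)) (y := intExp L R (γ • y)) ih.1 hy
      rw [pow_succ, show ((n + 1 : ℕ) : ℤ) * t = (n : ℤ) * t + t by push_cast; ring]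
      simp only [expCoeff, smul_mul', map_mul]
      exact ⟨h.1, h.2.trans (by rw [pow_succ]; exact congrArg₂ (· * ·) ih.2 rfl)⟩
  have hprod : ∀ (γ : SL(2, ℤ)) (a b c : ℤ),
      (∀ j < a, expCoeff (jInt L R ^ r) γ j = 0) → (∀ j < b, expCoeff (e ^ L) γ j = 0) →
      (∀ j < c, expCoeff (d1 ^ i) γ j = 0) →
      (∀ j < a + b + c, expCoeff x γ j = 0) ∧ expCoeff x γ (a + b + c) =
        expCoeff (jInt L R ^ r) γ a * expCoeff (e ^ L) γ b * expCoeff (d1 ^ i) γ c := by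
    intro γ a b c ha hb hc
    have h1 := coeff_mul_of_bound (x := intExp L R (γ • jInt L R ^ r))
      (y := intExp L R (γ • e ^ L)) ha hb
    have h2 := coeff_mul_of_bound h1.1 (y := intExp L R (γ • d1 ^ i)) hc
    simp only [expCoeff, hx, smul_mul', map_mul]
    exact ⟨h2.1, h2.2.trans (congrArg₂ (· * ·) h1.2 rfl)⟩
  have hjr := fun γ => hbd (jInt L R) (-(L : ℤ)) r γ (cuspBound_jInt γ)
  have key1 : ∀ γ, AtInfty L γ → (∀ j < -(s : ℤ), expCoeff x γ j = 0) ∧
      IsUnit (expCoeff x γ (-(s : ℤ))) := by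
    intro γ hγ
    have hE := hbd e (-((K : ℤ) * L)) L γ (heb γ)
    obtain ⟨n1, n2⟩ := not_dvd_of_atInfty h3 hγ.1
    have hvu := nonzeroMod_vecMulSL hu γ⁻¹
    have hvw := nonzeroMod_vecMulSL hw γ⁻¹
    have hlead := leadAt_diffSeries hR hL hvu hvw (not_pmEq_vecMulSL hne γ⁻¹)
    have hmin : min (vecHeight L (vecMulSL (1, 0) γ⁻¹)) (vecHeight L (vecMulSL (1, 1) γ⁻¹)) = 1 := by
      have hd := γ.det_coe
      rw [Matrix.det_fin_two] at hd
      have key : ∀ z : ℤ, ((L : ℤ) ∣ z - 1 ∨ (L : ℤ) ∣ z + 1) →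
          ∀ y : ℤ, vecHeight L (z, y) = 1 := by
        intro z hz y
        have hz' : z % (L : ℤ) = 1 ∨ z % (L : ℤ) = (L : ℤ) - 1 := by
          rcases hz with h | h
          · left
            rw [Int.emod_eq_emod_iff_emod_sub_eq_zero.mpr (Int.emod_eq_zero_of_dvd h),
              Int.emod_eq_of_lt (by omega) (by omega)]
          · right
            have h' : (L : ℤ) ∣ z - ((L : ℤ) - 1) :=
              intDvd_congr (dvd_sub h (dvd_refl (L : ℤ))) (by ring)
            rw [Int.emod_eq_emod_iff_emod_sub_eq_zero.mpr (Int.emod_eq_zero_of_dvd h'),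
              Int.emod_eq_of_lt (by omega) (by omega)]
        rw [vecHeight]
        rcases hz' with h | h <;> rw [h] <;> omega
      have h11 : (L : ℤ) ∣ γ 1 1 - 1 ∨ (L : ℤ) ∣ γ 1 1 + 1 := by
        rcases hγ.2 with h | h
        · exact Or.inl (intDvd_congr (dvd_sub (hγ.1.mul_left (γ 0 1)) (h.mul_right (γ 1 1)))
            (by linear_combination hd))
        · exact Or.inr (intDvd_congr (dvd_sub (h.mul_right (γ 1 1)) (hγ.1.mul_left (γ 0 1)))
            (by linear_combination -hd))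
      simp only [vecMulSL, Matrix.SpecialLinearGroup.SL2_inv_expl, Matrix.cons_val',
        Matrix.cons_val_zero, Matrix.cons_val_one, Matrix.cons_val_fin_one,
        zero_mul, one_mul, add_zero]
      rw [key _ h11, key _ ?_, min_self]
      rcases h11 with h | h
      · exact Or.inl (intDvd_congr (dvd_sub h hγ.1) (by ring))
      · exact Or.inr (intDvd_congr (dvd_sub h hγ.1) (by ring))
    rw [hmin] at hlead
    have hD1 : ∀ j < -(L : ℤ) + 1, expCoeff d1 γ j = 0 := by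
      intro j hj
      rcases lt_or_eq_of_le (show j ≤ -(L : ℤ) by omega) with h | rfl
      · exact hd1 γ j h
      · have h0 := expCoeff_formInt hR hL hu hw γ (i := 0) (by omega)
        rw [Nat.cast_zero, add_zero] at h0
        rw [h0]
        exact hlead.1 0 (by simp)
    have hD1u : IsUnit (expCoeff d1 γ (-(L : ℤ) + 1)) := by
      have h1 := expCoeff_formInt hR hL hu hw γ (i := 1) (by omega)
      rw [Nat.cast_one] at h1
      rw [h1]
      exact hlead.2
    have hP := hprod γ _ _ _ (hjr γ).1 hE.1 (hbd d1 (-(L : ℤ) + 1) i γ hD1).1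
    rw [show (r : ℤ) * -(L : ℤ) + (L : ℤ) * -((K : ℤ) * L) + (i : ℤ) * (-(L : ℤ) + 1) = -(s : ℤ) by
      rw [hsW, hr]; push_cast; ring] at hP
    refine ⟨hP.1, ?_⟩
    rw [hP.2, (hjr γ).2, hE.2, (hbd d1 _ i γ hD1).2, expCoeff_jInt, he1 γ hγ, one_pow, one_pow,
      one_mul, one_mul]
    exact hD1u.pow i
  have key0 : ∀ γ, ¬ AtInfty L γ → ∀ j ≤ -(s : ℤ), expCoeff x γ j = 0 := by
    intro γ hγ j hj
    have he' : ∀ j < -((K : ℤ) * L) + 1, expCoeff e γ j = 0 := by
      intro j hj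
      rcases lt_or_eq_of_le (show j ≤ -((K : ℤ) * L) by omega) with h | rfl
      · exact heb γ j h
      · exact he0 γ hγ
    refine (hprod γ _ _ _ (hjr γ).1 (hbd e _ L γ he').1 (hbd d1 _ i γ (hd1 γ)).1).1 j ?_
    have hiL' : (i : ℤ) < L := by exact_mod_cast hiL
    have hrr : (W : ℤ) = r + L * K + i := by exact_mod_cast hr
    have e : (r : ℤ) * -(L : ℤ) + (L : ℤ) * (-((K : ℤ) * L) + 1) + (i : ℤ) * -(L : ℤ) =
        -(s : ℤ) + ((L : ℤ) - i) := by
      rw [hsW, hrr]; ring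
    omega
  refine ⟨x, fun γ m hm => ?_, fun γ hγ => (key1 γ hγ).2, fun γ hγ => key0 γ hγ _ le_rfl⟩
  by_cases hγ : AtInfty L γ
  · exact (key1 γ hγ).1 m hm
  · exact key0 γ hγ m hm.le

end FermatAgent.Igusa

end
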