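import Fermat.Prelude.Def_AlgebraicCurve_Repartitions
import Mathlib.FieldTheory.IntermediateField.Adjoin.Defs
import Mathlib.LinearAlgebra.Dimension.Finrank
import Mathlib.RingTheory.Algebraic.Defs

/-!
# Models of a covering of the line with reduction

`ModelData A π F Fb`: a subring of integers of `F` with reduction to `Fb`, extending the Gauss
valuation of `K(t)`, without loss of degree, such that functions of `Fb` with sufficiently large
bound on the poles above `t = ∞` lift to integral functions with the same bound. Genus equality
and the reduction of places are derived from this.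
-/

set_option autoImplicit false

noncomputable section

open AlgebraicCurve

namespace FermatAgent.Igusa

variable {K : Type*} [Field K] {F : Type*} [Field F] [Algebra K F]

/-- `f` is regular where `t` is, and `f / t ^ n` is regular elsewhere. -/
def BoundedPoles (K : Type*) {F : Type*} [Field K] [Field F] [Algebra K F] (t : F) (n : ℕ) (f : F) :
    Prop :=
  ∀ P : Place K F, (t ∈ P.toValuationSubring → f ∈ P.toValuationSubring) ∧
    (t ∉ P.toValuationSubring → f / t ^ n ∈ P.toValuationSubring)

/-- Integers with reduction of a covering `F / K(t)` along `π : A →+* k`. -/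
structure ModelData (A : ValuationSubring K) {k : Type*} [Field k] (π : A →+* k)
    (F : Type*) [Field F] [Algebra K F] (Fb : Type*) [Field Fb] [Algebra k Fb] where
  residue_surjective : Function.Surjective π
  integers : Subring F
  red : integers →+* Fb
  algebraMap_mem : ∀ a : A, algebraMap K F (a : K) ∈ integers
  red_algebraMap : ∀ a : A, red ⟨algebraMap K F (a : K), algebraMap_mem a⟩ = algebraMap k Fb (π a)
  exists_normalize : ∀ f : F, f ≠ 0 → ∃ (c : K) (h : c • f ∈ integers), red ⟨c • f, h⟩ ≠ 0
  t : integers
  transcendental : Transcendental k (red t)
  finrank_eq : Module.finrank (IntermediateField.adjoin k {red t}) Fb =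
    Module.finrank (IntermediateField.adjoin K {(t : F)}) F
  exists_lift : ∃ n₀ : ℕ, ∀ (n : ℕ) (fb : Fb), n₀ ≤ n → BoundedPoles k (red t) n fb →
    ∃ f : integers, BoundedPoles K (t : F) n (f : F) ∧ red f = fb

end FermatAgent.Igusa

end
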