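import Fermat.Agent.Igusa.Fibre.CuspOps

/-!
# Leading terms of ratios of division values
-/

set_option autoImplicit false

noncomputable section

open UpperHalfPlane hiding I
open Complex Filter Function
open scoped Real Topology MatrixGroups Manifold ModularForm

namespace FermatAgent.Igusa

open FermatAgent.ModFun ModularCurve

variable {L : ℕ} [NeZero L] {R : Subring ℂ}

/-- The series has order `m` and unit leading coefficient. -/
def LeadAt {A : Type*} [CommRing A] (x : LaurentSeries A) (m : ℤ) : Prop :=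
  (∀ i < m, x.coeff i = 0) ∧ IsUnit (x.coeff m)

theorem LeadAt.order_eq {A : Type*} [CommRing A] [IsDomain A] {x : LaurentSeries A} {m : ℤ}
    (h : LeadAt x m) : x ≠ 0 ∧ x.order = m :=
  ⟨fun h0 => h.2.ne_zero (by simp [h0]), order_eq_of_coeff h.2.ne_zero h.1⟩

theorem LeadAt.of_mul_eq {A : Type*} [CommRing A] [IsDomain A] {x y z : LaurentSeries A} {m n : ℤ}
    (hy : LeadAt y n) (hz : LeadAt z m) (h : x * y = z) : LeadAt x (m - n) := by
  obtain ⟨hy0, hyo⟩ := hy.order_eq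
  obtain ⟨hz0, hzo⟩ := hz.order_eq
  have hx0 : x ≠ 0 := left_ne_zero_of_mul (h ▸ hz0)
  have ho : x.order = m - n := by
    have := HahnSeries.order_mul hx0 hy0
    rw [h, hzo, hyo] at this
    omega
  have hxb : ∀ i < m - n, x.coeff i = 0 := fun i hi =>
    HahnSeries.coeff_eq_zero_of_lt_order (ho ▸ hi)
  refine ⟨hxb, ?_⟩
  have := (coeff_mul_of_bound hxb hy.1).2
  rw [h, sub_add_cancel] at this
  exact isUnit_of_mul_isUnit_left (this ▸ hz.2)

/-- The expansion of a difference of division values with coefficients in `R`. -/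
def diffSeries (hR : HasRoots L R) (hL : (L : ℂ)⁻¹ ∈ R) (u w : ℤ × ℤ) : LaurentSeries R :=
  HahnSeries.ofPowerSeries ℤ R (PowerSeries.mk fun n => ⟨_, wpDiffCoeff_mem hR hL u w n⟩)

theorem coeffMap_diffSeries (hR : HasRoots L R) (hL : (L : ℂ)⁻¹ ∈ R) {u w : ℤ × ℤ}
    (hu : NonzeroMod L u) (hw : NonzeroMod L w) :
    coeffMap R.subtype (diffSeries hR hL u w) = qExp L (wpDiff L u w) := by
  rw [qExp_wpDiff hu hw, diffSeries, coeffMap_ofPowerSeries]
  congr 1

theorem coe_diffSeries_coeff (hR : HasRoots L R) (hL : (L : ℂ)⁻¹ ∈ R) (u w : ℤ × ℤ) (n : ℕ) :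
    (((diffSeries hR hL u w).coeff (n : ℤ) : R) : ℂ) = wpDiffCoeff L u w n := by
  rw [diffSeries, HahnSeries.ofPowerSeries_apply_coeff, PowerSeries.coeff_mk]

theorem diffSeries_coeff_neg (hR : HasRoots L R) (hL : (L : ℂ)⁻¹ ∈ R) (u w : ℤ × ℤ) {m : ℤ}
    (hm : m < 0) : (diffSeries hR hL u w).coeff m = 0 := by
  rw [diffSeries, PowerSeries.coeff_coe, if_pos hm]

theorem leadAt_diffSeries (hR : HasRoots L R) (hL : (L : ℂ)⁻¹ ∈ R) {u w : ℤ × ℤ}
    (hu : NonzeroMod L u) (hw : NonzeroMod L w) (h : ¬ PMEq L u w) :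
    LeadAt (diffSeries hR hL u w) ((min (vecHeight L u) (vecHeight L w) : ℕ) : ℤ) := by
  obtain ⟨m, rfl, hlt, hm⟩ := exists_lead hR hL hu hw h
  refine ⟨fun i hi => ?_, ?_⟩
  · rcases lt_or_ge i 0 with h0 | h0
    · exact diffSeries_coeff_neg hR hL u w h0
    · obtain ⟨n, rfl⟩ := Int.eq_ofNat_of_zero_le h0
      exact Subtype.ext (by rw [coe_diffSeries_coeff]; exact hlt n (by omega))
  · convert hm.isUnit_mk using 1
    exact Subtype.ext (coe_diffSeries_coeff hR hL u w _)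

theorem intExp_ratioInt_mul (hR : HasRoots L R) (hL : (L : ℂ)⁻¹ ∈ R) {v a b : ℤ × ℤ}
    (h : RatioIdx L v a b) :
    intExp L R (ratioInt hR hL h) * diffSeries hR hL b a = diffSeries hR hL v a := by
  apply coeffMap_injective R.subtype_injective
  rw [map_mul, coeffMap_intExp, coeffMap_diffSeries hR hL h.hb h.ha,
    coeffMap_diffSeries hR hL h.hv h.ha]
  have h1 := ((mem_expSubring L R).mp
    (intFun_le_expSubring L R (ratioInt hR hL h).2)).1
  have h2 := ((mem_expSubring L R).mp (wpDiff_mem_expSubring hR hL h.hb h.ha)).1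
  have h3 := ((mem_expSubring L R).mp (wpDiff_mem_expSubring hR hL h.hv h.ha)).1
  rw [← qExpHom_apply L ⟨_, h1⟩, ← qExpHom_apply L ⟨_, h2⟩, ← qExpHom_apply L ⟨_, h3⟩, ← map_mul]
  congr 1
  refine Subtype.ext (funext fun τ => ?_)
  show wpRatio L v a b τ * wpDiff L b a τ = wpDiff L v a τ
  rw [wpRatio, div_mul_cancel₀ _ (wpDiff_ne_zero h.hb h.ha h.hba τ)]

theorem leadAt_intExp_ratioInt (hR : HasRoots L R) (hL : (L : ℂ)⁻¹ ∈ R) {v a b : ℤ × ℤ}
    (h : RatioIdx L v a b) :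
    LeadAt (intExp L R (ratioInt hR hL h))
      (((min (vecHeight L v) (vecHeight L a) : ℕ) : ℤ) -
        ((min (vecHeight L b) (vecHeight L a) : ℕ) : ℤ)) :=
  (leadAt_diffSeries hR hL h.hb h.ha h.hba).of_mul_eq (leadAt_diffSeries hR hL h.hv h.ha h.hva)
    (intExp_ratioInt_mul hR hL h)

end FermatAgent.Igusa

end
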