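import Mathlib.Analysis.Calculus.IteratedDeriv.Lemmas
import Mathlib.Analysis.Analytic.Uniqueness
import Fermat.Agent.Igusa.Fibre.Wp

/-!
# Symmetries and injectivity of the division values of `℘`
-/

set_option autoImplicit false

noncomputable section

open Complex Filter Topology
open scoped Real UpperHalfPlane MatrixGroups

namespace FermatAgent.Igusa

/-! ### Classes modulo `L` -/

theorem divPoint_congr {L : ℕ} (hL : 0 < L) {v w : ℤ × ℤ} (h1 : (L : ℤ) ∣ v.1 - w.1)
    (h2 : (L : ℤ) ∣ v.2 - w.2) (τ : ℍ) :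
    ∃ l : (pairTau τ).lattice, divPoint L v τ = divPoint L w τ + (l : ℂ) := by
  obtain ⟨m, hm⟩ := h1
  obtain ⟨n, hn⟩ := h2
  refine ⟨⟨(m : ℂ) * τ + n, mem_pairTau_lattice.mpr ⟨m, n, rfl⟩⟩, ?_⟩
  have e1 : (v.1 : ℂ) = w.1 + L * m := by exact_mod_cast (by omega : v.1 = w.1 + L * m)
  have e2 : (v.2 : ℂ) = w.2 + L * n := by exact_mod_cast (by omega : v.2 = w.2 + L * n)
  have hL' : (L : ℂ) ≠ 0 := Nat.cast_ne_zero.mpr hL.ne'
  simp only [divPoint, e1, e2]
  field_simp
  ring

theorem pDiv_congr {L : ℕ} (hL : 0 < L) {v w : ℤ × ℤ} (h1 : (L : ℤ) ∣ v.1 - w.1)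
    (h2 : (L : ℤ) ∣ v.2 - w.2) (τ : ℍ) : pDiv L v τ = pDiv L w τ := by
  obtain ⟨l, hl⟩ := divPoint_congr hL h1 h2 τ
  rw [pDiv, pDiv, hl, PeriodPair.weierstrassP_add_coe]

theorem pDiv_neg (L : ℕ) (v : ℤ × ℤ) (τ : ℍ) : pDiv L (-v) τ = pDiv L v τ := by
  rw [pDiv, pDiv, ← PeriodPair.weierstrassP_neg]
  congr 2
  simp [divPoint, Prod.fst_neg, Prod.snd_neg]
  ring

theorem divPoint_mem_lattice_iff {L : ℕ} (hL : 0 < L) (v : ℤ × ℤ) (τ : ℍ) :
    divPoint L v τ ∈ (pairTau τ).lattice ↔ (L : ℤ) ∣ v.1 ∧ (L : ℤ) ∣ v.2 := by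
  have hL' : (L : ℂ) ≠ 0 := Nat.cast_ne_zero.mpr hL.ne'
  rw [mem_pairTau_lattice]
  constructor
  · rintro ⟨m, n, h⟩
    rw [divPoint, eq_div_iff hL'] at h
    have hi := congrArg Complex.im h
    have hr := congrArg Complex.re h
    simp at hi hr
    have e1 : ((v.1 : ℝ)) = ((m * L : ℤ) : ℝ) := by
      apply mul_right_cancel₀ τ.im_ne_zero
      push_cast
      linarith
    have e2 : ((v.2 : ℝ)) = ((n * L : ℤ) : ℝ) := by
      push_cast at e1 ⊢
      rw [e1] at hr
      linarith
    exact ⟨⟨m, by rw [mul_comm]; exact_mod_cast e1⟩, ⟨n, by rw [mul_comm]; exact_mod_cast e2⟩⟩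
  · rintro ⟨⟨m, hm⟩, ⟨n, hn⟩⟩
    refine ⟨m, n, ?_⟩
    simp only [divPoint, hm, hn, Int.cast_mul, Int.cast_natCast]
    field_simp

theorem divPoint_sub (L : ℕ) (v w : ℤ × ℤ) (τ : ℍ) :
    divPoint L (v - w) τ = divPoint L v τ - divPoint L w τ := by
  simp [divPoint, Prod.fst_sub, Prod.snd_sub]
  ring

theorem divPoint_add (L : ℕ) (v w : ℤ × ℤ) (τ : ℍ) :
    divPoint L (v + w) τ = divPoint L v τ + divPoint L w τ := by
  simp [divPoint, Prod.fst_add, Prod.snd_add]
  ring

/-! ### Injectivity of `℘` up to sign -/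

/-- The differential equation `℘'' = 6℘² - g₂/2` off the lattice. -/
theorem deriv_derivWeierstrassP (P : PeriodPair) {z : ℂ} (hz : z ∉ P.lattice) :
    deriv P.derivWeierstrassP z = 6 * P.weierstrassP z ^ 2 - P.g₂ / 2 := by
  have hU : IsOpen (P.lattice : Set ℂ)ᶜ := P.isClosed_lattice.isOpen_compl
  have hp := P.analyticOnNhd_weierstrassP
  have hq := P.analyticOnNhd_derivWeierstrassP
  have key : ∀ᶠ y in 𝓝 z,
      P.derivWeierstrassP y * (deriv P.derivWeierstrassP y
        - (6 * P.weierstrassP y ^ 2 - P.g₂ / 2)) = 0 := by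
    filter_upwards [hU.mem_nhds hz] with y hy
    have h1 : HasDerivAt (fun w => P.derivWeierstrassP w ^ 2)
        (2 * P.derivWeierstrassP y * deriv P.derivWeierstrassP y) y := by
      simpa using (hq y hy).differentiableAt.hasDerivAt.fun_pow 2
    have h2 : HasDerivAt (fun w => 4 * P.weierstrassP w ^ 3 - P.g₂ * P.weierstrassP w - P.g₃)
        ((12 * P.weierstrassP y ^ 2 - P.g₂) * P.derivWeierstrassP y) y := by
      have h := (hp y hy).differentiableAt.hasDerivAt
      rw [P.deriv_weierstrassP] at h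
      refine ((((h.fun_pow 3).const_mul 4).sub (h.const_mul P.g₂)).sub_const P.g₃).congr_deriv ?_
      push_cast
      ring
    have he : (fun w => P.derivWeierstrassP w ^ 2) =ᶠ[𝓝 y]
        fun w => 4 * P.weierstrassP w ^ 3 - P.g₂ * P.weierstrassP w - P.g₃ := by
      filter_upwards [hU.mem_nhds hy] with w hw using P.derivWeierstrassP_sq w hw
    have := h1.unique (h2.congr_of_eventuallyEq he)
    linear_combination this / 2
  by_cases h0 : deriv P.derivWeierstrassP z - (6 * P.weierstrassP z ^ 2 - P.g₂ / 2) = 0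
  · exact sub_eq_zero.mp h0
  exfalso
  have hc : ContinuousAt (fun y => deriv P.derivWeierstrassP y
      - (6 * P.weierstrassP y ^ 2 - P.g₂ / 2)) z :=
    (hq z hz).deriv.continuousAt.sub
      (((hp z hz).continuousAt.pow 2 |>.const_mul 6).sub continuousAt_const)
  have hzero : P.derivWeierstrassP =ᶠ[𝓝 z] fun _ => 0 := by
    filter_upwards [hc.eventually_ne h0, key] with y hy hk
    exact (mul_eq_zero.mp hk).resolve_right hy
  have hd : ∀ᶠ y in 𝓝 z, deriv P.derivWeierstrassP y = 0 := by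
    filter_upwards [hzero.eventuallyEq_nhds] with y hy
    rw [hy.deriv_eq, deriv_const]
  -- then `℘` is constant near `z`, hence everywhere off the lattice
  have hconst : P.weierstrassP =ᶠ[𝓝 z] fun _ => P.weierstrassP z := by
    obtain ⟨r, hr, hball⟩ := Metric.eventually_nhds_iff.mp (hzero.and (hU.mem_nhds hz))
    refine Metric.eventually_nhds_iff.mpr ⟨r, hr, fun y hy => ?_⟩
    refine (Metric.isOpen_ball (x := z) (ε := r)).is_const_of_deriv_eq_zero
      (convex_ball z r).isPreconnected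
      (fun w hw => (hp w (hball hw).2).differentiableAt.differentiableWithinAt) (fun w hw => ?_)
      hy (Metric.mem_ball_self hr)
    rw [P.deriv_weierstrassP]
    exact (hball hw).1
  have hcount : (P.lattice : Set ℂ).Countable :=
    countable_of_Lindelof_of_discrete (X := P.lattice) |> Set.countable_coe_iff.1
  have heq := hp.eqOn_of_preconnected_of_eventuallyEq analyticOnNhd_const
    (Set.Countable.isConnected_compl_of_one_lt_rank (by simp) hcount).isPreconnected hz hconst
  have h0l : (0 : ℂ) ∈ P.lattice := zero_mem _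
  have hcongr : P.weierstrassP =ᶠ[𝓝[≠] (0 : ℂ)] fun _ => P.weierstrassP z := by
    filter_upwards [self_mem_nhdsWithin,
      mem_nhdsWithin_of_mem_nhds (P.compl_lattice_sdiff_singleton_mem_nhds 0)] with w hw h1
    apply heq
    simp_all
  have hord := P.order_weierstrassP 0 h0l
  rw [meromorphicOrderAt_congr hcongr] at hord
  have := (analyticAt_const : AnalyticAt ℂ (fun _ : ℂ => P.weierstrassP z) (0 : ℂ)).meromorphicOrderAt_nonneg
  rw [hord] at this
  exact absurd this (by decide)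

open Polynomial in
/-- The polynomials expressing the iterated derivatives of `℘` in `(℘, ℘')`. -/
theorem exists_iteratedDeriv_weierstrassP (P : PeriodPair) (n : ℕ) :
    ∃ A B : ℂ[X], ∀ z ∉ P.lattice, iteratedDeriv n P.weierstrassP z
      = A.eval (P.weierstrassP z) + B.eval (P.weierstrassP z) * P.derivWeierstrassP z := by
  induction n with
  | zero => exact ⟨X, 0, fun z _ => by simp⟩
  | succ n ih =>
    obtain ⟨A, B, h⟩ := ih
    refine ⟨(derivative B) * (4 * X ^ 3 - C P.g₂ * X - C P.g₃) + B * (6 * X ^ 2 - C (P.g₂ / 2)),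
      derivative A, fun z hz => ?_⟩
    have he : iteratedDeriv n P.weierstrassP =ᶠ[𝓝 z]
        fun w => A.eval (P.weierstrassP w) + B.eval (P.weierstrassP w) * P.derivWeierstrassP w := by
      filter_upwards [P.isClosed_lattice.isOpen_compl.mem_nhds hz] with w hw using h w hw
    have hw := (P.analyticOnNhd_weierstrassP z hz).differentiableAt.hasDerivAt
    rw [P.deriv_weierstrassP] at hw
    have hq := (P.analyticOnNhd_derivWeierstrassP z hz).differentiableAt.hasDerivAt
    rw [deriv_derivWeierstrassP P hz] at hq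
    have hA : HasDerivAt (fun w => A.eval (P.weierstrassP w))
        ((derivative A).eval (P.weierstrassP z) * P.derivWeierstrassP z) z :=
      (A.hasDerivAt (P.weierstrassP z)).comp z hw
    have hB : HasDerivAt (fun w => B.eval (P.weierstrassP w))
        ((derivative B).eval (P.weierstrassP z) * P.derivWeierstrassP z) z :=
      (B.hasDerivAt (P.weierstrassP z)).comp z hw
    rw [iteratedDeriv_succ, he.deriv_eq, (hA.fun_add (hB.fun_mul hq)).deriv]
    simp only [eval_add, eval_mul, eval_sub, eval_pow, eval_C, eval_X, eval_ofNat]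
    linear_combination (derivative B).eval (P.weierstrassP z) * P.derivWeierstrassP_sq z hz

/-- `℘` takes each value only at a pair `±z` modulo the lattice. -/
theorem weierstrassP_eq_iff (P : PeriodPair) {z w : ℂ} (hz : z ∉ P.lattice) (hw : w ∉ P.lattice) :
    P.weierstrassP z = P.weierstrassP w ↔ z - w ∈ P.lattice ∨ z + w ∈ P.lattice := by
  refine ⟨fun h => ?_, ?_⟩
  · wlog hsign : P.derivWeierstrassP z = P.derivWeierstrassP w generalizing w
    · have hsq : P.derivWeierstrassP z = -P.derivWeierstrassP w := by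
        have e : P.derivWeierstrassP z ^ 2 = P.derivWeierstrassP w ^ 2 := by
          rw [P.derivWeierstrassP_sq z hz, P.derivWeierstrassP_sq w hw, h]
        exact (sq_eq_sq_iff_eq_or_eq_neg.mp e).resolve_left hsign
      have := this (w := -w) (by simpa using hw) (by rw [P.weierstrassP_neg, h])
        (by rw [P.derivWeierstrassP_neg, hsq])
      simpa [sub_neg_eq_add, ← sub_eq_add_neg, or_comm] using this
    left
    by_contra hd
    set c := z - w with hc
    have ha : AnalyticAt ℂ P.weierstrassP w := P.analyticOnNhd_weierstrassP w hw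
    have hadd : AnalyticAt ℂ (fun y : ℂ => y + c) w := analyticAt_id.add analyticAt_const
    have hwz : w + c = z := by simp [hc]
    have hb : AnalyticAt ℂ (fun y => P.weierstrassP (y + c)) w :=
      AnalyticAt.comp (g := P.weierstrassP)
        (by simpa [hwz] using P.analyticOnNhd_weierstrassP z hz) hadd
    have heq : P.weierstrassP =ᶠ[𝓝 w] fun y => P.weierstrassP (y + c) := by
      obtain ⟨p, hp⟩ := ha
      obtain ⟨q, hq⟩ := hb
      have hder : ∀ n, iteratedDeriv n P.weierstrassP w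
          = iteratedDeriv n (fun y => P.weierstrassP (y + c)) w := fun n => by
        simp only [iteratedDeriv_comp_add_const, hwz]
        obtain ⟨A, B, hAB⟩ := exists_iteratedDeriv_weierstrassP P n
        rw [hAB w hw, hAB z hz, h, hsign]
      have h1 := hp.sub hq
      have hzero : ∀ n, iteratedDeriv n (P.weierstrassP - fun y => P.weierstrassP (y + c)) w = 0 :=
        fun n => by
          rw [iteratedDeriv_sub hp.analyticAt.contDiffAt hq.analyticAt.contDiffAt, hder, sub_self]
      have han := h1.analyticAt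
      have : analyticOrderAt (P.weierstrassP - fun y => P.weierstrassP (y + c)) w = ⊤ := by
        refine ENat.eq_top_iff_forall_ge.mpr fun n => ?_
        exact (natCast_le_analyticOrderAt_iff_iteratedDeriv_eq_zero han).mpr fun i _ => hzero i
      filter_upwards [analyticOrderAt_eq_top.mp this] with y hy
      exact sub_eq_zero.mp hy
    -- identity theorem off `Λ ∪ (Λ - c)`, and the pole at `0`
    have hcount : ((P.lattice : Set ℂ) ∪ (fun y => y - c) '' P.lattice).Countable := by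
      have := countable_of_Lindelof_of_discrete (X := P.lattice) |> Set.countable_coe_iff.1
      exact this.union (this.image _)
    set U : Set ℂ := ((P.lattice : Set ℂ) ∪ (fun y => y - c) '' P.lattice)ᶜ with hUdef
    have hU : ∀ y ∈ U, y ∉ P.lattice ∧ y + c ∉ P.lattice := fun y hy => by
      simp only [hUdef, Set.mem_compl_iff, Set.mem_union, not_or, Set.mem_image, SetLike.mem_coe,
        not_exists, not_and] at hy
      exact ⟨hy.1, fun h => hy.2 _ h (by ring)⟩
    have hwU : w ∈ U := by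
      simp only [hUdef, Set.mem_compl_iff, Set.mem_union, not_or, Set.mem_image, SetLike.mem_coe,
        not_exists, not_and]
      exact ⟨hw, fun y hy e => hz (by rwa [← hwz, ← e, sub_add_cancel])⟩
    have hE := AnalyticOnNhd.eqOn_of_preconnected_of_eventuallyEq
      (P.analyticOnNhd_weierstrassP.mono fun y hy => (hU y hy).1)
      (g := fun y => P.weierstrassP (y + c))
      (fun y hy => AnalyticAt.comp (g := P.weierstrassP)
        (P.analyticOnNhd_weierstrassP _ (hU y hy).2) (analyticAt_id.add analyticAt_const))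
      (Set.Countable.isConnected_compl_of_one_lt_rank (by simp) hcount).isPreconnected
      hwU heq
    have hcongr : P.weierstrassP =ᶠ[𝓝[≠] (0 : ℂ)] fun y => P.weierstrassP (y + c) := by
      have hcont : ∀ᶠ y in 𝓝 (0 : ℂ), y + c ∉ P.lattice := by
        have : Tendsto (fun y => y + c) (𝓝 0) (𝓝 c) := by
          simpa using (continuous_add_const c).tendsto (0 : ℂ)
        exact this.eventually (P.isClosed_lattice.isOpen_compl.mem_nhds hd)
      filter_upwards [self_mem_nhdsWithin, nhdsWithin_le_nhds hcont,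
        mem_nhdsWithin_of_mem_nhds (P.compl_lattice_sdiff_singleton_mem_nhds 0)] with y hy h1 h2
      refine hE ?_
      simp only [hUdef, Set.mem_compl_iff, Set.mem_union, not_or, Set.mem_image, SetLike.mem_coe,
        not_exists, not_and]
      refine ⟨fun hl => ?_, fun u hu e => h1 (by rwa [← e, sub_add_cancel])⟩
      simp_all
    have hord := P.order_weierstrassP 0 (zero_mem _)
    rw [meromorphicOrderAt_congr hcongr] at hord
    have han0 : AnalyticAt ℂ (fun y => P.weierstrassP (y + c)) 0 :=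
      AnalyticAt.comp (g := P.weierstrassP)
        (by simpa using P.analyticOnNhd_weierstrassP c hd) (analyticAt_id.add analyticAt_const)
    have := han0.meromorphicOrderAt_nonneg
    rw [hord] at this
    exact absurd this (by decide)
  · rintro (h | h)
    · simpa using P.weierstrassP_add_coe w ⟨z - w, h⟩
    · rw [← P.weierstrassP_neg w, ← P.weierstrassP_add_coe (-w) ⟨z + w, h⟩]
      simp

theorem pDiv_eq_iff {L : ℕ} (hL : 0 < L) {v w : ℤ × ℤ} (hv : NonzeroMod L v)
    (hw : NonzeroMod L w) (τ : ℍ) :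
    pDiv L v τ = pDiv L w τ ↔
      ((L : ℤ) ∣ (v - w).1 ∧ (L : ℤ) ∣ (v - w).2) ∨ ((L : ℤ) ∣ (v + w).1 ∧ (L : ℤ) ∣ (v + w).2) := by
  have hC : ((-2 * (π : ℂ) * I) ^ 2)⁻¹ ≠ 0 := by simp [Real.pi_ne_zero]
  rw [pDiv, pDiv, mul_right_inj' hC, weierstrassP_eq_iff _ (mt (divPoint_mem_lattice_iff hL v τ).mp hv)
    (mt (divPoint_mem_lattice_iff hL w τ).mp hw), ← divPoint_sub, ← divPoint_add,
    divPoint_mem_lattice_iff hL, divPoint_mem_lattice_iff hL]

/-! ### The action of `SL(2, ℤ)` -/

/-- The row vector `v γ`. -/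
def vecMulSL (v : ℤ × ℤ) (γ : SL(2, ℤ)) : ℤ × ℤ :=
  (v.1 * γ 0 0 + v.2 * γ 1 0, v.1 * γ 0 1 + v.2 * γ 1 1)

theorem vecMulSL_one (v : ℤ × ℤ) : vecMulSL v 1 = v := by simp [vecMulSL]

theorem vecMulSL_mul (v : ℤ × ℤ) (γ δ : SL(2, ℤ)) :
    vecMulSL v (γ * δ) = vecMulSL (vecMulSL v γ) δ := by
  simp only [vecMulSL, Matrix.SpecialLinearGroup.coe_mul, Matrix.mul_apply, Fin.sum_univ_two]
  ext <;> ring

theorem nonzeroMod_vecMulSL {L : ℕ} {v : ℤ × ℤ} (hv : NonzeroMod L v) (γ : SL(2, ℤ)) :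
    NonzeroMod L (vecMulSL v γ) := by
  intro h
  apply hv
  have h1 : v = vecMulSL (vecMulSL v γ) γ⁻¹ := by
    rw [← vecMulSL_mul, mul_inv_cancel, vecMulSL_one]
  have hd : ∀ w : ℤ × ℤ, (L : ℤ) ∣ w.1 → (L : ℤ) ∣ w.2 → ∀ δ : SL(2, ℤ),
      (L : ℤ) ∣ (vecMulSL w δ).1 ∧ (L : ℤ) ∣ (vecMulSL w δ).2 := fun w a b δ =>
    ⟨dvd_add (a.mul_right _) (b.mul_right _), dvd_add (a.mul_right _) (b.mul_right _)⟩
  rw [h1]
  exact hd _ h.1 h.2 γ⁻¹

theorem weierstrassP_homogeneous (P Q : PeriodPair) (e : ℤ × ℤ ≃ ℤ × ℤ) {c : ℂ}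
    (he : ∀ p, c * (P.latticeEquivProd.symm p : ℂ) = (Q.latticeEquivProd.symm (e p) : ℂ))
    (z : ℂ) : P.weierstrassP z = c ^ 2 * Q.weierstrassP (c * z) := by
  have hQ := Q.hasSum_weierstrassP (c * z)
  rw [← Q.latticeEquivProd.symm.toEquiv.hasSum_iff, ← e.hasSum_iff] at hQ
  have hP := P.hasSum_weierstrassP z
  rw [← P.latticeEquivProd.symm.toEquiv.hasSum_iff] at hP
  refine hP.unique ((hQ.mul_left (c ^ 2)).congr_fun fun p => ?_)
  simp only [Function.comp_apply, LinearEquiv.coe_toEquiv, ← he p]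
  rcases eq_or_ne c 0 with rfl | hc
  · exfalso
    have h := he (1, 0)
    rw [zero_mul] at h
    have h0 : Q.latticeEquivProd.symm (e (1, 0)) = Q.latticeEquivProd.symm (e (0, 0)) := by
      apply Subtype.ext
      rw [← h, ← he (0, 0), zero_mul]
    simpa using e.injective (Q.latticeEquivProd.symm.injective h0)
  · rw [← mul_sub, mul_pow, mul_pow]
    field_simp

theorem pDiv_smul (L : ℕ) (v : ℤ × ℤ) (γ : SL(2, ℤ)) (τ : ℍ) :
    pDiv L v (γ • τ) = ((γ 1 0 : ℂ) * τ + γ 1 1) ^ 2 * pDiv L (vecMulSL v γ) τ := by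
  set c : ℂ := (γ 1 0 : ℂ) * τ + γ 1 1 with hcdef
  have hc : c ≠ 0 := UpperHalfPlane.denom_ne_zero (γ : GL (Fin 2) ℝ) τ
  have hτ : ((γ • τ : ℍ) : ℂ) = ((γ 0 0 : ℂ) * τ + γ 0 1) / c := by
    rw [UpperHalfPlane.coe_specialLinearGroup_apply]
    simp [hcdef]
  let e : ℤ × ℤ ≃ ℤ × ℤ :=
    { toFun := fun p => vecMulSL p γ
      invFun := fun p => vecMulSL p γ⁻¹
      left_inv := fun p => by simp [← vecMulSL_mul, vecMulSL_one]
      right_inv := fun p => by simp [← vecMulSL_mul, vecMulSL_one] }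
  have he : ∀ p, c * ((pairTau (γ • τ)).latticeEquivProd.symm p : ℂ)
      = ((pairTau τ).latticeEquivProd.symm (e p) : ℂ) := fun p => by
    simp only [PeriodPair.latticeEquiv_symm_apply]
    simp only [pairTau, hτ, e, Equiv.coe_fn_mk, vecMulSL, Int.cast_add, Int.cast_mul]
    field_simp
    rw [hcdef]
    ring
  rw [pDiv, pDiv, weierstrassP_homogeneous _ _ e he, show c * divPoint L v (γ • τ)
      = divPoint L (vecMulSL v γ) τ by
    simp only [divPoint, hτ, vecMulSL, Int.cast_add, Int.cast_mul]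
    field_simp
    rw [hcdef]
    ring]
  ring

theorem hasSum_pDiv {L : ℕ} (hL : 0 < L) {v : ℤ × ℤ} (hv : NonzeroMod L v) (τ : ℍ) :
    HasSum (fun n : ℕ => wpCoeff L (zetaRoot L) v n * tParam L τ ^ n) (pDiv L v τ) := by
  have hnn : 0 ≤ v.1 % (L : ℤ) := Int.emod_nonneg _ (by simpa using hL.ne')
  obtain ⟨a, ha⟩ := Int.eq_ofNat_of_zero_le hnn
  have haL : a < L := by
    have := Int.emod_lt_of_pos v.1 (Int.natCast_pos.mpr hL)
    omega
  have hd : (L : ℤ) ∣ (a : ℤ) - v.1 := by rw [← ha]; exact dvd_sub_comm.mp (Int.dvd_self_sub_emod)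
  have hv' : NonzeroMod L ((a : ℤ), v.2) := fun h => hv ⟨(dvd_sub_right h.1).mp hd, h.2⟩
  have h := hasSum_pDiv_of_range hL haL v.2 hv' τ
  rw [pDiv_congr hL (v := ((a : ℤ), v.2)) (w := v) hd (by simp) τ] at h
  refine h.congr_fun fun n => ?_
  have hdv : ((L : ℤ) ∣ (a : ℤ)) ↔ ((L : ℤ) ∣ v.1) :=
    ⟨fun h => (dvd_sub_right h).mp hd, fun h => (dvd_sub_left h).mp hd⟩
  have hmod : ((a : ℤ) % (L : ℤ)) = v.1 % (L : ℤ) := by rw [← ha, Int.emod_emod_of_dvd _ dvd_rfl]
  simp only [wpCoeff, hdv, hmod]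

end FermatAgent.Igusa
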