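import Fermat.Agent.Igusa.UpperTriangular
import Fermat.Agent.Igusa.Fibre.WpProps

/-!
# Roots of unity and units in a coefficient ring
-/

set_option autoImplicit false

noncomputable section

open Complex
open scoped Real

namespace FermatAgent.Igusa

open FermatAgent.ModFun

/-- A nonzero element of `R` with inverse in `R`. -/
def IsUnitIn (R : Subring ℂ) (x : ℂ) : Prop := x ≠ 0 ∧ x ∈ R ∧ x⁻¹ ∈ R

namespace IsUnitIn

variable {R : Subring ℂ} {x y : ℂ}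

theorem mul (hx : IsUnitIn R x) (hy : IsUnitIn R y) : IsUnitIn R (x * y) :=
  ⟨mul_ne_zero hx.1 hy.1, mul_mem hx.2.1 hy.2.1, by rw [mul_inv]; exact mul_mem hx.2.2 hy.2.2⟩

theorem inv (hx : IsUnitIn R x) : IsUnitIn R x⁻¹ :=
  ⟨inv_ne_zero hx.1, hx.2.2, by rw [inv_inv]; exact hx.2.1⟩

theorem div (hx : IsUnitIn R x) (hy : IsUnitIn R y) : IsUnitIn R (x / y) := by
  rw [div_eq_mul_inv]; exact hx.mul hy.inv

theorem neg (hx : IsUnitIn R x) : IsUnitIn R (-x) :=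
  ⟨neg_ne_zero.mpr hx.1, neg_mem hx.2.1, by rw [inv_neg]; exact neg_mem hx.2.2⟩

theorem pow (hx : IsUnitIn R x) (n : ℕ) : IsUnitIn R (x ^ n) :=
  ⟨pow_ne_zero _ hx.1, pow_mem hx.2.1 n, by rw [← inv_pow]; exact pow_mem hx.2.2 n⟩

theorem isUnit_mk (hx : IsUnitIn R x) : IsUnit (⟨x, hx.2.1⟩ : R) :=
  IsUnit.of_mul_eq_one ⟨x⁻¹, hx.2.2⟩ (Subtype.ext (mul_inv_cancel₀ hx.1))

end IsUnitIn

variable (L : ℕ) [NeZero L]

omit [NeZero L] in
theorem zetaRoot_eq_expUnit (b : ℤ) : zetaRoot L ^ b = ((expUnit ((b : ℝ) / L) : ℂˣ) : ℂ) := by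
  rw [zetaRoot_zpow, expTwoPi, expUnit, Units.val_mk0]
  push_cast
  ring_nf

theorem zetaRoot_pow_natCast : zetaRoot L ^ L = 1 := by
  rw [← zpow_natCast, zetaRoot_zpow, expTwoPi_eq_one_iff]
  exact ⟨1, by rw [Int.cast_natCast, div_self (Nat.cast_ne_zero.mpr (NeZero.ne L)), Int.cast_one]⟩

theorem zetaRoot_zpow_pow (b : ℤ) : (zetaRoot L ^ b) ^ L = 1 := by
  rw [← zpow_natCast, ← zpow_mul, mul_comm, zpow_mul, zpow_natCast, zetaRoot_pow_natCast, one_zpow]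

theorem zetaRoot_zpow_eq_one_iff (b : ℤ) : zetaRoot L ^ b = 1 ↔ (L : ℤ) ∣ b := by
  have hL : (L : ℂ) ≠ 0 := Nat.cast_ne_zero.mpr (NeZero.ne L)
  rw [zetaRoot_zpow, expTwoPi_eq_one_iff]
  refine ⟨fun ⟨n, hn⟩ => ⟨n, ?_⟩, fun ⟨n, hn⟩ => ⟨n, ?_⟩⟩
  · rw [div_eq_iff hL, mul_comm] at hn
    exact_mod_cast hn
  · subst hn
    push_cast
    field_simp

omit [NeZero L] in
theorem zetaRoot_ne_zero (b : ℤ) : zetaRoot L ^ b ≠ 0 := by
  rw [zetaRoot_zpow]; exact expTwoPi_ne_zero _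

theorem zetaRoot_zpow_congr {a b : ℤ} (h : (L : ℤ) ∣ a - b) : zetaRoot L ^ a = zetaRoot L ^ b := by
  have h1 : zetaRoot L ≠ 0 := by simpa using zetaRoot_ne_zero L 1
  rw [show a = (a - b) + b by ring, zpow_add₀ h1, (zetaRoot_zpow_eq_one_iff L _).mpr h, one_mul]

variable {L} {R : Subring ℂ}

omit [NeZero L] in
theorem zetaRoot_zpow_mem (hR : HasRoots L R) (b : ℤ) : zetaRoot L ^ b ∈ R := by
  rw [zetaRoot_eq_expUnit]; exact hR b

omit [NeZero L] in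
theorem isUnitIn_zetaRoot (hR : HasRoots L R) (b : ℤ) : IsUnitIn R (zetaRoot L ^ b) :=
  ⟨zetaRoot_ne_zero L b, zetaRoot_zpow_mem hR b, by
    rw [← zpow_neg]; exact zetaRoot_zpow_mem hR _⟩

/-- `(1 - ω) ∑ j ω^j = -L` for an `L`-th root of unity `ω ≠ 1`. -/
theorem isUnitIn_one_sub (hL : (L : ℂ)⁻¹ ∈ R) {ω : ℂ} (hω : ω ^ L = 1) (hR : ω ∈ R) (h1 : ω ≠ 1) :
    IsUnitIn R (1 - ω) := by
  have h0 : (1 - ω) ≠ 0 := sub_ne_zero.mpr (Ne.symm h1)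
  refine ⟨h0, sub_mem (one_mem R) hR, ?_⟩
  have hrec : ∀ n : ℕ, (1 - ω) * ∑ j ∈ Finset.range n, (j : ℂ) * ω ^ j =
      (∑ j ∈ Finset.range n, ω ^ j) - 1 - ((n : ℂ) - 1) * ω ^ n := by
    intro n
    induction n with
    | zero => simp
    | succ n ih =>
      rw [Finset.sum_range_succ, Finset.sum_range_succ, mul_add, ih]
      push_cast
      ring
  have hgeom : ∑ j ∈ Finset.range L, ω ^ j = 0 := by
    have := mul_geom_sum ω L
    rw [hω, sub_self] at this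
    exact (mul_eq_zero.mp this).resolve_left (sub_ne_zero.mpr h1)
  have key := hrec L
  rw [hgeom, hω] at key
  have : (1 - ω)⁻¹ = -((L : ℂ)⁻¹ * ∑ j ∈ Finset.range L, (j : ℂ) * ω ^ j) := by
    refine inv_eq_of_mul_eq_one_right ?_
    rw [mul_neg, mul_left_comm, key]
    field_simp [Nat.cast_ne_zero.mpr (NeZero.ne L)]
    ring
  rw [this]
  exact neg_mem (mul_mem hL (sum_mem fun j _ => mul_mem (natCast_mem R j) (pow_mem hR j)))

theorem isUnitIn_one_sub_zetaRoot (hR : HasRoots L R) (hL : (L : ℂ)⁻¹ ∈ R) {b : ℤ}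
    (hb : ¬ (L : ℤ) ∣ b) : IsUnitIn R (1 - zetaRoot L ^ b) :=
  isUnitIn_one_sub hL (zetaRoot_zpow_pow L b) (zetaRoot_zpow_mem hR b)
    fun h => hb ((zetaRoot_zpow_eq_one_iff L b).mp h)

theorem isUnitIn_zetaRoot_sub (hR : HasRoots L R) (hL : (L : ℂ)⁻¹ ∈ R) {a b : ℤ}
    (hab : ¬ (L : ℤ) ∣ a - b) : IsUnitIn R (zetaRoot L ^ a - zetaRoot L ^ b) := by
  have h1 : zetaRoot L ≠ 0 := by simpa using zetaRoot_ne_zero L 1
  have hb : ¬ (L : ℤ) ∣ b - a := fun h => hab (dvd_sub_comm.mp h)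
  convert (isUnitIn_zetaRoot hR a).mul (isUnitIn_one_sub_zetaRoot hR hL hb) using 1
  rw [mul_sub, mul_one, ← zpow_add₀ h1]
  ring_nf

end FermatAgent.Igusa

end
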